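/-
GATE-B / ProviderFlat **G2** (helper11): the B4 group of binders
`T a₁ a₂ a₁_D a₂_D a_U` (+ `[IsLocalRing T] [Module.Finite O T] [IsReduced T]`) of
`GB/B9/LevelMulti.nonempty_TWInput_multi` at helper95's named level
`Plug.tw Sy 𝔪 H h s k c hc hc1`, for the Hecke algebra of FORMS `A = heckeAlgebra N'' 2 ↑S`,
`N'' = N · ∏_{i < s+k} r i`, acting through helper44's twisted operators `T_ℓ ↦ ⟨d_ℓ⟩ T_ℓ`.

Assembly of: helper44 `TwInst.exists_tw_primeData` (the twist ring hom on the parabolic classes),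
helper74 `TwRestrictPlug.exists_twP / locHyp_twP` (restriction to the big level `P_Q`, (LOC)) and
`TQCompat` (descent to `M¹_Q`, `M^χ_Q`, compatible pairs), helper11
`Boundary.Mat.starStar_of_squarefree` ((BND) at squarefree level), helper12 `ImageRing` (local,
finite), helper66 `TQReduced.isReduced_TQ_hecke`.

* `TH_congr` : `T_ℓ` only depends on the prime;
* `hgen_of_sym` : helper74's generator hypothesis for `TwInst.exists_tw_primeData` when every prime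
  `ℓ ∉ S` is a symbol of `Sy` with `θA (T_ℓ) = ev (X_ℓ)`;
* `exists_dl_theta` : the half-diamonds `dℓ` exist (`TwFinal.exists_dl`);
* `exists_twV` : helper44's twist in the spelling `Theta (Δs p e) H.psi (s + k)`;
* **`exists_twP_hecke`** : `∃ twP : A →+* End_O P_Q`, `ι`-characterised on the generators
  (`ι (twP (T_ℓ) x) = ⟨dℓ ℓ⟩ T_ℓ (ι x)`), commuting with ALL diamonds `B.D i` and all symbols, with
  `LocHyp O θA twP`;
* for such a `twP` (`hD`): `tw₁`, `twχ` (`tw₁_fmk`, `twχ_fmk` : `rfl`), **`T`** `:= TQ O θA (prodTw O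
  tw₁ twχ)`, **`a₁`**, **`a₂`** (`a₁_chi`, `a₂_chi`), **`isLocalRing_T`**, **`finite_T`**,
  **`isReduced_T`**, **`a₁_D`**, **`a₂_D`**, **`a_U`**, `eq_zero_of_a₁_a₂`, `locHyp_T` — the binders of
  `nonempty_TWInput_multi` VERBATIM:
  `obtain ⟨twP, hι, hD, hact, hlocP⟩ := exists_twP_hecke …`, `haveI := isLocalRing_T …`, …,
  `nonempty_TWInput_multi … (tw Sy 𝔪 H h s k c hc hc1) hd₁ hd₂ (T …) (a₁ …) (a₂ …) (a₁_D …) (a₂_D …)
  (a_U …) …`.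
  (The statements are kept SMALL on purpose: a single `∃`-statement carrying all of this makes
  `obtain`/`have` on it take minutes.)
-/
import Mathlib
import Fermat.Agent.GE8.P3B.GB.B4.Twist.TwInst
import Fermat.Agent.GE8.P3B.GB.B4.Datum.TwRestrictPlug
import Fermat.Agent.GB.B4.Datum.TQReduced
import Fermat.Agent.GE8.P3B.GB.B3.Boundary.MatPlug
import Fermat.Agent.GE8.P3B.StepGen
import Fermat.Agent.GE8.P3B.Ok3W

/- TWIN (helper6 B4 generator; conventions of helper24 / helper86) of `Fermat.Agent.GB.B9.ProviderFlat.G2` with `p ≠ 3` relaxed to `Ok3A Sy 𝔪 p` / `Ok3W p W` (RISK-5 fix (B), step B4); everything below lives in the wrapper namespace `Fermat.Agent.GE8.P3B`. -/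
set_option linter.dupNamespace false
open Fermat Fermat.Agent Fermat.Agent.GB Fermat.Agent.GB.B3 Fermat.Agent.GB.B3.Boundary Fermat.Agent.GB.B3.ChiLevelMulti Fermat.Agent.GB.B3.EisGamma0 Fermat.Agent.GB.B3.GamH Fermat.Agent.GB.B3.HeckeActH Fermat.Agent.GB.B3.RealLevel Fermat.Agent.GB.B3.TWChars Fermat.Agent.GB.B3.TWLevel Fermat.Agent.GB.B4 Fermat.Agent.GB.B4.Datum Fermat.Agent.GB.B4.Datum.ImageRing Fermat.Agent.GB.B4.Datum.TQCompat Fermat.Agent.GB.B4.Datum.TQFields Fermat.Agent.GB.B4.Datum.TQReduced Fermat.Agent.GB.B4.Twist Fermat.Agent.GB.B4.Twist.Asm Fermat.Agent.GB.B4.Twist.TwFinal Fermat.Agent.GJ Fermat.Agent.GJ.J2 Fermat.Agent.GJ.J2.Lat Fermat.Agent.GM Fermat.Agent.GM.B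

namespace Fermat.Agent.GE8.P3B

set_option autoImplicit false
set_option linter.unusedSectionVars false
set_option linter.unusedVariables false
set_option linter.style.haveILetI false

noncomputable section

open scoped MatrixGroups
open CongruenceSubgroup ModularCurve.Period CuspForm

namespace GB.B9.ProviderFlat.G2

open GM.B GB.B3 GB.B3.EisGamma0
  GB.B3.HeckeActH GB.B3.RealLevel GB.B3.Tower
  GB.B3.TWChars GB.B3.FinalTW GB.B3.Plug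
  GB.B3.TWLevel GB.B3.GamH GB.B3.Boundary
  GB.B3.ChiLevelMulti GB.B3.Final
  GJ.J2.Lat
  GB.B4.Twist.Asm GB.B4.Twist.TwFinal GB.B4.Twist.TwInst
  GB.B4.Datum.ImageRing GB.B4.Datum.TQFields
  GB.B4.Datum.TQCompat GB.B4.Datum.TwRestrictPlug
  GB.B4.Datum.TQReduced

/-- local instance (Prop-valued class) -/
local instance factPrimeOffG2 {S : Set ℕ} (l : PrimesOff S) : Fact (l.1 : ℕ).Prime := ⟨l.1.2⟩

/-! ### `T_ℓ` only depends on the prime -/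

theorem TH_congr {N : ℕ} {Δ : Type} [CommGroup Δ] (θ : (ZMod N)ˣ →* Δ) (A : Type*)
    [AddCommGroup A] {ℓ ℓ' : ℕ} [Fact ℓ.Prime] [Fact ℓ'.Prime] (hℓℓ' : ℓ = ℓ') (hℓN : ¬ ℓ ∣ N)
    (hℓ'N : ¬ ℓ' ∣ N) (ψ : Additive (GammaH θ) →+ A) : TH θ A hℓN ψ = TH θ A hℓ'N ψ := by
  subst hℓℓ'
  rfl

/-! ### the generator hypothesis -/

section Gen

variable {N : ℕ} [NeZero N] (Sy : Symbols N) {Δ : Type} [CommGroup Δ] (θ : (ZMod N)ˣ →* Δ)
  {O : Type} [CommRing O] {N'' : ℕ} [NeZero N''] (S : Set ℕ)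
  (dℓ : PrimesOff S → Gamma0 N) (hnd : ∀ l : PrimesOff S, ¬ (l.1 : ℕ) ∣ N)
  (twV : ↥(heckeAlgebra N'' 2 S) →+* Module.End O ↥(parabolicHoms O (GammaH θ) O))
  (h1 : ∀ (l : PrimesOff S) (v : ↥(parabolicHoms O (GammaH θ) O)),
    ((twV (formsGenS N'' S l) v : ↥(parabolicHoms O (GammaH θ) O)) : Additive (GammaH θ) →+ O)
      = diaH θ O (dℓ l) (TH θ O (hnd l) (v : Additive (GammaH θ) →+ O)))
  {κ : Type*} [CommRing κ] (ev : Sy.𝕋 O →+* κ) (θA : ↥(heckeAlgebra N'' 2 S) →+* κ)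
  (hsym : ∀ l : PrimesOff S, ∃ i : Sy.ι₁, Sy.ℓ i = (l.1 : ℕ) ∧
    θA (formsGenS N'' S l) = ev (MvPolynomial.X (Sum.inl i)))

include h1 hsym in
/-- **helper74's generator hypothesis for helper44's twist**: `tw (T_ℓ) = ⟨dℓ ℓ⟩ ∘ act (X_ℓ)` and
`θA (T_ℓ) = ev (X_ℓ)` -/
theorem hgen_of_sym :
    ∀ g ∈ Set.range (formsGenS N'' S), ∃ (d : Gamma0 N) (u : Sy.𝕋 O), θA g = ev u ∧
      ∀ v : ↥(parabolicHoms O (GammaH θ) O),
        ((twV g v : ↥(parabolicHoms O (GammaH θ) O)) : Additive (GammaH θ) →+ O)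
          = diaH θ O d (actH Sy O θ u (v : Additive (GammaH θ) →+ O)) := by
  rintro _ ⟨l, rfl⟩
  obtain ⟨i, hi, hθ⟩ := hsym l
  refine ⟨dℓ l, MvPolynomial.X (Sum.inl i), hθ, fun v => ?_⟩
  haveI := Sy.factℓ i
  rw [h1, actH_X_inl]
  exact congrArg _ (TH_congr θ O hi.symm (hnd l) (Sy.hℓN i) _)

end Gen

/-! ### the fields at `Plug.tw` -/

section Fields

variable {N p : ℕ} [NeZero N] [hpF : Fact p.Prime] {K : ℕ} {r e N' : ℕ → ℕ}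
variable (Sy : Symbols N)
variable {O : Type} [CommRing O] [IsDomain O] [IsPrincipalIdealRing O] [IsLocalRing O]
  [IsAdicComplete (IsLocalRing.maximalIdeal O) O] [Module.IsTorsionFree ℤ O] [CharZero O]
variable (𝔪 : Ideal (Sy.𝕋 O)) [𝔪.IsMaximal]
variable (H : PrimeData N p K r e N') {ϖ : O} {s0 : Sy.ι₁} (h : Plug.Hyp Sy 𝔪 p ϖ s0)
variable (s k : ℕ) (c : Fin s → O) (hc : ∀ v : Fin s, c v ^ p ^ e (s + k - 1 - v) = 1)
  (hc1 : ∀ v, (1 : O) - c v ∈ Ideal.span {ϖ})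

/-- a level of positive rank with positive diamond orders is non-zero -/
theorem nontrivial_of_pos {𝕋 : Type} [CommRing 𝕋] [Algebra O 𝕋]
    {M0 : Type} [AddCommGroup M0] [Module O M0] {act0 : 𝕋 →ₐ[O] Module.End O M0}
    {k' : ℕ} {Nk : Fin k' → ℕ} (L : FreeLevel O 𝕋 M0 act0 k' Nk) (hd : 0 < L.d)
    (hN : ∀ i, 0 < Nk i) : Nontrivial L.M := by
  have hne : L.basis (fun i => ⟨0, hN i⟩, ⟨0, hd⟩) ≠ 0 := L.basis.ne_zero _
  exact ⟨⟨_, 0, hne⟩⟩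

/-- **the half-diamonds** `⟨dℓ ℓ⟩ = ⟨ℓ⟩^{-1/2}` at a stage of the tower -/
theorem exists_dl_theta (j : ℕ) (hjK : j ≤ K) (hp2 : p ≠ 2) (S : Set ℕ)
    (hnd : ∀ l : PrimesOff S, ¬ (l.1 : ℕ) ∣ N) :
    ∃ dℓ : PrimesOff S → Gamma0 N,
      ∀ (l : PrimesOff S) (u : (ZMod N)ˣ), (u : ZMod N) = ((l.1 : ℕ) : ZMod N) →
        chi (Theta (Δs p e) H.psi j) (dℓ l) ^ 2 * Theta (Δs p e) H.psi j u = 1 :=
  exists_dl (Theta (Δs p e) H.psi j) (Theta_surjective H j hjK) (odd_card_pi hpF.out hp2 e j) S hnd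

/-- helper44's twist on the parabolic classes, in the spelling of the B3 tower -/
theorem exists_twV (hjK : s + k ≤ K)
    {N'' : ℕ} [NeZero N''] (hN'' : N'' = N * ∏ i : Fin (s + k), r i)
    (S : Finset ℕ) (hS : ∀ q : ℕ, q.Prime → q ∣ N'' → q ∈ S)
    (dℓ : PrimesOff (↑S : Set ℕ) → Gamma0 N)
    (hdℓ : ∀ (l : PrimesOff (↑S : Set ℕ)) (u : (ZMod N)ˣ),
      (u : ZMod N) = ((l.1 : ℕ) : ZMod N) →
        chi (Theta (Δs p e) H.psi (s + k)) (dℓ l) ^ 2 * Theta (Δs p e) H.psi (s + k) u = 1)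
    (hnd : ∀ l : PrimesOff (↑S : Set ℕ), ¬ (l.1 : ℕ) ∣ N) (hp2 : p ≠ 2) :
    ∃ twV : ↥(heckeAlgebra N'' 2 (↑S : Set ℕ)) →+*
        Module.End O ↥(parabolicHoms O (GammaH (Theta (Δs p e) H.psi (s + k))) O),
      ∀ (l : PrimesOff (↑S : Set ℕ))
        (v : ↥(parabolicHoms O (GammaH (Theta (Δs p e) H.psi (s + k))) O)),
        ((twV (formsGenS N'' (↑S : Set ℕ) l) v :
            ↥(parabolicHoms O (GammaH (Theta (Δs p e) H.psi (s + k))) O)) :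
            Additive (GammaH (Theta (Δs p e) H.psi (s + k))) →+ O)
          = diaH (Theta (Δs p e) H.psi (s + k)) O (dℓ l)
              (TH (Theta (Δs p e) H.psi (s + k)) O (hnd l)
                (v : Additive (GammaH (Theta (Δs p e) H.psi (s + k))) →+ O)) := by
  have key := exists_tw_primeData (O := O) H hpF.out hp2 (s + k) hjK hN''
    (↑S : Set ℕ) (fun q hq hqN => Finset.mem_coe.2 (hS q hq hqN)) dℓ hdℓ
  exact ⟨key.choose, fun l v => key.choose_spec.1 l v⟩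

/-- **the twisted Hecke action on the big level** `P_Q`, with (LOC) -/
theorem exists_twP_hecke (hNsq : Squarefree N) (hjK : s + k ≤ K)
    {N'' : ℕ} [NeZero N''] (hN'' : N'' = N * ∏ i : Fin (s + k), r i)
    (S : Finset ℕ) (hS : ∀ q : ℕ, q.Prime → q ∣ N'' → q ∈ S)
    (dℓ : PrimesOff (↑S : Set ℕ) → Gamma0 N)
    (hdℓ : ∀ (l : PrimesOff (↑S : Set ℕ)) (u : (ZMod N)ˣ),
      (u : ZMod N) = ((l.1 : ℕ) : ZMod N) →
        chi (Theta (Δs p e) H.psi (s + k)) (dℓ l) ^ 2 * Theta (Δs p e) H.psi (s + k) u = 1)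
    (hnd : ∀ l : PrimesOff (↑S : Set ℕ), ¬ (l.1 : ℕ) ∣ N)
    (ev : Sy.𝕋 O →ₐ[O] IsLocalRing.ResidueField O) (hev : ∀ t ∈ 𝔪, ev t = 0)
    (θA : ↥(heckeAlgebra N'' 2 (↑S : Set ℕ)) →+* IsLocalRing.ResidueField O)
    (hsym : ∀ l : PrimesOff (↑S : Set ℕ), ∃ i : Sy.ι₁, Sy.ℓ i = (l.1 : ℕ) ∧
      θA (formsGenS N'' (↑S : Set ℕ) l) = ev (MvPolynomial.X (Sum.inl i))) :
    ∃ twP : ↥(heckeAlgebra N'' 2 (↑S : Set ℕ)) →+* Module.End O (bigLevel Sy 𝔪 H h (s + k)).M,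
      (∀ (l : PrimesOff (↑S : Set ℕ)) (x : (bigLevel Sy 𝔪 H h (s + k)).M),
        (bigReal Sy 𝔪 H h (s + k)).ι (twP (formsGenS N'' (↑S : Set ℕ) l) x) =
          diaH (Theta (Δs p e) H.psi (s + k)) O (dℓ l)
            (TH (Theta (Δs p e) H.psi (s + k)) O (hnd l)
              ((bigReal Sy 𝔪 H h (s + k)).ι x))) ∧
      (∀ t i, twP t * (bigLevel Sy 𝔪 H h (s + k)).D i =
        (bigLevel Sy 𝔪 H h (s + k)).D i * twP t) ∧
      (∀ t u, twP t * (bigLevel Sy 𝔪 H h (s + k)).act u =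
        (bigLevel Sy 𝔪 H h (s + k)).act u * twP t) ∧
      LocHyp O θA twP := by
  classical
  haveI := Sy.factℓ s0
  have hSS : StarStar (Theta (Δs p e) H.psi (s + k)) (Sy.hℓN s0) :=
    Mat.starStar_of_squarefree (Theta (Δs p e) H.psi (s + k)) hNsq (Sy.hℓN s0)
  obtain ⟨twV, h1⟩ := exists_twV (O := O) H s k hjK hN'' S hS dℓ hdℓ hnd h.hp2
  have hgen := hgen_of_sym Sy (Theta (Δs p e) H.psi (s + k)) (↑S : Set ℕ) dℓ hnd twV
    h1 (ev : Sy.𝕋 O →+* IsLocalRing.ResidueField O) θA hsym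
  have hG := GB.B4.Twist.TwHom.closure_range_formsGenS N'' (↑S : Set ℕ)
  have key := exists_twP Sy 𝔪 H h (s + k) hSS twV
    (Set.range (formsGenS N'' (↑S : Set ℕ))) hG
    (fun g hg => by
      obtain ⟨d, u, -, hv⟩ := hgen g hg
      exact ⟨d, u, hv⟩)
  obtain ⟨twP, hι, hD, hact⟩ := key
  have hlocP : LocHyp O θA twP :=
    locHyp_twP Sy 𝔪 H h (s + k) hSS twV (Set.range (formsGenS N'' (↑S : Set ℕ))) hG ev hev θA
      hgen twP hι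
  refine ⟨twP, fun l x => ?_, hD, hact, hlocP⟩
  rw [hι, h1]

/-! ### the ring `T_Q` and its two actions -/

section TQ

variable {N'' : ℕ} [NeZero N''] {S : Finset ℕ}
  (twP : ↥(heckeAlgebra N'' 2 (↑S : Set ℕ)) →+* Module.End O (bigLevel Sy 𝔪 H h (s + k)).M)
  (hD : ∀ t i, twP t * (bigLevel Sy 𝔪 H h (s + k)).D i =
    (bigLevel Sy 𝔪 H h (s + k)).D i * twP t)
  (θA : ↥(heckeAlgebra N'' 2 (↑S : Set ℕ)) →+* IsLocalRing.ResidueField O)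

/-- the action of the Hecke algebra of forms on `M¹_Q` -/
abbrev tw₁ : ↥(heckeAlgebra N'' 2 (↑S : Set ℕ)) →+*
    Module.End O (tw Sy 𝔪 H h s k c hc hc1).L1.M :=
  tw1 (bigLevel Sy 𝔪 H h (s + k)) twP hD (Nfun_pos hpF.out e (s + k)) ϖ c (hc_Nfun s k c hc) hc1

/-- the action of the Hecke algebra of forms on `M^χ_Q` -/
abbrev twχ : ↥(heckeAlgebra N'' 2 (↑S : Set ℕ)) →+*
    Module.End O (tw Sy 𝔪 H h s k c hc hc1).Lχ.M :=
  twChi (bigLevel Sy 𝔪 H h (s + k)) twP hD (Nfun_pos hpF.out e (s + k)) ϖ c (hc_Nfun s k c hc) hc1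

/-- **the ring `T_Q`** -/
abbrev T : Type :=
  TQ O θA (prodTw O (tw₁ Sy 𝔪 H h s k c hc hc1 twP hD) (twχ Sy 𝔪 H h s k c hc hc1 twP hD))

theorem tw₁_fmk (t : ↥(heckeAlgebra N'' 2 (↑S : Set ℕ))) (x : (bigLevel Sy 𝔪 H h (s + k)).M) :
    tw₁ Sy 𝔪 H h s k c hc hc1 twP hD t
        (fmk (frD (bigLevel Sy 𝔪 H h (s + k))) (fun _ => (1 : O)) x) =
      fmk (frD (bigLevel Sy 𝔪 H h (s + k))) (fun _ => (1 : O)) (twP t x) := rfl

theorem twχ_fmk (t : ↥(heckeAlgebra N'' 2 (↑S : Set ℕ))) (x : (bigLevel Sy 𝔪 H h (s + k)).M) :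
    twχ Sy 𝔪 H h s k c hc hc1 twP hD t (fmk (frD (bigLevel Sy 𝔪 H h (s + k))) c x) =
      fmk (frD (bigLevel Sy 𝔪 H h (s + k))) c (twP t x) := rfl

/-- (LOC) for the product action -/
theorem locHyp_T (hlocP : LocHyp O θA twP) :
    LocHyp O θA
      (prodTw O (tw₁ Sy 𝔪 H h s k c hc hc1 twP hD) (twχ Sy 𝔪 H h s k c hc hc1 twP hD)) :=
  haveI := finite_bigLevel Sy 𝔪 H h (s + k)
  locHyp_big (bigLevel Sy 𝔪 H h (s + k)) twP hD (Nfun_pos hpF.out e (s + k)) ϖ c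
    (hc_Nfun s k c hc) hc1 θA hlocP

theorem finite_L1 : Module.Finite O (tw Sy 𝔪 H h s k c hc hc1).L1.M :=
  Module.Finite.of_basis (tw Sy 𝔪 H h s k c hc hc1).L1.basis

theorem free_L1 : Module.Free O (tw Sy 𝔪 H h s k c hc hc1).L1.M :=
  Module.Free.of_basis (tw Sy 𝔪 H h s k c hc hc1).L1.basis

theorem finite_Lχ : Module.Finite O (tw Sy 𝔪 H h s k c hc hc1).Lχ.M :=
  Module.Finite.of_basis (tw Sy 𝔪 H h s k c hc hc1).Lχ.basis

theorem free_Lχ : Module.Free O (tw Sy 𝔪 H h s k c hc hc1).Lχ.M :=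
  Module.Free.of_basis (tw Sy 𝔪 H h s k c hc hc1).Lχ.basis

theorem nontrivial_L1 (hd : 0 < (bigLevel Sy 𝔪 H h (s + k)).d) :
    Nontrivial (tw Sy 𝔪 H h s k c hc hc1).L1.M :=
  nontrivial_of_pos (tw Sy 𝔪 H h s k c hc hc1).L1 hd
    (fun i => Nfun_pos hpF.out e (s + k) (Fin.natAdd s i))

/-- **`T_Q` is local** -/
theorem isLocalRing_T (hlocP : LocHyp O θA twP) (hd : 0 < (bigLevel Sy 𝔪 H h (s + k)).d) :
    IsLocalRing (T Sy 𝔪 H h s k c hc hc1 twP hD θA) :=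
  haveI : Fact (LocHyp O θA (prodTw O (tw₁ Sy 𝔪 H h s k c hc hc1 twP hD)
    (twχ Sy 𝔪 H h s k c hc hc1 twP hD))) := ⟨locHyp_T Sy 𝔪 H h s k c hc hc1 twP hD θA hlocP⟩
  haveI := finite_L1 Sy 𝔪 H h s k c hc hc1
  haveI := free_L1 Sy 𝔪 H h s k c hc hc1
  haveI := finite_Lχ Sy 𝔪 H h s k c hc hc1
  haveI := free_Lχ Sy 𝔪 H h s k c hc hc1
  haveI := nontrivial_L1 Sy 𝔪 H h s k c hc hc1 hd
  isLocalRing_TQ

/-- **`T_Q` is finite over `O`** -/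
theorem finite_T : Module.Finite O (T Sy 𝔪 H h s k c hc hc1 twP hD θA) :=
  haveI := finite_L1 Sy 𝔪 H h s k c hc hc1
  haveI := free_L1 Sy 𝔪 H h s k c hc hc1
  haveI := finite_Lχ Sy 𝔪 H h s k c hc hc1
  haveI := free_Lχ Sy 𝔪 H h s k c hc hc1
  moduleFinite_TQ

/-- **`T_Q` is reduced** -/
theorem isReduced_T (hlocP : LocHyp O θA twP) (hd : 0 < (bigLevel Sy 𝔪 H h (s + k)).d)
    (hS : ∀ q : ℕ, q.Prime → q ∣ N'' → q ∈ S) :
    IsReduced (T Sy 𝔪 H h s k c hc hc1 twP hD θA) :=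
  haveI : Fact (LocHyp O θA (prodTw O (tw₁ Sy 𝔪 H h s k c hc hc1 twP hD)
    (twχ Sy 𝔪 H h s k c hc hc1 twP hD))) := ⟨locHyp_T Sy 𝔪 H h s k c hc hc1 twP hD θA hlocP⟩
  haveI := finite_L1 Sy 𝔪 H h s k c hc hc1
  haveI := free_L1 Sy 𝔪 H h s k c hc hc1
  haveI := finite_Lχ Sy 𝔪 H h s k c hc hc1
  haveI := free_Lχ Sy 𝔪 H h s k c hc hc1
  haveI := nontrivial_L1 Sy 𝔪 H h s k c hc hc1 hd
  isReduced_TQ_hecke θA _ hS

/-- **`a₁`** -/
abbrev a₁ : T Sy 𝔪 H h s k c hc hc1 twP hD θA →ₐ[O]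
    Module.End O (tw Sy 𝔪 H h s k c hc hc1).L1.M :=
  actL O θA (tw₁ Sy 𝔪 H h s k c hc hc1 twP hD) (twχ Sy 𝔪 H h s k c hc hc1 twP hD)

/-- **`a₂`** -/
abbrev a₂ : T Sy 𝔪 H h s k c hc hc1 twP hD θA →ₐ[O]
    Module.End O (tw Sy 𝔪 H h s k c hc hc1).Lχ.M :=
  actR O θA (tw₁ Sy 𝔪 H h s k c hc hc1 twP hD) (twχ Sy 𝔪 H h s k c hc hc1 twP hD)

theorem a₁_chi (t : ↥(heckeAlgebra N'' 2 (↑S : Set ℕ))) :
    a₁ Sy 𝔪 H h s k c hc hc1 twP hD θA (chi O θA _ t) = tw₁ Sy 𝔪 H h s k c hc hc1 twP hD t :=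
  actL_chi O θA _ _ t

theorem a₂_chi (t : ↥(heckeAlgebra N'' 2 (↑S : Set ℕ))) :
    a₂ Sy 𝔪 H h s k c hc hc1 twP hD θA (chi O θA _ t) = twχ Sy 𝔪 H h s k c hc hc1 twP hD t :=
  actR_chi O θA _ _ t

/-- every element of `T_Q` acts through a compatible pair -/
theorem isCompat_T (t : T Sy 𝔪 H h s k c hc hc1 twP hD θA) :
    IsCompat (tw Sy 𝔪 H h s k c hc hc1) (a₁ Sy 𝔪 H h s k c hc hc1 twP hD θA t)
      (a₂ Sy 𝔪 H h s k c hc hc1 twP hD θA t) :=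
  isCompat_TQ (tw Sy 𝔪 H h s k c hc hc1) (tw₁ Sy 𝔪 H h s k c hc hc1 twP hD)
    (twχ Sy 𝔪 H h s k c hc hc1 twP hD) Set.univ (by rw [Algebra.adjoin_univ])
    (fun t _ => isCompat_quotTw (bigLevel Sy 𝔪 H h (s + k)) twP hD (Nfun_pos hpF.out e (s + k)) ϖ c
      (hc_Nfun s k c hc) hc1 t) θA t

/-- **`a₁_D`** -/
theorem a₁_D (t : T Sy 𝔪 H h s k c hc hc1 twP hD θA) (i : Fin k) :
    a₁ Sy 𝔪 H h s k c hc hc1 twP hD θA t * (tw Sy 𝔪 H h s k c hc hc1).L1.D i =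
      (tw Sy 𝔪 H h s k c hc hc1).L1.D i * a₁ Sy 𝔪 H h s k c hc hc1 twP hD θA t :=
  (isCompat_T Sy 𝔪 H h s k c hc hc1 twP hD θA t).1 i

/-- **`a₂_D`** -/
theorem a₂_D (t : T Sy 𝔪 H h s k c hc hc1 twP hD θA) (i : Fin k) :
    a₂ Sy 𝔪 H h s k c hc hc1 twP hD θA t * (tw Sy 𝔪 H h s k c hc hc1).Lχ.D i =
      (tw Sy 𝔪 H h s k c hc hc1).Lχ.D i * a₂ Sy 𝔪 H h s k c hc hc1 twP hD θA t :=
  (isCompat_T Sy 𝔪 H h s k c hc hc1 twP hD θA t).2.1 i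

/-- **`a_U`** -/
theorem a_U (t : T Sy 𝔪 H h s k c hc hc1 twP hD θA) (x : (tw Sy 𝔪 H h s k c hc hc1).L1.M)
    (y : (tw Sy 𝔪 H h s k c hc hc1).Lχ.M)
    (hxy : (tw Sy 𝔪 H h s k c hc hc1).U (Submodule.Quotient.mk x) = Submodule.Quotient.mk y) :
    (tw Sy 𝔪 H h s k c hc hc1).U
        (Submodule.Quotient.mk (a₁ Sy 𝔪 H h s k c hc hc1 twP hD θA t x)) =
      Submodule.Quotient.mk (a₂ Sy 𝔪 H h s k c hc hc1 twP hD θA t y) :=
  (isCompat_T Sy 𝔪 H h s k c hc hc1 twP hD θA t).2.2 x y hxy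

/-- joint faithfulness -/
theorem eq_zero_of_a₁_a₂ (t : T Sy 𝔪 H h s k c hc hc1 twP hD θA)
    (h₁ : a₁ Sy 𝔪 H h s k c hc hc1 twP hD θA t = 0)
    (h₂ : a₂ Sy 𝔪 H h s k c hc hc1 twP hD θA t = 0) : t = 0 :=
  eq_zero_of_actL_of_actR O θA _ _ t h₁ h₂

end TQ

end Fields

end GB.B9.ProviderFlat.G2

end

end Fermat.Agent.GE8.P3B
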