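/-
GATE-B / B9 PROVIDER (flat branch), G1 with ONE B3 framed step (helper51; seam of helper95 6395).

helper95's kill₁ chain (`L1Iso`, `UqOne`, `SeamQ`) is stated for `Plug.tw Sy 𝔪 H h 1 g c hc hc1`:
only `q` is a B3 step (`K = g + 1`), the other framed primes `v ≠ q` carry no diamond (R5).  The
number of framed primes of the LOCAL side (`RM O (s + 1) g`, `LevelMulti`) is independent of it.

* `Q.tw1 H hp3 heg hcq hcq1 := Plug.tw Q.Sy Q.𝔪 H (Q.hyp hp3) 1 g (fun _ => cq) _ _`,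
  `Q.d1`, `tw1_L1_d`, `tw1_Lχ_d`, `d1_pos`, `d1_le`, `Nfun_eq1`, `Nfun_pos1`;
* `Q.tw1F …` : at helper54's `H1.primeData_flat` (`Q.primeData`);
* `Q.exists_level1` : the level clause of `LevelMulti.nonempty_TWSystem_of_handle` at depth `n + 1`
  with the B3 group discharged, `s` (framed primes of the local side) ARBITRARY; G2..G7 are the
  hypotheses, stated on `Q.tw1F …`.
-/
import Fermat.Agent.GE8.P3B.GB.B9.ProviderFlat.G1Plug
import Fermat.Agent.GE8.P3B.StepGen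
import Fermat.Agent.GE8.P3B.Ok3W

/- TWIN (helper6 B4 generator; conventions of helper24 / helper86) of `Fermat.Agent.GB.B9.ProviderFlat.G1One` with `p ≠ 3` relaxed to `Ok3A Sy 𝔪 p` / `Ok3W p W` (RISK-5 fix (B), step B4); everything below lives in the wrapper namespace `Fermat.Agent.GE8.P3B`. -/
set_option linter.dupNamespace false
open Fermat Fermat.Agent Fermat.Agent.GB Fermat.Agent.GB.B3 Fermat.Agent.GB.B3.TWChars Fermat.Agent.GB.B3.TWLevel Fermat.Agent.GB.B9 Fermat.Agent.GB.B9.AlgHypKill2 Fermat.Agent.GB.B9.AlgHypMulti Fermat.Agent.GB.B9.ProviderFlat Fermat.Agent.GB.B9.ProviderFlat.H1 Fermat.Agent.GB.Local Fermat.Agent.GB.Local.Multi Fermat.Agent.GB.Local.Multi.Kill2Field Fermat.Agent.GB.Local.Multi.Kill2Q Fermat.Agent.GB.Local.R4Point Fermat.Agent.GB.Local.TamePoint Fermat.Agent.GB.Setup Fermat.Agent.GB.Setup.SetupPkg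

namespace Fermat.Agent.GE8.P3B

set_option autoImplicit false
set_option linter.unusedSectionVars false
set_option linter.unusedVariables false
set_option linter.style.haveILetI false

open IsLocalRing
open scoped MatrixGroups
open CongruenceSubgroup

namespace GB.B9.ProviderFlat.G1

open GB.Setup.SetupPkg GB.B3.TWLevel GB.B3.TWChars
  GB.B3.Final GB.B3.FinalTW GB.B3.Tower
  GB.B9.ProviderFlat.H1
  GB.Local.TamePoint GB.Local.R4Point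
  GB.Local.Multi GB.B9.AlgHypMulti GB.B9.AlgHypKill2
  GB.Local.Multi.Kill2Field GB.Local.Multi.Kill2Q Matrix

variable {p : ℕ} [hpF : Fact p.Prime] {W : WeierstrassCurve ℤ}
  {hcard₁ : Nat.card (Submodule.torsionBy ℤ
    ((W.map (Int.castRingHom ℚ)).toAffine.baseChange (AlgebraicClosure ℚ)).Point p) = p ^ 2}
  {hker : GaloisFactorsThroughFiniteLevel
    (WeierstrassCurve.Affine.Point.galoisRepModuleEnd (K := AlgebraicClosure ℚ) ℚ
      (W.map (Int.castRingHom ℚ)) p)}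
  {M A : ℕ} {P : Pkg p W hcard₁ hker M A} {g n : ℕ} (Q : TWSet P g n)

namespace TWSet

section One

variable {r e N' : ℕ → ℕ} (H : PrimeData Q.N p (g + 1) r e N') (hp3 : Ok3W p W)
  {cq : P.O} {eq : ℕ} (heg : e g = eq) (hcq : cq ^ p ^ eq = 1)
  (hcq1 : (1 : P.O) - cq ∈ Ideal.span {P.ϖ})

include heg hcq in
/-- the `hc` binder of `Plug.tw … 1 g (fun _ => cq)` -/
theorem hc_one (v : Fin 1) : (fun _ : Fin 1 => cq) v ^ p ^ e (1 + g - 1 - v) = 1 := by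
  have h1 : 1 + g - 1 - (v : ℕ) = g := by
    have := v.2
    omega
  rw [h1, heg]
  exact hcq

/-- **the `TWLevelData` with ONE B3 framed step** (`q`, character `cq`), `g` Taylor–Wiles primes:
`Plug.tw Q.Sy Q.𝔪 H (Q.hyp hp3) 1 g (fun _ => cq) _ _`. -/
noncomputable def tw1 :
    TWLevelData P.O P.ϖ (Q.Sy.𝕋 P.O) (M0 Q.Sy Q.𝔪 (Δs p e) H.psi) (act0 Q.Sy Q.𝔪 (Δs p e) H.psi)
      (GB.B3.ChiLevelMulti.ChiBaseM
        (GB.B3.Plug.bigLevel Q.Sy Q.𝔪 H (Q.hyp hp3) (1 + g)) (fun _ : Fin 1 => cq))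
      (GB.B3.ChiLevelMulti.chiBaseActM
        (GB.B3.Plug.bigLevel Q.Sy Q.𝔪 H (Q.hyp hp3) (1 + g)) (fun _ : Fin 1 => cq))
      g (fun i => Nfun p e (1 + g) (Fin.natAdd 1 i)) :=
  GB.B3.Plug.tw Q.Sy Q.𝔪 H (Q.hyp hp3) 1 g (fun _ => cq)
    (TWSet.hc_one (g := g) heg hcq) (fun _ => hcq1)

/-- the common rank -/
noncomputable def d1 : ℕ := (GB.B3.Plug.bigLevel Q.Sy Q.𝔪 H (Q.hyp hp3) (1 + g)).d

theorem tw1_L1_d : (Q.tw1 H hp3 heg hcq hcq1).L1.d = Q.d1 H hp3 := rfl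

theorem tw1_Lχ_d : (Q.tw1 H hp3 heg hcq hcq1).Lχ.d = Q.d1 H hp3 := rfl

/-- **`d ≤ D`** -/
theorem d1_le : Q.d1 H hp3 ≤ D P := by
  classical
  haveI : NeZero M := P.neZeroM
  exact GB.B8.LevelPlug.bigLevel_d_le Q.Sy Q.𝔪 H (Q.hyp hp3) Q.injective_ℓ
    Q.injective_r Q.hsurj M Q.lamBase Q.lamTop Q.αl Q.βl Q.Qset Q.hN Q.hQM Q.hTW Q.haway Q.h𝔪
    (1 + g)

/-- **`0 < d`** -/
theorem d1_pos : 0 < Q.d1 H hp3 := by
  classical
  haveI : NeZero M := P.neZeroM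
  exact GB.B8.LevelPlug.bigLevel_d_pos_of_hres Q.Sy Q.𝔪 H (Q.hyp hp3) Q.injective_ℓ
    Q.injective_r Q.hsurj M Q.lamBase Q.lamTop Q.αl Q.βl Q.Qset Q.hN Q.hQM Q.hTW Q.haway Q.h𝔪
    W Q.hres Q.symbols_good Q.hκp Q.lamBase_X (1 + g)

/-- the orders of the Taylor–Wiles diamonds of `Q.tw1` are all `p ^ (n + 1)` -/
theorem Nfun_eq1 (he : ∀ i, i < g → e i = n + 1) :
    (fun i : Fin g => Nfun p e (1 + g) (Fin.natAdd 1 i)) = fun _ => p ^ (n + 1) :=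
  GB.B3.Plug.Nfun_natAdd_eq_const 1 g (n + 1) he

theorem Nfun_pos1 (i : Fin g) : 0 < Nfun p e (1 + g) (Fin.natAdd 1 i) :=
  Nfun_pos hpF.out e (1 + g) _

end One

section Flat

variable {q eq : ℕ} (hq : q.Prime) (hqM : q ∣ M) (hsq : Squarefree M) (hcong : p ^ eq ∣ q - 1)
  (hp3 : Ok3W p W) {cq : P.O} (hcq : cq ^ p ^ eq = 1)
  (hcq1 : (1 : P.O) - cq ∈ Ideal.span {P.ϖ})

/-- **THE `TWLevelData` of the flat provider** at `Q`, ONE B3 framed step -/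
noncomputable def tw1F :=
  Q.tw1 (Q.primeData hq hqM hsq hcong) hp3 (eOf_eq (n + 1) eq) hcq hcq1

/-- its rank -/
noncomputable def d1F : ℕ := Q.d1 (Q.primeData hq hqM hsq hcong) hp3

theorem d1F_pos : 0 < Q.d1F hq hqM hsq hcong hp3 := Q.d1_pos _ hp3

theorem d1F_le : Q.d1F hq hqM hsq hcong hp3 ≤ D P := Q.d1_le _ hp3

/-- **THE LEVEL CLAUSE** of `LevelMulti.nonempty_TWSystem_of_handle` at depth `n + 1`; B3 group
discharged at `Q.tw1F` (ONE B3 framed step); `s + 1` framed primes on the local side. -/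
theorem exists_level1 (s : ℕ) {h : P.O} (hh : 2 * h = 1) (ℓ : Fin (s + 1) → ℕ)
    {J₂ : Ideal (RM P.O (s + 1) g)} (hkill : Kill2Handle h ℓ J₂)
    -- G2 (B4)
    (T : Type) [CommRing T] [IsLocalRing T] [Algebra P.O T] [Module.Finite P.O T] [IsReduced T]
    (a₁ : T →ₐ[P.O] Module.End P.O (Q.tw1F hq hqM hsq hcong hp3 hcq hcq1).L1.M)
    (a₂ : T →ₐ[P.O] Module.End P.O (Q.tw1F hq hqM hsq hcong hp3 hcq hcq1).Lχ.M)
    (a₁_D : ∀ t i, a₁ t * (Q.tw1F hq hqM hsq hcong hp3 hcq hcq1).L1.D i =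
      (Q.tw1F hq hqM hsq hcong hp3 hcq hcq1).L1.D i * a₁ t)
    (a₂_D : ∀ t i, a₂ t * (Q.tw1F hq hqM hsq hcong hp3 hcq hcq1).Lχ.D i =
      (Q.tw1F hq hqM hsq hcong hp3 hcq hcq1).Lχ.D i * a₂ t)
    (a_U : ∀ (t : T) (x : (Q.tw1F hq hqM hsq hcong hp3 hcq hcq1).L1.M)
      (y : (Q.tw1F hq hqM hsq hcong hp3 hcq hcq1).Lχ.M),
      (Q.tw1F hq hqM hsq hcong hp3 hcq hcq1).U (Submodule.Quotient.mk x) =
        Submodule.Quotient.mk y →
      (Q.tw1F hq hqM hsq hcong hp3 hcq hcq1).U (Submodule.Quotient.mk (a₁ t x)) =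
        Submodule.Quotient.mk (a₂ t y))
    -- G3 (B2 + B4)
    {ζ : Type} [Finite ζ] (e : ζ ≃ Fin (3 * (s + 1))) {RQ : Type} [CommRing RQ] [Algebra P.O RQ]
    (Θ₀ : RM P.O (s + 1) g →ₐ[P.O] MvPowerSeries ζ RQ) (hΘ₀ : Function.Surjective Θ₀)
    (ψ : RQ →ₐ[P.O] T) (hψ : Function.Surjective ψ)
    -- G4 (P5)
    (x : Fin g → T) (hx : ∀ i, x i - 1 ∈ maximalIdeal T)
    (unit₁ : ∀ i m, ∃ m', (Q.tw1F hq hqM hsq hcong hp3 hcq hcq1).L1.D i m - m = a₁ (x i) m' - m')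
    (unit₂ : ∀ i m, ∃ m', (Q.tw1F hq hqM hsq hcong hp3 hcq hcq1).Lχ.D i m - m = a₂ (x i) m' - m')
    -- G5
    (S F : Fin (s + 1) → Matrix (Fin 2) (Fin 2) T)
    (γ γi : Fin (s + 1) → Matrix (Fin 2) (Fin 2) (MvPowerSeries ζ T))
    (hFdet : ∀ v, (F v).det = (ℓ v : T)) (hrel : ∀ v, F v * S v = S v ^ ℓ v * F v)
    (hFres : ∀ v k, tl (algebraMap P.O T h) (F v) k ∈ maximalIdeal T)
    (hSres : ∀ v k, tl (algebraMap P.O T h) (S v) k ∈ maximalIdeal T)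
    (hγ : ∀ v, γ v * γi v = 1)
    (hΘa : ∀ v k, MvPowerSeries.map (ψ : RQ →+* T) (Θ₀ (aV P.O v k)) =
      tl (MvPowerSeries.C (algebraMap P.O T h)) (γ v * (F v).map MvPowerSeries.C * γi v) k)
    (hΘn : ∀ v k, MvPowerSeries.map (ψ : RQ →+* T) (Θ₀ (nV P.O v k)) =
      tl (MvPowerSeries.C (algebraMap P.O T h)) (γ v * (S v).map MvPowerSeries.C * γi v) k)
    (htr : ∀ v, v ≠ Fin.last s → (S v).trace = 2)
    (hSu : ∀ v, v ≠ Fin.last s → (S v - 1) ^ 2 = 0)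
    (hSdet : (S (Fin.last s)).det = 1)
    (hres : (S (Fin.last s)).trace - 2 ∈ maximalIdeal T)
    -- G6 (B5 at `q`)
    (hnu : ∀ i : GB.Glue.Points.Idx P.O (Tchi a₂),
      ((S (Fin.last s)).map (phi a₂ i) - 1) ^ 2 = 0 → (S (Fin.last s)).map (phi a₂ i) = 1)
    -- G7 (B7)
    (he : a₁ ((F (Fin.last s)).trace ^ 2 - (1 + (ℓ (Fin.last s) : T)) ^ 2) = 0) :
    ∃ d', 0 < d' ∧ d' ≤ D P ∧
      Nonempty (TWInput P.O P.ϖ (RM P.O (s + 1) g) (J1 s g ((ℓ (Fin.last s) : P.O) - 1)) J₂ g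
        (3 * (s + 1)) (fun _ => p ^ (n + 1)) d') := by
  refine ⟨Q.d1F hq hqM hsq hcong hp3, Q.d1F_pos hq hqM hsq hcong hp3,
    Q.d1F_le hq hqM hsq hcong hp3, ?_⟩
  refine TWInput.castN
    (TWSet.Nfun_eq1 (g := g) (n := n) (e := eOf g (n + 1) eq)
      (fun i hi => eOf_lt (n + 1) eq hi)) ?_
  exact GB.B9.LevelMulti.nonempty_TWInput_multi hh ℓ hkill
    (fun i => TWSet.Nfun_pos1 i) (Q.d1F_pos hq hqM hsq hcong hp3)
    (Q.tw1F hq hqM hsq hcong hp3 hcq hcq1) rfl rfl T a₁ a₂ a₁_D a₂_D a_U e Θ₀ hΘ₀ ψ hψ x hx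
    unit₁ unit₂ S F γ γi hFdet hrel hFres hSres hγ hΘa hΘn htr hSu hSdet hres hnu he

end Flat

end TWSet

end GB.B9.ProviderFlat.G1

end Fermat.Agent.GE8.P3B
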