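/-
GATE-B / B9 PROVIDER, group G4 = (P5) (helper6), file 8: **G4 on `Q.tw1F …` with the CORRECT
prime ↔ diamond pairing** (SEAM ALERT helper35, board 6793).

`Tower.dfun` puts the NEWEST step in front (`dfun_apply : dfun dd j i = dd (j - 1 - i)`), so the
`i`-th Taylor–Wiles diamond of `Plug.tw … 1 g …` (`tw.L1.D i`, `tw.Lχ.D i`, `unitSub … i`,
`Occ₁ … i`), i.e. `B.D (Fin.natAdd 1 i)`, is the diamond at the prime
`rOf Q.qv q (g - 1 - i) = Q.qv (Fin.rev i)` — NOT at `Q.qv i`.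

`exists_x_tw1F_rev` SUPERSEDES `G4TW.exists_x_tw1F` (and `G4TW.exists_x_twF`): same conclusion
(the binders `x hx unit₁ unit₂` of `G1.TWSet.exists_level1` VERBATIM), same G2/G3 binders, but the
open binders `h1 hB5₁ hB5₂` are stated at the prime `Q.qv (Fin.rev i)`, which is where they are
TRUE.  Proof: `G4.exists_x_of_residual` is generic in `r : Fin g → ℕ`; every fact on the
Taylor–Wiles primes of `Q` is symmetric in the index.
-/
import Fermat.Agent.GE8.P3B.GB.B9.ProviderFlat.G4TW1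
import Fermat.Agent.GE8.P3B.StepGen
import Fermat.Agent.GE8.P3B.Ok3W

/- TWIN (helper6 B4 generator; conventions of helper24 / helper86) of `Fermat.Agent.GB.B9.ProviderFlat.G4TW1Rev` with `p ≠ 3` relaxed to `Ok3A Sy 𝔪 p` / `Ok3W p W` (RISK-5 fix (B), step B4); everything below lives in the wrapper namespace `Fermat.Agent.GE8.P3B`. -/
set_option linter.dupNamespace false
open Fermat Fermat.Agent Fermat.Agent.Common_helper32 Fermat.Agent.GB Fermat.Agent.GB.B3 Fermat.Agent.GB.B3.TWChars Fermat.Agent.GB.B3.TWLevel Fermat.Agent.GB.B9 Fermat.Agent.GB.B9.ProviderFlat Fermat.Agent.GB.B9.ProviderFlat.G4 Fermat.Agent.GB.B9.ProviderFlat.H1 Fermat.Agent.GB.E2 Fermat.Agent.GB.E2.TWDiag Fermat.Agent.GB.Glue Fermat.Agent.GB.Glue.Points Fermat.Agent.GB.Setup Fermat.Agent.GB.Setup.SetupPkg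

namespace Fermat.Agent.GE8.P3B

set_option autoImplicit false
set_option linter.unusedSectionVars false
set_option linter.unusedVariables false
set_option linter.style.haveILetI false

open IsLocalRing
open scoped MatrixGroups
open CongruenceSubgroup

namespace GB.B9.ProviderFlat.G4TW

open Polynomial GB.Setup.SetupPkg GB.B3.TWLevel
  GB.B3.TWChars GB.B3.Final GB.B3.FinalTW
  GB.B3.Tower GB.B9.ProviderFlat.H1
  GB.B9.ProviderFlat.G1 GB.B9.ProviderFlat.G4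
  Common_helper32 GB.E2.TWDiag GB.Glue.Points

variable {p : ℕ} [hpF : Fact p.Prime] {W : WeierstrassCurve ℤ}
  {hcard₁ : Nat.card (Submodule.torsionBy ℤ
    ((W.map (Int.castRingHom ℚ)).toAffine.baseChange (AlgebraicClosure ℚ)).Point p) = p ^ 2}
  {hker : GaloisFactorsThroughFiniteLevel
    (WeierstrassCurve.Affine.Point.galoisRepModuleEnd (K := AlgebraicClosure ℚ) ℚ
      (W.map (Int.castRingHom ℚ)) p)}
  {M A : ℕ} {P : Pkg p W hcard₁ hker M A} {g n : ℕ} (Q : TWSet P g n)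

variable {q eq : ℕ} (hq : q.Prime) (hqM : q ∣ M) (hsq : Squarefree M) (hcong : p ^ eq ∣ q - 1)
  (hp3 : Ok3W p W) {cq : P.O} (hcq : cq ^ p ^ eq = 1)
  (hcq1 : (1 : P.O) - cq ∈ Ideal.span {P.ϖ})

/-- the prime of the `i`-th Taylor–Wiles diamond of `Q.tw1F …`:
`rOf Q.qv q (g - 1 - i) = Q.qv (Fin.rev i)` -/
theorem rOf_rev (i : Fin g) : rOf Q.qv q (g - 1 - (i : ℕ)) = Q.qv (Fin.rev i) := by
  have hi : g - 1 - (i : ℕ) < g := by have := i.2; omega
  rw [rOf_lt Q.qv q hi]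
  congr 1
  apply Fin.ext
  rw [Fin.val_rev]
  show g - 1 - (i : ℕ) = g - ((i : ℕ) + 1)
  omega

/-- **G4 on `Q.tw1F …`, correct pairing**: the binders `x hx unit₁ unit₂` of
`G1.TWSet.exists_level1`; the module index `i` goes with the prime `Q.qv (Fin.rev i)`. -/
theorem exists_x_tw1F_rev
    -- G2 (B4)
    (T : Type) [CommRing T] [IsLocalRing T] [Algebra P.O T] [IsLocalHom (algebraMap P.O T)]
    [Module.Finite P.O T] [IsReduced T] [IsNoetherianRing T] [IsAdicComplete (maximalIdeal T) T]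
    (a₁ : T →ₐ[P.O] Module.End P.O (Q.tw1F hq hqM hsq hcong hp3 hcq hcq1).L1.M)
    (a₂ : T →ₐ[P.O] Module.End P.O (Q.tw1F hq hqM hsq hcong hp3 hcq hcq1).Lχ.M)
    (a₁_D : ∀ t i, a₁ t * (Q.tw1F hq hqM hsq hcong hp3 hcq hcq1).L1.D i =
      (Q.tw1F hq hqM hsq hcong hp3 hcq hcq1).L1.D i * a₁ t)
    (a₂_D : ∀ t i, a₂ t * (Q.tw1F hq hqM hsq hcong hp3 hcq hcq1).Lχ.D i =
      (Q.tw1F hq hqM hsq hcong hp3 hcq hcq1).Lχ.D i * a₂ t)
    -- G3 : the Galois representation over `T`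
    (ρQ : GaloisRepAdic T) (hdet : ρQ.DetIsCyclotomic p)
    (hres : ρQ.residual.IsEquiv
      (P.rhobar.baseChangeAlong (ResidueField.map (algebraMap P.O T))))
    -- (1pt) at the prime `Q.qv (Fin.rev i)` of the `i`-th Taylor–Wiles diamond
    (h1 : ∀ (i : Fin g) (Pl : ValuationSubring Qb) (hPl : Pl.LiesOverPrime (Q.qv (Fin.rev i)))
      (σ : GQ) (hσ : σ ∈ Pl.inertiaSubgroupIn ℚ) (Bas : Module.Basis (Fin 2) T ρQ.V)
      (χ : Fin 2 → Pl.decompositionSubgroup ℚ →* Tˣ),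
      (∀ (j : Fin 2) (τ : Pl.decompositionSubgroup ℚ),
        ρQ.ρ (τ : GQ) (Bas j) = (χ j τ : T) • Bas j) →
      ∀ θ : T →ₐ[P.O] AlgebraicClosure (FractionRing P.O),
        (Occ₁ (Q.tw1F hq hqM hsq hcong hp3 hcq hcq1).L1 a₁ i θ ∨
          Occ₁ (Q.tw1F hq hqM hsq hcong hp3 hcq hcq1).Lχ a₂ i θ) →
          θ (χ 0 ⟨σ, inertia_le_decomposition Pl hσ⟩ : T) = 1)
    -- (B5) at the DVR points, at the prime `Q.qv (Fin.rev i)`
    (hB5₁ : ∀ (i : Fin g) (x : Idx P.O T)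
      (hloc : IsLocalHom ((ψ x : T →ₐ[P.O] Rq x) : T →+* Rq x)),
      (∀ t : T, (∀ m, a₁ t m ∈
        (Q.tw1F hq hqM hsq hcong hp3 hcq hcq1).L1.unitSub p dvd_nfun1 i) → ψ x t = 0) →
      ¬ (ρQ.baseChangeAlong ((ψ x : T →ₐ[P.O] Rq x) : T →+* Rq x) hloc).IsUnipotentOnInertiaAt
        (Q.qv (Fin.rev i)))
    (hB5₂ : ∀ (i : Fin g) (x : Idx P.O T)
      (hloc : IsLocalHom ((ψ x : T →ₐ[P.O] Rq x) : T →+* Rq x)),
      (∀ t : T, (∀ m, a₂ t m ∈
        (Q.tw1F hq hqM hsq hcong hp3 hcq hcq1).Lχ.unitSub p dvd_nfun1 i) → ψ x t = 0) →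
      ¬ (ρQ.baseChangeAlong ((ψ x : T →ₐ[P.O] Rq x) : T →+* Rq x) hloc).IsUnipotentOnInertiaAt
        (Q.qv (Fin.rev i))) :
    ∃ x : Fin g → T, (∀ i, x i - 1 ∈ maximalIdeal T) ∧
      (∀ i m, ∃ m', (Q.tw1F hq hqM hsq hcong hp3 hcq hcq1).L1.D i m - m = a₁ (x i) m' - m') ∧
      (∀ i m, ∃ m', (Q.tw1F hq hqM hsq hcong hp3 hcq hcq1).Lχ.D i m - m =
        a₂ (x i) m' - m') := by
  haveI : Module.IsTorsionFree P.O (AlgebraicClosure (FractionRing P.O)) :=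
    GB.B9.ProviderFlat.G4Pkg.isTorsionFree_algebraicClosure P.O
  exact exists_x_of_residual (Q.tw1F hq hqM hsq hcong hp3 hcq hcq1) P.hp2 P.hpO
    (fun i => ⟨n + 1, nfun_eq1 i⟩) dvd_nfun1 T a₁ a₂ a₁_D a₂_D
    (AlgebraicClosure (FractionRing P.O)) ρQ hdet P.rhobar hres
    (fun i => Q.qv (Fin.rev i)) (fun i => Q.prime (Fin.rev i))
    (fun i => dvd_qv_sub_one Q (Fin.rev i)) (fun i => unramified_qv Q (Fin.rev i))
    (fun i => charpoly_frob_qv Q (Fin.rev i)) h1 hB5₁ hB5₂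

end GB.B9.ProviderFlat.G4TW

end Fermat.Agent.GE8.P3B
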