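/-
GATE-B / B9 PROVIDER (flat branch), group **G7 = `he`** (helper52): `kill₁` at the objects of record
of one Taylor–Wiles level (helper51 `ProviderFlat/G1`, `G1Plug`).

For `Q : TWSet P g n`, the framed prime `q ∥ M` (`Squarefree M`), `Q.twF hq hqM hsq hcong hp3 0 …`
(B3 chain with ONE framed diamond = `q`, seam (S2) of board 6689):

* `Q.Nl q = M / q * ∏ qv` : the level lowered at `q`, `Q.N = Q.Nl q * q` (`N_eq`);
* `hbase_Nl` : the `𝔪_Q`-part of `Hom(Γ₀(Q.Nl q), O)` VANISHES when `W` is not residually modular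
  of level `M / q` (helper69 `N3.hbase_of_not_resMod` at `M / q` + `N3.act0_isLoc_eq_zero_of_base`
  through the Taylor–Wiles primes);
* `hbnd_N` : (BND) at every stage of the tower of `Q.N` (helper11/helper74 `Boundary`, squarefree);
* **`he_twF`** : the binder `he` of `Q.exists_level` / helper59 `G5Pkg.nonempty_TWInput_thetaAt`
  (for EVERY Kummer test pair at `q`), from `Kill1Var.he_plug_var`; binders left = the G2 outputs
  (`T_Q χ a₁ tw₁ twP …`) and the G3 outputs (`ψ ρ_Q` + characteristic polynomials).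
-/
import Mathlib
import Fermat.Agent.GE8.P3B.GB.B7.Kill1Var
import Fermat.Agent.GE8.P3B.GB.B9.ProviderFlat.G1Plug
import Fermat.Agent.GE8.P3B.GB.B9.ProviderFlat.N3
import Fermat.Agent.GE8.P3B.GB.B3.Boundary.MatPlug
import Fermat.Agent.GB.B3.Boundary.MatSqfree
import Fermat.Agent.GB.Def.LocGenInst
import Fermat.Agent.GE8.P3B.StepGen
import Fermat.Agent.GE8.P3B.Ok3W

/- TWIN (helper6 B4 generator; conventions of helper24 / helper86) of `Fermat.Agent.GB.B9.ProviderFlat.G7` with `p ≠ 3` relaxed to `Ok3A Sy 𝔪 p` / `Ok3W p W` (RISK-5 fix (B), step B4); everything below lives in the wrapper namespace `Fermat.Agent.GE8.P3B`. -/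
set_option linter.dupNamespace false
open Fermat Fermat.Agent Fermat.Agent.GB Fermat.Agent.GB.B3 Fermat.Agent.GB.B3.ChiLevelMulti Fermat.Agent.GB.B3.EisGamma0 Fermat.Agent.GB.B3.GamH Fermat.Agent.GB.B3.HeckeAct Fermat.Agent.GB.B3.HeckeActH Fermat.Agent.GB.B3.RealLevel Fermat.Agent.GB.B3.TWChars Fermat.Agent.GB.B3.TWLevel Fermat.Agent.GB.B7 Fermat.Agent.GB.B8 Fermat.Agent.GB.B8.LevelGen Fermat.Agent.GB.B8.LevelIter Fermat.Agent.GB.B9 Fermat.Agent.GB.B9.ProviderFlat Fermat.Agent.GB.B9.ProviderFlat.H1 Fermat.Agent.GB.B9.ThetaT Fermat.Agent.GB.Def Fermat.Agent.GB.Def.LocGenInst Fermat.Agent.GB.Setup Fermat.Agent.GB.Setup.SetupPkg Fermat.Agent.GJ Fermat.Agent.GJ.J2 Fermat.Agent.GJ.J2.Lat Fermat.Agent.GM Fermat.Agent.GM.B Fermat.Agent.GM.EisClass Fermat.Agent.S16_helper49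

namespace Fermat.Agent.GE8.P3B

set_option autoImplicit false
set_option linter.unusedSectionVars false
set_option linter.unusedVariables false
set_option linter.style.haveILetI false

noncomputable section

open scoped MatrixGroups
open CongruenceSubgroup Polynomial IsLocalRing CuspForm
open GM.B
open GB.B3 GB.B3.EisGamma0 GB.B3.GamH
open GB.B3.RealLevel GB.B3.HeckeActH GB.B3.HeckeAct
open GB.B3.TWChars GB.B3.Tower GB.B3.FinalTW
open GJ.J2.Lat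

namespace GB.B9.ProviderFlat.G7

/-- `G_ℚ`. -/
local notation "GQ" => AlgebraicClosure ℚ ≃ₐ[ℚ] AlgebraicClosure ℚ
/-- `ℚ̄`. -/
local notation "Qb" => AlgebraicClosure ℚ

open GB.B3.L1Iso GB.B3.Plug GB.B3.ChiLevelMulti
  GB.B3.Final GB.B3.TWLevel
  GB.B3.LocTransport S16_helper49 ModularCurve.Period
  GM.EisClass GB.B9.ThetaT
  GB.Setup.SetupPkg GB.B9.ProviderFlat.G1
  GB.B9.ProviderFlat.H1 GB.B7.Kill1Var
  GB.B8.LevelIter GB.B3.StepInst GB.B8.LevelGen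

variable {p : ℕ} [hpF : Fact p.Prime] {W : WeierstrassCurve ℤ}
  {hcard₁ : Nat.card (Submodule.torsionBy ℤ
    ((W.map (Int.castRingHom ℚ)).toAffine.baseChange (AlgebraicClosure ℚ)).Point p) = p ^ 2}
  {hker : GaloisFactorsThroughFiniteLevel
    (WeierstrassCurve.Affine.Point.galoisRepModuleEnd (K := AlgebraicClosure ℚ) ℚ
      (W.map (Int.castRingHom ℚ)) p)}
  {M A : ℕ} {P : Pkg p W hcard₁ hker M A} {g n : ℕ} (Q : TWSet P g n)

namespace TWSetG7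

/-! ### the level lowered at `q` -/

/-- the level lowered at the framed prime `q`: `M / q * ∏ qv` -/
def Nl (q : ℕ) : ℕ := M / q * ∏ i, Q.qv i

variable {q : ℕ}

theorem N_eq (hqM : q ∣ M) : Q.N = Nl Q q * q := by
  unfold TWSet.N Nl
  rw [mul_right_comm, Nat.div_mul_cancel hqM]

theorem Nl_ne_zero (hqM : q ∣ M) : Nl Q q ≠ 0 := by
  intro h0
  have h1 := N_eq Q hqM
  rw [h0, zero_mul] at h1
  exact Q.N_ne_zero h1

theorem neZero_Nl (hqM : q ∣ M) : NeZero (Nl Q q) := ⟨Nl_ne_zero Q hqM⟩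

theorem div_dvd_Nl : M / q ∣ Nl Q q := Dvd.intro _ rfl

include Q in
theorem div_ne_zero (hqM : q ∣ M) : M / q ≠ 0 := by
  intro h0
  apply Nl_ne_zero Q hqM
  unfold Nl
  rw [h0, zero_mul]

include Q in
theorem neZero_div (hqM : q ∣ M) : NeZero (M / q) := ⟨div_ne_zero Q hqM⟩

theorem squarefree_div {M q : ℕ} (hqM : q ∣ M) (hsq : Squarefree M) : Squarefree (M / q) :=
  Squarefree.squarefree_of_dvd (Nat.div_dvd_of_dvd hqM) hsq

theorem Nl_dvd_N (hqM : q ∣ M) : Nl Q q ∣ Q.N := Dvd.intro _ (N_eq Q hqM).symm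

/-- the `U`-symbols (= the Taylor–Wiles primes) divide the lowered level -/
theorem hrN (j : Q.Sy.ι₂) : Q.Sy.r j ∣ Nl Q q :=
  Dvd.dvd.mul_left (Finset.dvd_prod_of_mem _ (Finset.mem_univ (Q.iOf j))) _

/-- `q ∤ M / q * ∏ qv` -/
theorem hqN (hq : q.Prime) (hqM : q ∣ M) (hsq : Squarefree M) : ¬ q ∣ Nl Q q := by
  intro hd
  rcases (Nat.Prime.dvd_mul hq).mp hd with h | h
  · -- `q ∣ M / q` contradicts squarefreeness
    obtain ⟨c, hc⟩ := h
    have h2 : q * q ∣ M := by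
      refine ⟨c, ?_⟩
      rw [mul_assoc, ← hc, Nat.mul_div_cancel' hqM]
    exact hq.not_isUnit (hsq q h2)
  · obtain ⟨i, -, hi⟩ := (Prime.dvd_finsetProd_iff hq.prime _).mp h
    have heq : q = Q.qv i := (Nat.prime_dvd_prime_iff_eq hq (Q.prime i)).mp hi
    exact (Q.good i).2.1 (heq ▸ hqM)

/-- the Taylor–Wiles steps of the prime data divide the lowered level -/
theorem hrk (i : Fin g) : rOf Q.qv q (i : ℕ) ∣ Nl Q q := by
  rw [rOf_fin]
  exact Dvd.dvd.mul_left (Finset.dvd_prod_of_mem _ (Finset.mem_univ i)) _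

/-- the level `Q.N` is squarefree -/
theorem squarefree_N (hsq : Squarefree M) : Squarefree Q.N :=
  GB.B3.Boundary.Mat.squarefree_mul_prod_fin hsq Q.qv Q.prime Q.inj
    (fun i => (Q.good i).2.1)

/-! ### `hbase` at the lowered level -/

section HBase

variable {q : ℕ} (hqM : q ∣ M)

/-- the symbols of record, as symbols of the lowered level -/
abbrev SyL : Symbols (Nl Q q) := restrictVar Q.Sy (N_eq Q hqM) (hrN Q)

include hqM in
theorem div_dvd_N : M / q ∣ Q.N := (div_dvd_Nl Q).trans (Nl_dvd_N Q hqM)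

/-- **(N3) at the lowered level**: the `𝔪_Q`-part of `Hom(Γ₀(M / q * ∏ qv), O)` vanishes when `W` is
not residually modular of level `M / q` (helper69 `N3`). -/
theorem hbase_Nl (hsq : Squarefree M) (hno : ¬ W.IsResiduallyModularOfLevel p (M / q)) :
    ∀ y : Additive (Gamma0 (Nl Q q)) →+ P.O,
      IsLoc (HeckeActH.act0 (restrictVar Q.Sy (N_eq Q hqM) (hrN Q)) P.O) Q.𝔪 y → y = 0 := by
  classical
  haveI : NeZero (M / q) := neZero_div Q hqM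
  have hN0 : Q.N ≠ 0 := Q.N_ne_zero
  have hMN : M / q ∣ Q.N := div_dvd_N Q hqM
  -- through the Taylor–Wiles primes
  have hN : Nl Q q = M / q * ∏ s ∈ Q.Qset, prSy (SyL Q hqM) s := by
    unfold Nl
    rw [TWSet.Qset, Finset.prod_map]
    rfl
  have hQM : ∀ s ∈ Q.Qset, ¬ prSy (SyL Q hqM) s ∣ M / q := fun s hs h =>
    Q.hQM s hs (h.trans (Nat.div_dvd_of_dvd hqM))
  refine N3.act0_isLoc_eq_zero_of_base (SyL Q hqM) Q.injective_ℓ Q.injective_r Q.hsurj (M / q)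
    Q.lamBase Q.lamTop Q.αl Q.βl Q.Qset hN hQM Q.hTW Q.haway Q.𝔪 Q.h𝔪 ?_
  -- the base level `M / q`
  refine N3.hbase_of_not_resMod (SyL Q hqM) N3.hO_of_charZero (M / q) (squarefree_div hqM hsq)
    hpF.out W P.hΔ hno (Q.N.primeFactors ∪ {p} ∪ W.Δ.natAbs.primeFactors) ?_ ?_ ?_ Q.lamBase
    Q.hκp ?_ Q.s0 ?_ ?_
  · intro ℓ hℓ hℓM
    exact Finset.mem_union_left _ (Finset.mem_union_left _
      (Nat.mem_primeFactors.mpr ⟨hℓ, hℓM.trans hMN, hN0⟩))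
  · intro j
    exact Finset.mem_union_left _ (Finset.mem_union_left _
      (Nat.mem_primeFactors.mpr ⟨Q.Sy.hr j, Q.Sy.hrN j, hN0⟩))
  · intro ℓ hℓ hℓS
    rw [Finset.mem_union, Finset.mem_union, not_or, not_or] at hℓS
    obtain ⟨⟨h1, h2⟩, h3⟩ := hℓS
    have hℓN : ¬ ℓ ∣ Q.N := fun h => h1 (Nat.mem_primeFactors.mpr ⟨hℓ, h, hN0⟩)
    have hℓp : ℓ ≠ p := fun h => h2 (Finset.mem_singleton.mpr h)
    have hgood : W.IsGoodPrimeFor ℓ := by
      intro hd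
      exact h3 (Nat.mem_primeFactors.mpr
        ⟨hℓ, Int.natCast_dvd.mp hd, Int.natAbs_ne_zero.mpr P.hΔ⟩)
    exact ⟨(⟨ℓ, hℓ, hgood, hℓN, hℓp⟩ :
      {ℓ : ℕ // ℓ.Prime ∧ W.IsGoodPrimeFor ℓ ∧ ¬ ℓ ∣ Q.N ∧ ℓ ≠ p}), rfl⟩
  · intro i
    exact Q.lamBase_X (Sum.inl i)
  · intro h
    exact Q.Sy.hℓN Q.s0 (h.trans hMN)
  · have hnot : (Sum.inl Q.s0 : Q.Sy.ι₁ ⊕ Q.Sy.ι₂) ∉ Q.Qset := by
      intro hmem
      obtain ⟨j, hj⟩ := Q.mem_Qset.mp hmem
      exact Sum.inl_ne_inr hj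
    have hτtop : tauOf Q.Sy P.O Q.s0 ∉ RingHom.ker (Q.lamTop : Q.Sy.𝕋 P.O →+* P.k) := by
      rw [← Q.h𝔪]
      exact Q.hτ
    exact N3.tauOf_notMem_ker_base Q.Sy Q.lamBase Q.lamTop Q.s0 (Q.haway _ hnot) hτtop

end HBase

/-! ### (BND) at the level of record -/

section HBnd

variable {q eq : ℕ} (hq : q.Prime) (hqM : q ∣ M) (hsq : Squarefree M) (hcong : p ^ eq ∣ q - 1)
  (hp3 : Ok3W p W)

include hp3 in
/-- **(BND) at every stage of the tower of `Q.N`** (squarefree level; helper11/helper74). -/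
theorem hbnd_N (j : ℕ)
    (y : Additive (GammaH (Theta (Δs p (eOf g (n + 1) eq))
      (Q.primeData hq hqM hsq hcong).psi j)) →+ P.O)
    (hy : IsLoc (actH Q.Sy P.O (Theta (Δs p (eOf g (n + 1) eq))
      (Q.primeData hq hqM hsq hcong).psi j)) Q.𝔪 y) :
    y ∈ parabolicHoms P.O (GammaH (Theta (Δs p (eOf g (n + 1) eq))
      (Q.primeData hq hqM hsq hcong).psi j)) P.O :=
  GB.B3.Boundary.Mat.isLoc_mem_parabolicHoms_theta_of_squarefree Q.Sy Q.𝔪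
    (Q.primeData hq hqM hsq hcong) (Q.hyp hp3) (squarefree_N Q hsq) j hy

end HBnd

/-! ### the binder `he` -/

section He

open GB.Def.LocGenInst

variable {q eq : ℕ} (hq : q.Prime) (hqM : q ∣ M) (hsq : Squarefree M) (hcong : p ^ eq ∣ q - 1)
  (hp3 : Ok3W p W) {cq : P.O} (hcq : cq ^ p ^ eq = 1) (hcq1 : (1 : P.O) - cq ∈ Ideal.span {P.ϖ})
variable {TQ : Type} [CommRing TQ] [IsLocalRing TQ] [Algebra P.O TQ]
  {ρbar : ResidualGaloisRep (ResidueField P.O)}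
  {𝒟 : ∀ ⦃A : Type⦄ [CommRing A] [IsLocalRing A] [Algebra P.O A], GaloisRepAdic A → Prop}
  {DQ : GaloisRep.DeformationRingData P.O ρbar 𝒟}

/-- **G7 = the binder `he` of `Q.exists_level` / `G5Pkg.nonempty_TWInput_thetaAt` at
`Q.twF … 0 …`** (ONE B3-framed diamond, the one of `q`), for every Kummer test pair at `q`.

DISCHARGED here: the level bookkeeping (`Q.N = Nl Q q * q`), `hbase` (from
`¬ W.IsResiduallyModularOfLevel p (M / q)`), (BND).  LEFT: the G2 outputs `T_Q χ a₁ tw₁ twP`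
(`TwRestrictPlug.exists_twP`, `TQCompat.quotTw_fmk`, `TwInst.exists_tw_primeData`) and the G3
outputs `ψ ρ_Q` with the characteristic polynomials of Frobenius. -/
theorem he_twF (hno : ¬ W.IsResiduallyModularOfLevel p (M / q))
    (S : Finset ℕ) (hSN : ∀ ℓ : ℕ, ℓ.Prime → ℓ ∣ Q.N → ℓ ∈ S) (hpS : p ∈ S) (hqp : q ≠ p)
    {N' : ℕ} [NeZero N'] (hSN' : ∀ ℓ : ℕ, ℓ.Prime → ℓ ∣ N' → ℓ ∈ (↑S : Set ℕ))
    (ψ : DQ.R →ₐ[P.O] TQ) (hψ : IsLocalHom (ψ : DQ.R →+* TQ)) (ρQ : GaloisRepAdic TQ)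
    (hequiv : (DQ.ρ.baseChangeAlong (ψ : DQ.R →+* TQ) hψ).IsEquiv ρQ)
    (χ : ↥(heckeAlgebra N' 2 (↑S : Set ℕ)) →+* TQ)
    (hχ : Algebra.adjoin P.O (Set.range χ) = ⊤)
    (a₁ : TQ →ₐ[P.O] Module.End P.O (Q.twF hq hqM hsq hcong hp3 0 hcq hcq1).L1.M)
    (hred : ∀ t : TQ, a₁ t * a₁ t = 0 → a₁ t = 0)
    (tw₁ : ↥(heckeAlgebra N' 2 (↑S : Set ℕ)) →+*
      Module.End P.O (Q.twF hq hqM hsq hcong hp3 0 hcq hcq1).L1.M)
    (ha : ∀ t, a₁ (χ t) = tw₁ t)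
    (twP : ↥(heckeAlgebra N' 2 (↑S : Set ℕ)) →+*
      Module.End P.O (bigLevel Q.Sy Q.𝔪 (Q.primeData hq hqM hsq hcong) (Q.hyp hp3) (1 + g)).M)
    (hfmk : ∀ t (x : (bigLevel Q.Sy Q.𝔪 (Q.primeData hq hqM hsq hcong) (Q.hyp hp3) (1 + g)).M),
      tw₁ t (fmk (frD (bigLevel Q.Sy Q.𝔪 (Q.primeData hq hqM hsq hcong) (Q.hyp hp3) (1 + g)))
          (fun _ => (1 : P.O)) x)
        = fmk (frD (bigLevel Q.Sy Q.𝔪 (Q.primeData hq hqM hsq hcong) (Q.hyp hp3) (1 + g)))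
          (fun _ => (1 : P.O)) (twP t x))
    (hT : ∀ (ℓ : ℕ) (hℓ : ℓ.Prime) (hℓN' : ¬ ℓ ∣ N') (hℓS : ℓ ∉ (↑S : Set ℕ))
        (hℓN : ¬ ℓ ∣ Q.N),
      haveI : Fact ℓ.Prime := ⟨hℓ⟩
      ∃ d : Gamma0 Q.N,
        (∀ u : (ZMod Q.N)ˣ, (u : ZMod Q.N) = ((ℓ : ℕ) : ZMod Q.N) →
          chi (Theta (Δs p (eOf g (n + 1) eq)) (Q.primeData hq hqM hsq hcong).psi (1 + g)) d ^ 2 *
            Theta (Δs p (eOf g (n + 1) eq)) (Q.primeData hq hqM hsq hcong).psi (1 + g) u = 1) ∧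
        ∀ x : (bigLevel Q.Sy Q.𝔪 (Q.primeData hq hqM hsq hcong) (Q.hyp hp3) (1 + g)).M,
          (bigReal Q.Sy Q.𝔪 (Q.primeData hq hqM hsq hcong) (Q.hyp hp3) (1 + g)).ι
              (twP (heckeAlgebra.T hℓ hℓN' hℓS) x)
            = diaH (Theta (Δs p (eOf g (n + 1) eq)) (Q.primeData hq hqM hsq hcong).psi (1 + g))
                P.O d
                (TH (Theta (Δs p (eOf g (n + 1) eq)) (Q.primeData hq hqM hsq hcong).psi (1 + g))
                  P.O hℓN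
                  ((bigReal Q.Sy Q.𝔪 (Q.primeData hq hqM hsq hcong) (Q.hyp hp3) (1 + g)).ι x)))
    (hρ : ∀ (ℓ : ℕ) (hℓ : ℓ.Prime) (hℓN' : ¬ ℓ ∣ N') (hℓS : ℓ ∉ (↑S : Set ℕ)),
      ∀ A : ValuationSubring Qb, A.LiesOverPrime ℓ → ∀ σ : GQ, A.IsFrobeniusAt σ ℓ →
        LinearMap.charpoly (ρQ.ρ σ)
          = X ^ 2 - C (χ (heckeAlgebra.T hℓ hℓN' hℓS)) * X + C ((ℓ : TQ))) :
    haveI : Fact q.Prime := ⟨hq⟩
    ∀ φ τ₀ : GQ, KummerTests q p φ τ₀ →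
      a₁ ((matT ψ φ).trace ^ 2 - (1 + (q : TQ)) ^ 2) = 0 := by
  haveI : Fact q.Prime := ⟨hq⟩
  intro φ τ₀ hK
  haveI : NeZero (Nl Q q) := neZero_Nl Q hqM
  obtain ⟨x, ζ, hx, hζ, hφ, hτ, hτx⟩ := hK
  exact he_plug_var (N_eq Q hqM) Q.Sy (hrN Q) (hqN Q hq hqM hsq) Q.𝔪
    (Q.primeData hq hqM hsq hcong) (Q.hyp hp3) g (cFam 0 cq)
    (cFam_pow 0 g (eOf_eq (n + 1) eq) hcq) (cFam_sub_mem 0 hcq1) (Nat.le_succ g) (hrk Q)
    (hbase_Nl Q hqM hsq hno) (hbnd_N Q hq hqM hsq hcong hp3 g) S hSN hpS hqp hSN' ψ hψ ρQ hequiv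
    χ hχ a₁ hred tw₁ ha twP hfmk hT hρ (padicPlace q)
    (GP.Loc.TWLocalHlc.natCast_mem_nonunits_padicPlace q) φ hφ

end He

end TWSetG7

end GB.B9.ProviderFlat.G7

end

end Fermat.Agent.GE8.P3B
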