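/-
GATE-B / B9 PROVIDER (flat branch), group **G6 = `hnu`** at THE `TWLevelData` of record
`Q.tw1F hq hqM hsq hcong hp3 hcq hcq1` (helper51 `G1One`) (helper35) — twin of helper52's
`G7One.he_tw1F`, same binder spelling for the G2 outputs (`χ a₂ twχ ha twP hfmk hT`) and the G3
outputs (`ψ hψ ρQ hequiv hρ` + the residual conjunct `hres`).

`hnu_tw1F` : the binder `hnu` of `Q.exists_level1` / `Lower.GroupsOn` / helper59
`G5Pkg.nonempty_TWInput_thetaAt`, for EVERY Kummer test pair at `q`: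
`∀ φ τ₀, KummerTests q p φ τ₀ → ∀ i, ((matT ψ τ₀).map (phi a₂ i) - 1)² = 0 → … = 1`.

DISCHARGED: (BND) at the stage `1 + g` (squarefree level, `G7.hbnd_N`), the frame of B5-POINT at
the prime data (`Glue/FramePD`), `tw_ℂ`/`tw_O` (`TwInst.exists_tw_primeData`), B5-POINT + S36PLUS
(`Glue/HnuPlug.hnu_plug`), the tame generator (`TameGenKummer.isTameGenerator_of_kummer`), residual
unramifiedness at `q` (from `hres` + `ρ̄` unramified at `q`), `charpoly (matT ψ τ₀)`.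
-/
import Mathlib
import Fermat.Agent.GE8.P3B.GB.B5.Glue.HnuPlug
import Fermat.Agent.GE8.P3B.GB.B9.ProviderFlat.G7
import Fermat.Agent.GE8.P3B.GB.B9.ProviderFlat.G1One
import Fermat.Agent.GB.B9.ProviderFlat.G4Res
import Fermat.Agent.GB.E2.TameGenKummer
import Fermat.Agent.GE8.P3B.StepGen
import Fermat.Agent.GE8.P3B.Ok3W

/- TWIN (helper6 B4 generator; conventions of helper24 / helper86) of `Fermat.Agent.GB.B9.ProviderFlat.G6` with `p ≠ 3` relaxed to `Ok3A Sy 𝔪 p` / `Ok3W p W` (RISK-5 fix (B), step B4); everything below lives in the wrapper namespace `Fermat.Agent.GE8.P3B`. -/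
set_option linter.dupNamespace false
open Fermat Fermat.Agent Fermat.Agent.GB Fermat.Agent.GB.B3 Fermat.Agent.GB.B3.ChiLevelMulti Fermat.Agent.GB.B3.EisGamma0 Fermat.Agent.GB.B3.GamH Fermat.Agent.GB.B3.HeckeAct Fermat.Agent.GB.B3.HeckeActH Fermat.Agent.GB.B3.RealLevel Fermat.Agent.GB.B3.TWChars Fermat.Agent.GB.B3.TWLevel Fermat.Agent.GB.B9 Fermat.Agent.GB.B9.ProviderFlat Fermat.Agent.GB.B9.ProviderFlat.H1 Fermat.Agent.GB.B9.ThetaT Fermat.Agent.GB.Def Fermat.Agent.GB.Def.LocGenInst Fermat.Agent.GB.Local Fermat.Agent.GB.Local.Multi Fermat.Agent.GB.Local.Multi.Kill2Field Fermat.Agent.GB.Local.Multi.Kill2Q Fermat.Agent.GB.Setup Fermat.Agent.GB.Setup.SetupPkg Fermat.Agent.GJ Fermat.Agent.GJ.J2 Fermat.Agent.GJ.J2.Lat Fermat.Agent.GM Fermat.Agent.GM.B Fermat.Agent.S16_helper49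

namespace Fermat.Agent.GE8.P3B

set_option autoImplicit false
set_option linter.unusedSectionVars false
set_option linter.unusedVariables false
set_option linter.style.haveILetI false

noncomputable section

open scoped MatrixGroups
open CongruenceSubgroup Polynomial IsLocalRing CuspForm
open GM.B
open GB.B3 GB.B3.EisGamma0 GB.B3.GamH
open GB.B3.RealLevel GB.B3.HeckeActH GB.B3.HeckeAct
open GB.B3.TWChars GB.B3.Tower GB.B3.FinalTW
open GJ.J2.Lat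

namespace GB.B9.ProviderFlat.G6

/-- `G_ℚ`. -/
local notation "GQ" => AlgebraicClosure ℚ ≃ₐ[ℚ] AlgebraicClosure ℚ
/-- `ℚ̄`. -/
local notation "Qb" => AlgebraicClosure ℚ

open GB.B3.Plug GB.B3.ChiLevelMulti
  GB.B3.Final GB.B3.TWLevel
  S16_helper49 ModularCurve.Period
  GB.B9.ThetaT
  GB.Setup.SetupPkg GB.B9.ProviderFlat.G1
  GB.B9.ProviderFlat.H1
  GB.B3.StepInst
  GB.Def.LocGenInst
  GB.Local.Multi.Kill2Field GB.Local.Multi.Kill2Q

variable {p : ℕ} [hpF : Fact p.Prime] {W : WeierstrassCurve ℤ}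
  {hcard₁ : Nat.card (Submodule.torsionBy ℤ
    ((W.map (Int.castRingHom ℚ)).toAffine.baseChange (AlgebraicClosure ℚ)).Point p) = p ^ 2}
  {hker : GaloisFactorsThroughFiniteLevel
    (WeierstrassCurve.Affine.Point.galoisRepModuleEnd (K := AlgebraicClosure ℚ) ℚ
      (W.map (Int.castRingHom ℚ)) p)}
  {M A : ℕ} {P : Pkg p W hcard₁ hker M A} {g n : ℕ} (Q : TWSet P g n)

namespace TWSetG6

variable {q eq : ℕ} (hq : q.Prime) (hqM : q ∣ M) (hsq : Squarefree M) (hcong : p ^ eq ∣ q - 1)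
  (hp3 : Ok3W p W) {cq : P.O} (hcq : cq ^ p ^ eq = 1) (hcq1 : (1 : P.O) - cq ∈ Ideal.span {P.ϖ})
variable {TQ : Type} [CommRing TQ] [IsLocalRing TQ] [Algebra P.O TQ] [Module.Finite P.O TQ]
  [IsReduced TQ] [IsLocalHom (algebraMap P.O TQ)]
  {ρbar : ResidualGaloisRep (ResidueField P.O)}
  {𝒟 : ∀ ⦃A : Type⦄ [CommRing A] [IsLocalRing A] [Algebra P.O A], GaloisRepAdic A → Prop}
  {DQ : GaloisRep.DeformationRingData P.O ρbar 𝒟}

/-- **G6 = the binder `hnu` of `Q.exists_level1` / `Lower.GroupsOn` /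
`G5Pkg.nonempty_TWInput_thetaAt` at THE `TWLevelData` of record `Q.tw1F …`**, for every Kummer
test pair at `q`. -/
theorem hnu_tw1F (hcq0 : cq ≠ 1)
    (S : Finset ℕ) (hpS : p ∈ S) (hqp : q ≠ p)
    {N' : ℕ} [NeZero N'] (hN' : N' = Q.N * ∏ i : Fin (1 + g), rOf Q.qv q i)
    (hSN' : ∀ ℓ : ℕ, ℓ.Prime → ℓ ∣ N' → ℓ ∈ (↑S : Set ℕ))
    (ψ : DQ.R →ₐ[P.O] TQ) (hψ : IsLocalHom (ψ : DQ.R →+* TQ)) (ρQ : GaloisRepAdic TQ)
    (hequiv : (DQ.ρ.baseChangeAlong (ψ : DQ.R →+* TQ) hψ).IsEquiv ρQ)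
    (hres : ρQ.residual.IsEquiv
      (ρbar.baseChangeAlong (ResidueField.map (algebraMap P.O TQ))))
    (hunrbar : ρbar.IsUnramifiedAt q)
    (χ : ↥(heckeAlgebra N' 2 (↑S : Set ℕ)) →+* TQ)
    (a₂ : TQ →ₐ[P.O] Module.End P.O (Q.tw1F hq hqM hsq hcong hp3 hcq hcq1).Lχ.M)
    (twχ : ↥(heckeAlgebra N' 2 (↑S : Set ℕ)) →+*
      Module.End P.O (Q.tw1F hq hqM hsq hcong hp3 hcq hcq1).Lχ.M)
    (ha : ∀ t, a₂ (χ t) = twχ t)
    (twP : ↥(heckeAlgebra N' 2 (↑S : Set ℕ)) →+*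
      Module.End P.O (bigLevel Q.Sy Q.𝔪 (Q.primeData hq hqM hsq hcong) (Q.hyp hp3) (1 + g)).M)
    (hfmk : ∀ t (x : (bigLevel Q.Sy Q.𝔪 (Q.primeData hq hqM hsq hcong) (Q.hyp hp3) (1 + g)).M),
      twχ t (fmk (frD (bigLevel Q.Sy Q.𝔪 (Q.primeData hq hqM hsq hcong) (Q.hyp hp3) (1 + g)))
          (fun _ => cq) x)
        = fmk (frD (bigLevel Q.Sy Q.𝔪 (Q.primeData hq hqM hsq hcong) (Q.hyp hp3) (1 + g)))
          (fun _ => cq) (twP t x))
    (hT : ∀ (ℓ : ℕ) (hℓ : ℓ.Prime) (hℓN' : ¬ ℓ ∣ N') (hℓS : ℓ ∉ (↑S : Set ℕ))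
        (hℓN : ¬ ℓ ∣ Q.N),
      haveI : Fact ℓ.Prime := ⟨hℓ⟩
      ∃ d : Gamma0 Q.N,
        (∀ u : (ZMod Q.N)ˣ, (u : ZMod Q.N) = ((ℓ : ℕ) : ZMod Q.N) →
          chi (Theta (Δs p (eOf g (n + 1) eq)) (Q.primeData hq hqM hsq hcong).psi (1 + g)) d ^ 2 *
            Theta (Δs p (eOf g (n + 1) eq)) (Q.primeData hq hqM hsq hcong).psi (1 + g) u = 1) ∧
        ∀ x : (bigLevel Q.Sy Q.𝔪 (Q.primeData hq hqM hsq hcong) (Q.hyp hp3) (1 + g)).M,
          (bigReal Q.Sy Q.𝔪 (Q.primeData hq hqM hsq hcong) (Q.hyp hp3) (1 + g)).ι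
              (twP (heckeAlgebra.T hℓ hℓN' hℓS) x)
            = diaH (Theta (Δs p (eOf g (n + 1) eq)) (Q.primeData hq hqM hsq hcong).psi (1 + g))
                P.O d
                (TH (Theta (Δs p (eOf g (n + 1) eq)) (Q.primeData hq hqM hsq hcong).psi (1 + g))
                  P.O hℓN
                  ((bigReal Q.Sy Q.𝔪 (Q.primeData hq hqM hsq hcong) (Q.hyp hp3) (1 + g)).ι x)))
    (hρ : ∀ (ℓ : ℕ) (hℓ : ℓ.Prime) (hℓN' : ¬ ℓ ∣ N') (hℓS : ℓ ∉ (↑S : Set ℕ)),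
      ∀ A : ValuationSubring Qb, A.LiesOverPrime ℓ → ∀ σ : GQ, A.IsFrobeniusAt σ ℓ →
        LinearMap.charpoly (ρQ.ρ σ)
          = X ^ 2 - C (χ (heckeAlgebra.T hℓ hℓN' hℓS)) * X + C ((ℓ : TQ))) :
    haveI : Fact q.Prime := ⟨hq⟩
    ∀ φ τ₀ : GQ, KummerTests q p φ τ₀ →
      ∀ i : GB.Glue.Points.Idx P.O (Tchi a₂),
        ((matT ψ τ₀).map (phi a₂ i) - 1) ^ 2 = 0 → (matT ψ τ₀).map (phi a₂ i) = 1 := by
  haveI : Fact q.Prime := ⟨hq⟩
  intro φ τ₀ hK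
  obtain ⟨x, ζ, hx, hζ, hφ, hτ, hτx⟩ := hK
  have hPl : (padicPlace q).LiesOverPrime q :=
    GP.Loc.TWLocalHlc.natCast_mem_nonunits_padicPlace q
  have hrq : rOf Q.qv q g = q := rOf_eq Q.qv q
  -- residual unramifiedness at `q`
  have hunrQ : ρQ.residual.IsUnramifiedAt q := by
    obtain ⟨e⟩ := hres
    exact GB.B9.ProviderFlat.G4Res.isUnramifiedAt_of_isEquiv ⟨e.symm⟩
      (GB.B9.ProviderFlat.G4Res.isUnramifiedAt_baseChangeAlong _ hunrbar)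
  have hunr : ∀ σ ∈ (padicPlace q).inertiaSubgroupIn ℚ, ∀ v : ρQ.V,
      ρQ.ρ σ v - v ∈ maximalIdeal TQ • (⊤ : Submodule TQ ρQ.V) := fun σ hσ v =>
    GB.E2.TWDiag.sub_mem_smul_top_of_baseChange_eq_one (ρQ.ρ σ)
      (hunrQ (padicPlace q) hPl σ hσ) v
  -- the tame generator
  have hτ₀ : GB.E2.TameGenAdic.IsTameGenerator (padicPlace q) p τ₀ :=
    GB.E2.TameGenKummer.isTameGenerator_of_kummer (padicPlace q) hq hPl p
      (fun h => hqp h.symm) hx hζ hτ hτx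
  -- the characteristic polynomial of `matT ψ τ₀`
  have hSq : (matT ψ τ₀).charpoly = LinearMap.charpoly (ρQ.ρ τ₀) := by
    rw [charpoly_matT ψ hψ, S53_helper35.charpoly_eq_of_isEquiv hequiv]
  exact GB.B5.Glue.HnuPlug.hnu_plug Q.Sy Q.𝔪 (Q.primeData hq hqM hsq hcong)
    (Q.hyp hp3) g (fun _ => cq) (TWSet.hc_one (g := g) (eOf_eq (n + 1) eq) hcq) (fun _ => hcq1)
    (by omega) (GB.B9.ProviderFlat.G7.TWSetG7.hbnd_N Q hq hqM hsq hcong hp3 (1 + g))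
    S hpS (by rw [hrq]; exact hqp) P.hpO hN' hSN' ρQ χ a₂ twχ ha twP hfmk hT hρ
    (Q.d1F_pos hq hqM hsq hcong hp3) hcq0 (padicPlace q) (by rw [hrq]; exact hPl) hτ₀ hunr
    (matT ψ τ₀) hSq

end TWSetG6

end GB.B9.ProviderFlat.G6

end

end Fermat.Agent.GE8.P3B
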