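/-
GATE-B / B9 PROVIDER, flat branch, **LOWER HALF of the final assembly, file 2** (helper54, rulings
R7.2 / R8 of helper53): helper28's `Top.LevelConcl` / `Top.LevelStmt` from the record
`Lower.GroupsOn` on **helper51's level datum `Q.tw1F`** at every Taylor–Wiles set of the supply.

CONVENTIONS (fixed here, for every group):

* `Q : G1.TWSet P g n` from `G1.exists_TWSet` at the output of helper4's supply
  (`ThetaSupply.exists_theta_FL` / `_SO`, `S := P.S0`) at index `n` : `p ^ (n + 1) ∣ Q.qv i - 1`,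
  diamond orders `p ^ (n + 1)`, so the depth of `LevelConcl` is `n₀ + 1`;
* **ONE B3-framed prime** (helper51's `G1One.lean`, `Q.tw1F`; helper95's seam alert 6689, ruling
  R9 of helper53): only `q` is a step of the B3 tower (`K = g + 1`, step `g`), whatever the number
  `s + 1` of framed primes of B1/B2;
* the character at `q` is **`cq := P.ζ`**, a primitive `p ^ a`-th root of unity, `a = v_p(q - 1)`
  (`eq := a`): `twQ Q hq hqM hsq hcong hp3 = Q.tw1F hq hqM hsq hcong hp3 (hζpow P) (hζsub P)`;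
* `D := G1.TWSet.D P = finrank P.O (Γ₀(M) →+ P.O)`.

* `level_Q` : ONE level from `ThetaAt` + `GroupsOn … (twQ …)` (G1 discharged);
* `levelConcl_of_supply` : `LevelConcl` from the conclusion of the supply (any `base`) and the
  groups at every `Q`;
* `levelConcl_FL`, `levelConcl_SO` : the same with the supply called inside
  (`RhobarCond.exists_theta_FL_pkg` / `ThetaSupply.exists_theta_SO`);
* `levelStmt_of_groups` : **`Top.LevelStmt`** from the groups in every flat context.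
-/
import Fermat.Agent.GB.B9.ProviderFlat.Lower
import Fermat.Agent.GE8.P3B.GB.B9.ProviderFlat.G1One
import Fermat.Agent.GE8.P3B.GB.B9.ProviderFlat.Top
import Fermat.Agent.GB.B9.RhobarCond
import Fermat.Agent.GE8.P3B.StepGen
import Fermat.Agent.GE8.P3B.Ok3W

/- TWIN (helper6 B4 generator; conventions of helper24 / helper86) of `Fermat.Agent.GB.B9.ProviderFlat.LowerQ` with `p ≠ 3` relaxed to `Ok3A Sy 𝔪 p` / `Ok3W p W` (RISK-5 fix (B), step B4); everything below lives in the wrapper namespace `Fermat.Agent.GE8.P3B`. -/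
set_option linter.dupNamespace false
open Fermat Fermat.Agent Fermat.Agent.GB Fermat.Agent.GB.B3 Fermat.Agent.GB.B3.TWLevel Fermat.Agent.GB.B9 Fermat.Agent.GB.B9.AlgHypKill2 Fermat.Agent.GB.B9.AlgHypMulti Fermat.Agent.GB.B9.ProviderFlat Fermat.Agent.GB.B9.ProviderFlat.H1 Fermat.Agent.GB.B9.ProviderFlat.Lower Fermat.Agent.GB.B9.ThetaSupply Fermat.Agent.GB.Def Fermat.Agent.GB.Def.FramedNodes Fermat.Agent.GB.Local Fermat.Agent.GB.Local.Multi Fermat.Agent.GB.PatchSupp Fermat.Agent.GB.Setup Fermat.Agent.GB.Setup.SetupPkg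

namespace Fermat.Agent.GE8.P3B

set_option autoImplicit false
set_option linter.unusedSectionVars false
set_option linter.unusedVariables false
set_option linter.style.haveILetI false

open WeierstrassCurve WeierstrassCurve.Affine.Point IsLocalRing
open scoped WeierstrassCurve.Affine

namespace GB.B9.ProviderFlat.LowerQ

open GB.Setup.SetupPkg
open GB.Def.FramedNodes
open GB.Local.Multi
open GB.B9.AlgHypMulti GB.B9.AlgHypKill2
open GB.B3.TWLevel GB.PatchSupp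
open GB.B9.ThetaSupply
open GB.B9.ProviderFlat.Lower GB.B9.ProviderFlat.G1
open GB.B9.ProviderFlat.H1 GB.B9.ProviderFlat.Top

noncomputable section

variable {p : ℕ} [Fact p.Prime] {W : WeierstrassCurve ℤ}
  {hcard₁ : Nat.card (Submodule.torsionBy ℤ
    ((W.map (Int.castRingHom ℚ))⁄(AlgebraicClosure ℚ)).Point p) = p ^ 2}
  {hker : GaloisFactorsThroughFiniteLevel
    (galoisRepModuleEnd (K := AlgebraicClosure ℚ) ℚ (W.map (Int.castRingHom ℚ)) p)}
  {M a : ℕ}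

/-! ### the character at `q` -/

theorem hζpow (P : Pkg p W hcard₁ hker M a) : P.ζ ^ p ^ a = 1 := P.hζ.pow_eq_one

theorem hζsub (P : Pkg p W hcard₁ hker M a) : (1 : P.O) - P.ζ ∈ Ideal.span {P.ϖ} :=
  P.one_sub_mem_of_pow_eq_one (hζpow P)

theorem hζne (P : Pkg p W hcard₁ hker M a) (ha : 1 ≤ a) : P.ζ ≠ 1 := by
  have hp : p.Prime := Fact.out
  intro h1
  have h2 : IsPrimitiveRoot (1 : P.O) (p ^ a) := h1 ▸ P.hζ
  have h3 : p ^ a = 1 := IsPrimitiveRoot.one_left_iff.mp h2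
  have h4 : 1 < p ^ a := Nat.one_lt_pow (by omega) hp.one_lt
  omega

/-! ### the level datum of the lower half -/

section TwQ

variable {P : Pkg p W hcard₁ hker M a} {g n : ℕ} (Q : TWSet P g n)
  {q : ℕ} (hq : q.Prime) (hqM : q ∣ M) (hsq : Squarefree M) (hcong : p ^ a ∣ q - 1)
  (hp3 : Ok3W p W)

/-- **THE `TWLevelData` of the lower half**: helper51's `Q.tw1F` (ONE B3-framed prime `q`),
character `P.ζ` of exact order `p ^ a`. -/
noncomputable abbrev twQ := Q.tw1F hq hqM hsq hcong hp3 (hζpow P) (hζsub P)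

/-- **ONE level of `LevelConcl`** at the Taylor–Wiles set `Q` (depth `n + 1`), G1 discharged. -/
theorem level_Q {s : ℕ} (ℓs : Fin (s + 1) → ℕ) (hinj : Function.Injective ℓs)
    [Fact (ℓs (Fin.last s)).Prime]
    (base : Finset ℕ → ∀ ⦃B : Type⦄ [CommRing B] [IsLocalRing B] [Algebra P.O B],
      GaloisRepAdic B → Prop)
    {Sig : Finset Nat.Primes}
    {DQ : GaloisRep.DeformationRingData P.O P.rhobar
      (framedCond p base P.Smin P.Su (Finset.univ.image Q.qv))}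
    (hΘ : ThetaAt P ℓs base Sig Q.qv DQ)
    {h : P.O} (hh : 2 * h = 1)
    {J₂ : Ideal (RM P.O (s + 1) g)} (hkill : Kill2Handle h ℓs J₂)
    (G : GroupsOn P ℓs base DQ (twQ Q hq hqM hsq hcong hp3)) :
    ∃ d', 0 < d' ∧ d' ≤ TWSet.D P ∧
      Nonempty (TWInput P.O P.ϖ (RM P.O (s + 1) g) (J1 s g ((ℓs (Fin.last s) : P.O) - 1)) J₂ g
        (3 * (s + 1)) (fun _ => p ^ (n + 1)) d') := by
  refine ⟨Q.d1F hq hqM hsq hcong hp3, Q.d1F_pos hq hqM hsq hcong hp3,
    Q.d1F_le hq hqM hsq hcong hp3, ?_⟩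
  refine TWInput.castN
    (TWSet.Nfun_eq1 (g := g) (n := n) (e := eOf g (n + 1) a)
      (fun i hi => eOf_lt (n + 1) a hi)) ?_
  exact nonempty_TWInput_of_groupsOn P ℓs hinj base hΘ hh hkill
    (fun i => TWSet.Nfun_pos1 i) (Q.d1F_pos hq hqM hsq hcong hp3)
    (twQ Q hq hqM hsq hcong hp3) rfl rfl G

end TwQ

/-! ### `LevelConcl` -/

section Concl

variable (P : Pkg p W hcard₁ hker M a)
  {q : ℕ} (hq : q.Prime) (hqM : q ∣ M) (hsq : Squarefree M) (hcong : p ^ a ∣ q - 1)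
  (hp3 : Ok3W p W)

/-- **what the groups owe in ONE context**: the record on `twQ Q …` for EVERY Taylor–Wiles set `Q`
(with `Q.qv` away from `Sig`) and EVERY deformation datum `DQ` with the `Θ`-package `ThetaAt`. -/
def GroupsQ {s : ℕ} (ℓs : Fin (s + 1) → ℕ) [Fact (ℓs (Fin.last s)).Prime]
    (base : Finset ℕ → ∀ ⦃B : Type⦄ [CommRing B] [IsLocalRing B] [Algebra P.O B],
      GaloisRepAdic B → Prop) (Sig : Finset Nat.Primes) (g : ℕ) : Prop :=
  ∀ (n : ℕ) (Q : TWSet P g n), (∀ i, ∀ q' ∈ Sig, ((q' : Nat.Primes) : ℕ) ≠ Q.qv i) →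
    ∀ DQ : GaloisRep.DeformationRingData P.O P.rhobar
      (framedCond p base P.Smin P.Su (Finset.univ.image Q.qv)),
      ThetaAt P ℓs base Sig Q.qv DQ →
        Nonempty (GroupsOn P ℓs base DQ (twQ Q hq hqM hsq hcong hp3))

/-- **`LevelConcl` from the conclusion of the supply** (`S := P.S0`) **and the groups**. -/
theorem levelConcl_of_supply {s : ℕ} (ℓs : Fin (s + 1) → ℕ) (hinj : Function.Injective ℓs)
    [Fact (ℓs (Fin.last s)).Prime]
    (base : Finset ℕ → ∀ ⦃B : Type⦄ [CommRing B] [IsLocalRing B] [Algebra P.O B],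
      GaloisRepAdic B → Prop)
    {Sig : Finset Nat.Primes} {g : ℕ}
    (hsup : ∀ n : ℕ, ∃ qv : Fin g → ℕ, Function.Injective qv ∧
      (∀ i, (qv i).Prime ∧ qv i ∉ P.S0 ∧ p ^ (n + 1) ∣ qv i - 1) ∧
      (∀ i, ∀ Pl : ValuationSubring (AlgebraicClosure ℚ), Pl.LiesOverPrime (qv i) →
        ∀ φ : AlgebraicClosure ℚ ≃ₐ[ℚ] AlgebraicClosure ℚ, Pl.IsFrobeniusAt φ (qv i) →
          ∃ α β : P.k, α ≠ β ∧
            LinearMap.charpoly (P.rhobar.ρ φ) = (Polynomial.X - Polynomial.C α) *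
              (Polynomial.X - Polynomial.C β)) ∧
      (∀ i, ∀ q' ∈ Sig, ((q' : Nat.Primes) : ℕ) ≠ qv i) ∧
      Nonempty (GaloisRep.DeformationRingData P.O P.rhobar
        (framedCond p base P.Smin P.Su (Finset.univ.image qv))) ∧
      ∀ DQ : GaloisRep.DeformationRingData P.O P.rhobar
        (framedCond p base P.Smin P.Su (Finset.univ.image qv)),
        ThetaAt P ℓs base Sig qv DQ)
    (hG : GroupsQ P hq hqM hsq hcong hp3 ℓs base Sig g)
    {h : P.O} (hh : 2 * h = 1) :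
    ∀ J₂ : Ideal (RM P.O (s + 1) g), Kill2Handle h ℓs J₂ → ∀ n₀ : ℕ, ∃ n, n₀ ≤ n ∧
      ∃ d', 0 < d' ∧ d' ≤ TWSet.D P ∧
        Nonempty (TWInput P.O P.ϖ (RM P.O (s + 1) g)
          (J1 s g ((ℓs (Fin.last s) : P.O) - 1)) J₂ g (3 * (s + 1)) (fun _ => p ^ n) d') := by
  intro J₂ hkill n₀
  obtain ⟨qv, hqinj, hTW1, hTW2, hTW3, ⟨DQ⟩, hΘ⟩ := hsup n₀
  obtain ⟨Q, rfl⟩ := exists_TWSet P P.S0 (fun _ hℓ => hℓ) qv hqinj hTW1 hTW2
  obtain ⟨G⟩ := hG n₀ Q hTW3 DQ (hΘ DQ)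
  exact ⟨n₀ + 1, Nat.le_succ n₀,
    level_Q Q hq hqM hsq hcong hp3 ℓs hinj base (hΘ DQ) hh hkill G⟩

end Concl

/-! ### the two branches -/

section Branches

variable (P : Pkg p W hcard₁ hker M a)
  {q : ℕ} (hq : q.Prime) (hqM : q ∣ M) (hsq : Squarefree M) (hcong : p ^ a ∣ q - 1)
  (hp3 : Ok3W p W)

theorem hpS0 : p ∈ P.S0 := Finset.mem_coe.mp P.hpS0

/-- **`LevelConcl`, FLAT branch** (`¬ p ∣ M`): supply = `RhobarCond.exists_theta_FL_pkg`. -/
theorem levelConcl_FL {s : ℕ} {ℓs : Fin (s + 1) → ℕ} [Fact (ℓs (Fin.last s)).Prime]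
    (E : FramedEnum P q s ℓs)
    (hSg : SgHyp p W hcard₁ hker M) (hpM : ¬ p ∣ M)
    (hG : ∀ Sig : Finset Nat.Primes, (∀ q' : Nat.Primes, (q' : ℕ) ∈ P.Smin ∪ P.Su → q' ∈ Sig) →
      ∀ g : ℕ, GroupsQ P hq hqM hsq hcong hp3 ℓs (GaloisRep.flatCondition P.O p) Sig g)
    {h : P.O} (hh : 2 * h = 1) : LevelConcl P ℓs h := by
  have hℓs : ∀ x, x ∈ P.Su ↔ ∃ i, ℓs i = x :=
    fun x => ⟨fun hx => E.all x hx, fun ⟨i, hi⟩ => hi ▸ E.mem i⟩
  obtain ⟨Sig, hSig, g, hr⟩ :=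
    GB.B9.RhobarCond.exists_theta_FL_pkg P ℓs hSg hpM hsq P.S0 (hpS0 P) hℓs
  exact ⟨g, TWSet.D P, levelConcl_of_supply P hq hqM hsq hcong hp3 ℓs E.inj
    (GaloisRep.flatCondition P.O p) hr (hG Sig hSig g) hh⟩

/-- **`LevelConcl`, STRICT-ORDINARY (`p`-new) branch**: supply = `ThetaSupply.exists_theta_SO`. -/
theorem levelConcl_SO {s : ℕ} {ℓs : Fin (s + 1) → ℕ} [Fact (ℓs (Fin.last s)).Prime]
    (E : FramedEnum P q s ℓs)
    (hSg : SgHyp p W hcard₁ hker M)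
    (hbar : ∀ Q : Finset ℕ,
      framedCond p (GaloisRep.strictOrdinaryCondition P.O p) P.Smin P.Su Q
        (GaloisRepAdic.ofResidualGaloisRep P.rhobar))
    (hG : ∀ Sig : Finset Nat.Primes, (∀ q' : Nat.Primes, (q' : ℕ) ∈ P.Smin ∪ P.Su → q' ∈ Sig) →
      ∀ g : ℕ, GroupsQ P hq hqM hsq hcong hp3 ℓs (GaloisRep.strictOrdinaryCondition P.O p) Sig g)
    {h : P.O} (hh : 2 * h = 1) : LevelConcl P ℓs h := by
  have hℓs : ∀ x, x ∈ P.Su ↔ ∃ i, ℓs i = x :=
    fun x => ⟨fun hx => E.all x hx, fun ⟨i, hi⟩ => hi ▸ E.mem i⟩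
  obtain ⟨Sig, hSig, g, hr⟩ := exists_theta_SO P ℓs hSg hbar P.S0 (hpS0 P) hℓs
  exact ⟨g, TWSet.D P, levelConcl_of_supply P hq hqM hsq hcong hp3 ℓs E.inj
    (GaloisRep.strictOrdinaryCondition P.O p) hr (hG Sig hSig g) hh⟩

end Branches

/-! ### `LevelStmt` -/

/-- `p ^ a ∣ q - 1` from the factorisation of `q - 1`. -/
theorem hcong_of_fac {p a n' q : ℕ} (hfac : q - 1 = p ^ a * n') : p ^ a ∣ q - 1 := ⟨n', hfac⟩

/-- `p ≠ 3` from `5 ≤ p`. -/
theorem hp3_of_hp5 {p : ℕ} (hp5 : 5 ≤ p) : p ≠ 3 := by omega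

/-- **what the groups G2, G3, G4, G6, G7 owe in the flat branch**: in every context of
`Top.LevelStmt`, the record `GroupsOn` on `twQ Q …` at every Taylor–Wiles set. -/
def FlatGroupsStmt : Prop :=
  ∀ (p : ℕ) [Fact p.Prime] (W : WeierstrassCurve ℤ)
    (hcard₁ : Nat.card (Submodule.torsionBy ℤ
      ((W.map (Int.castRingHom ℚ))⁄(AlgebraicClosure ℚ)).Point p) = p ^ 2)
    (hker : GaloisFactorsThroughFiniteLevel
      (galoisRepModuleEnd (K := AlgebraicClosure ℚ) ℚ (W.map (Int.castRingHom ℚ)) p))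
    (M q : ℕ) (C : FlatCtx p W hcard₁ hker M q)
    (a n' : ℕ) (hfac : q - 1 = p ^ a * n') (_ : ¬ p ∣ n') (_ : 1 ≤ a)
    (P : Pkg p W hcard₁ hker M a) (s : ℕ) (ℓ : Fin (s + 1) → ℕ) (E : FramedEnum P q s ℓ)
    (Sig : Finset Nat.Primes) (_ : ∀ q' : Nat.Primes, (q' : ℕ) ∈ P.Smin ∪ P.Su → q' ∈ Sig)
    (g : ℕ),
    haveI : Fact (ℓ (Fin.last s)).Prime := ⟨E.prime _⟩
    GroupsQ P C.hq C.hqM C.hsf (hcong_of_fac hfac) (Ok3W.of_semistable C.hss) ℓ
      (GaloisRep.flatCondition P.O p) Sig g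

/-- **THE LOWER HALF, flat branch**: `Top.LevelStmt` from the groups. -/
theorem levelStmt_of_groups (hG : FlatGroupsStmt) : LevelStmt := by
  intro p _ W hcard₁ hker M q C a n' hfac hn' ha P s ℓ E h hh
  haveI : Fact (ℓ (Fin.last s)).Prime := ⟨E.prime _⟩
  exact levelConcl_FL P C.hq C.hqM C.hsf (hcong_of_fac hfac) (Ok3W.of_semistable C.hss) E C.hSg C.hpM
    (fun Sig hSig g => hG p W hcard₁ hker M q C a n' hfac hn' ha P s ℓ E Sig hSig g) hh

end

end GB.B9.ProviderFlat.LowerQ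

end Fermat.Agent.GE8.P3B
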