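/-
GATE-B / B9 PROVIDER, flat branch, **LOWER HALF of the final assembly, file 4 = the FINAL WIRING**
(helper54): `LowerQ.FlatGroupsStmt`, i.e. the record `Lower.GroupsOn` on helper51's level datum
`Q.tw1F …` at EVERY Taylor–Wiles set `Q` of EVERY flat context, from the landed groups

* G2 : helper11 `G2.lean` (`exists_dl_theta`, `exists_twP_hecke`, `T a₁ a₂ a₁_D a₂_D a_U`,
  instances), helper28 `G2HT.hT_of_hι`, helper67 `G2Red.hred₁ / hred₂`;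
* G3 : helper28 `G3Q.exists_psi_Q` (flat) — a HYPOTHESIS of the base-generic part;
* G4 : helper6 `G4TW1Rev.exists_x_tw1F_rev` (inside `LowerFill.groupsOn_of_parts`),
  helper6 `G4B5.hB5₁_tw1F / hB5₂_tw1F`, helper49 `G4H1` (the binder `h1`);
* G6 : helper35 `G6.hnu_tw1F`;  G7 : helper52 `G7One.he_tw1F`.

FACTORING (ask of helper32, board 7014):

* `groupsOn_of_twP_aux` (`h1`, `hnu` still binders) / `groupsOn_of_twP` : **BASE-GENERIC**.  Parameters: the deformation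
  condition `base` at `p`, the forms level `N''` (`hN''`), `SQ θQ` (+ `hpS hNS`), the half-diamonds
  `dℓ hdℓ hnd`, the twisted action `twP` on the big level with `hι hD hlocP`
  (= `G2.exists_twP_hecke`), the four instances on `M¹_Q × M^χ_Q` that make
  `T := G2.T … twP hD θQ` a local ring, and the G3 record over `T` as HYPOTHESES;
  conclusion `Nonempty (GroupsOn P ℓs base DQ (Q.tw1F …))`.
* `groupsOn_flat` / `flatGroups` : the flat branch (`G2.exists_twP_hecke` + `G3Q.exists_psi_Q` +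
  the above).
-/
import Fermat.Agent.GE8.P3B.GB.B9.ProviderFlat.LowerFill
import Fermat.Agent.GE8.P3B.GB.B9.ProviderFlat.G2
import Fermat.Agent.GE8.P3B.GB.B9.ProviderFlat.G2HT
import Fermat.Agent.GE8.P3B.GB.B9.ProviderFlat.G2Red
import Fermat.Agent.GE8.P3B.GB.B9.ProviderFlat.G3Q
import Fermat.Agent.GE8.P3B.GB.B9.ProviderFlat.G7One
import Fermat.Agent.GE8.P3B.GB.B9.ProviderFlat.G4B5
import Fermat.Agent.GE8.P3B.GB.B9.ProviderFlat.G4H1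
import Fermat.Agent.GE8.P3B.GB.B9.ProviderFlat.G6
import Fermat.Agent.GE8.P3B.GB.B9.ProviderFlat.G2Sym
import Fermat.Agent.GB.B3.FreeLevelInst
import Fermat.Agent.GB.Setup.PkgLevel
import Fermat.Agent.GE8.P3B.StepGen
import Fermat.Agent.GE8.P3B.Ok3W

/- TWIN (helper6 B4 generator; conventions of helper24 / helper86) of `Fermat.Agent.GB.B9.ProviderFlat.FlatGroups` with `p ≠ 3` relaxed to `Ok3A Sy 𝔪 p` / `Ok3W p W` (RISK-5 fix (B), step B4); everything below lives in the wrapper namespace `Fermat.Agent.GE8.P3B`. -/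
set_option linter.dupNamespace false
open Fermat Fermat.Agent Fermat.Agent.GB Fermat.Agent.GB.B3 Fermat.Agent.GB.B3.ChiLevelMulti Fermat.Agent.GB.B3.GamH Fermat.Agent.GB.B3.HeckeActH Fermat.Agent.GB.B3.RealLevel Fermat.Agent.GB.B3.TWChars Fermat.Agent.GB.B3.TWLevel Fermat.Agent.GB.B4 Fermat.Agent.GB.B4.Datum Fermat.Agent.GB.B4.Datum.ImageRing Fermat.Agent.GB.B4.Datum.TQFields Fermat.Agent.GB.B9 Fermat.Agent.GB.B9.ProviderFlat Fermat.Agent.GB.B9.ProviderFlat.H1 Fermat.Agent.GB.B9.ProviderFlat.Lower Fermat.Agent.GB.B9.ThetaSupply Fermat.Agent.GB.B9.ThetaT Fermat.Agent.GB.Def Fermat.Agent.GB.Def.FramedNodes Fermat.Agent.GB.Def.LocGenInst Fermat.Agent.GB.Setup Fermat.Agent.GB.Setup.SetupPkg Fermat.Agent.GJ Fermat.Agent.GJ.J2 Fermat.Agent.GJ.J2.Lat Fermat.Agent.GM Fermat.Agent.GM.B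

namespace Fermat.Agent.GE8.P3B

set_option autoImplicit false
set_option linter.unusedSectionVars false
set_option linter.unusedVariables false
set_option linter.style.haveILetI false

open WeierstrassCurve WeierstrassCurve.Affine.Point IsLocalRing
open scoped WeierstrassCurve.Affine
open scoped MatrixGroups
open CongruenceSubgroup ModularCurve.Period CuspForm Polynomial

namespace GB.B9.ProviderFlat.FlatGroups

open GM.B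
open GB.B3.HeckeActH GB.B3.RealLevel GB.B3.Tower
  GB.B3.TWChars GB.B3.FinalTW GB.B3.Plug
  GB.B3.TWLevel GB.B3.GamH GB.B3.ChiLevelMulti
  GB.B3.Final
open GJ.J2.Lat
open GB.B4.Datum.ImageRing GB.B4.Datum.TQFields
open GB.Setup.SetupPkg
open GB.Def.FramedNodes GB.Def.LocGenInst
open GB.B9.ThetaT GB.B9.ThetaSupply
open GB.B9.ProviderFlat.Lower GB.B9.ProviderFlat.G1
open GB.B9.ProviderFlat.H1 GB.B9.ProviderFlat.Top

/-- local instance (Prop-valued class) -/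
local instance factPrimeOffFG {S : Set ℕ} (l : PrimesOff S) : Fact (l.1 : ℕ).Prime := ⟨l.1.2⟩

/-- `ℚ̄`. -/
local notation "Qb" => AlgebraicClosure ℚ
/-- `G_ℚ`. -/
local notation "GQ" => (AlgebraicClosure ℚ ≃ₐ[ℚ] AlgebraicClosure ℚ)
/-- the character `Γ₀(N) → Δ` of a character of `(ℤ/N)ˣ`. -/
local notation "chiΓ" => GB.B3.EisGamma0.chi
/-- the structure map `A → T_Q`. -/
local notation "chiT" => GB.B4.Datum.ImageRing.chi
/-- `T / ker a₂`. -/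
local notation "TchiK" => GB.Local.Multi.Kill2Field.Tchi
/-- the points of `T / ker a₂`. -/
local notation "phiK" => GB.Local.Multi.Kill2Q.phi

noncomputable section

variable {p : ℕ} [hpF : Fact p.Prime] {W : WeierstrassCurve ℤ}
  {hcard₁ : Nat.card (Submodule.torsionBy ℤ
    ((W.map (Int.castRingHom ℚ))⁄(AlgebraicClosure ℚ)).Point p) = p ^ 2}
  {hker : GaloisFactorsThroughFiniteLevel
    (galoisRepModuleEnd (K := AlgebraicClosure ℚ) ℚ (W.map (Int.castRingHom ℚ)) p)}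
  {M A : ℕ} {P : Pkg p W hcard₁ hker M A} {g n : ℕ} (Q : TWSet P g n)
  {q eq : ℕ} (hq : q.Prime) (hqM : q ∣ M) (hsq : Squarefree M) (hcong : p ^ eq ∣ q - 1)
  (hp3 : Ok3W p W) {cq : P.O} (hcq : cq ^ p ^ eq = 1)
  (hcq1 : (1 : P.O) - cq ∈ Ideal.span {P.ϖ})

/-! ### the objects of G2 at `Q` -/

/-- **the level datum of record in `Plug.tw` spelling** (`= Q.tw1F …`, by `rfl`). -/
abbrev twR :=
  GB.B3.Plug.tw Q.Sy Q.𝔪 (Q.primeData hq hqM hsq hcong) (Q.hyp hp3) 1 g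
    (fun _ : Fin 1 => cq) (TWSet.hc_one (g := g) (eOf_eq (n + 1) eq) hcq) (fun _ => hcq1)

theorem twR_eq : twR Q hq hqM hsq hcong hp3 hcq hcq1 = Q.tw1F hq hqM hsq hcong hp3 hcq hcq1 := rfl

section TwP

variable {N'' : ℕ} [NeZero N''] {SQ : Finset ℕ}
  (twP : ↥(heckeAlgebra N'' 2 (↑SQ : Set ℕ)) →+*
    Module.End P.O (bigLevel Q.Sy Q.𝔪 (Q.primeData hq hqM hsq hcong) (Q.hyp hp3) (1 + g)).M)
  (hD : ∀ t i,
    twP t * (bigLevel Q.Sy Q.𝔪 (Q.primeData hq hqM hsq hcong) (Q.hyp hp3) (1 + g)).D i =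
      (bigLevel Q.Sy Q.𝔪 (Q.primeData hq hqM hsq hcong) (Q.hyp hp3) (1 + g)).D i * twP t)
  (θQ : ↥(heckeAlgebra N'' 2 (↑SQ : Set ℕ)) →+* P.k)

/-- helper11's `G2.tw₁` at `Q` -/
abbrev tw₁Q :=
  G2.tw₁ Q.Sy Q.𝔪 (Q.primeData hq hqM hsq hcong) (Q.hyp hp3) 1 g
    (fun _ : Fin 1 => cq) (TWSet.hc_one (g := g) (eOf_eq (n + 1) eq) hcq) (fun _ => hcq1) twP hD

/-- helper11's `G2.twχ` at `Q` -/
abbrev twχQ :=
  G2.twχ Q.Sy Q.𝔪 (Q.primeData hq hqM hsq hcong) (Q.hyp hp3) 1 g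
    (fun _ : Fin 1 => cq) (TWSet.hc_one (g := g) (eOf_eq (n + 1) eq) hcq) (fun _ => hcq1) twP hD

/-- **the Hecke ring `T_Q`**: helper11's `G2.T` at `Q` -/
abbrev TR : Type :=
  G2.T Q.Sy Q.𝔪 (Q.primeData hq hqM hsq hcong) (Q.hyp hp3) 1 g
    (fun _ : Fin 1 => cq) (TWSet.hc_one (g := g) (eOf_eq (n + 1) eq) hcq) (fun _ => hcq1) twP hD θQ

/-- helper11's `G2.a₁` at `Q` -/
abbrev a₁R :=
  G2.a₁ Q.Sy Q.𝔪 (Q.primeData hq hqM hsq hcong) (Q.hyp hp3) 1 g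
    (fun _ : Fin 1 => cq) (TWSet.hc_one (g := g) (eOf_eq (n + 1) eq) hcq) (fun _ => hcq1) twP hD θQ

/-- helper11's `G2.a₂` at `Q` -/
abbrev a₂R :=
  G2.a₂ Q.Sy Q.𝔪 (Q.primeData hq hqM hsq hcong) (Q.hyp hp3) 1 g
    (fun _ : Fin 1 => cq) (TWSet.hc_one (g := g) (eOf_eq (n + 1) eq) hcq) (fun _ => hcq1) twP hD θQ

/-- (LOC) for the product action, as a `Fact` (instance binder of `groupsOn_of_twP`) -/
theorem fact_locHyp (hlocP : LocHyp P.O θQ twP) :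
    Fact (LocHyp P.O θQ (prodTw P.O (tw₁Q Q hq hqM hsq hcong hp3 hcq hcq1 twP hD)
      (twχQ Q hq hqM hsq hcong hp3 hcq hcq1 twP hD))) :=
  ⟨G2.locHyp_T Q.Sy Q.𝔪 (Q.primeData hq hqM hsq hcong) (Q.hyp hp3) 1 g
    (fun _ : Fin 1 => cq) (TWSet.hc_one (g := g) (eOf_eq (n + 1) eq) hcq) (fun _ => hcq1) twP hD θQ
    hlocP⟩

/-- **BASE-GENERIC WIRING, stage A** (`h1` and `hnu` still binders): `GroupsOn` on `Q.tw1F …` over
helper11's `T_Q := G2.T … twP hD θQ`, from `twP` with its properties and the G3 record. -/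
theorem groupsOn_of_twP_aux {s : ℕ} (ℓs : Fin (s + 1) → ℕ) [Fact (ℓs (Fin.last s)).Prime]
    (hlast : ℓs (Fin.last s) = q)
    (base : Finset ℕ → ∀ ⦃B : Type⦄ [CommRing B] [IsLocalRing B] [Algebra P.O B],
      GaloisRepAdic B → Prop)
    (DQ : GaloisRep.DeformationRingData P.O P.rhobar
      (framedCond p base P.Smin P.Su (Finset.univ.image Q.qv)))
    (hno : ¬ W.IsResiduallyModularOfLevel p (M / q)) (hqp : q ≠ p)
    (hN'' : N'' = Q.N * ∏ i : Fin (1 + g), rOf Q.qv q i)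
    (hpS : p ∈ SQ) (hNS : ∀ ℓ : ℕ, ℓ.Prime → ℓ ∣ N'' → ℓ ∈ SQ)
    -- G2 : the half-diamonds and the `ι`-formula of `twP` on the generators
    (dℓ : PrimesOff (↑SQ : Set ℕ) → Gamma0 Q.N)
    (hdℓ : ∀ (l : PrimesOff (↑SQ : Set ℕ)) (u : (ZMod Q.N)ˣ),
      (u : ZMod Q.N) = ((l.1 : ℕ) : ZMod Q.N) →
        chiΓ (Theta (Δs p (eOf g (n + 1) eq)) (Q.primeData hq hqM hsq hcong).psi (1 + g))
            (dℓ l) ^ 2 *
          Theta (Δs p (eOf g (n + 1) eq)) (Q.primeData hq hqM hsq hcong).psi (1 + g) u = 1)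
    (hnd : ∀ l : PrimesOff (↑SQ : Set ℕ), ¬ (l.1 : ℕ) ∣ Q.N)
    (hι : ∀ (l : PrimesOff (↑SQ : Set ℕ))
        (x : (bigLevel Q.Sy Q.𝔪 (Q.primeData hq hqM hsq hcong) (Q.hyp hp3) (1 + g)).M),
      (bigReal Q.Sy Q.𝔪 (Q.primeData hq hqM hsq hcong) (Q.hyp hp3) (1 + g)).ι
          (twP (formsGenS N'' (↑SQ : Set ℕ) l) x) =
        diaH (Theta (Δs p (eOf g (n + 1) eq)) (Q.primeData hq hqM hsq hcong).psi (1 + g)) P.O
          (dℓ l)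
          (TH (Theta (Δs p (eOf g (n + 1) eq)) (Q.primeData hq hqM hsq hcong).psi (1 + g)) P.O
            (hnd l)
            ((bigReal Q.Sy Q.𝔪 (Q.primeData hq hqM hsq hcong) (Q.hyp hp3) (1 + g)).ι x)))
    (hlocP : LocHyp P.O θQ twP)
    -- the instances that make `T_Q` a complete local noetherian `O`-algebra
    [Fact (LocHyp P.O θQ (prodTw P.O (tw₁Q Q hq hqM hsq hcong hp3 hcq hcq1 twP hD)
      (twχQ Q hq hqM hsq hcong hp3 hcq hcq1 twP hD)))]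
    [Module.Finite P.O ((twR Q hq hqM hsq hcong hp3 hcq hcq1).L1.M ×
      (twR Q hq hqM hsq hcong hp3 hcq hcq1).Lχ.M)]
    [Module.Free P.O ((twR Q hq hqM hsq hcong hp3 hcq hcq1).L1.M ×
      (twR Q hq hqM hsq hcong hp3 hcq hcq1).Lχ.M)]
    [Nontrivial ((twR Q hq hqM hsq hcong hp3 hcq hcq1).L1.M ×
      (twR Q hq hqM hsq hcong hp3 hcq hcq1).Lχ.M)]
    -- G3 : the record of `G3Q.exists_psi_Q` / `ProviderNew.G3Q.exists_psi_Q_strict`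
    (ψ : DQ.R →ₐ[P.O] TR Q hq hqM hsq hcong hp3 hcq hcq1 twP hD θQ)
    (hψl : IsLocalHom (ψ : DQ.R →+* TR Q hq hqM hsq hcong hp3 hcq hcq1 twP hD θQ))
    (ρQ : GaloisRepAdic (TR Q hq hqM hsq hcong hp3 hcq hcq1 twP hD θQ))
    (hψ : Function.Surjective ψ)
    (hequiv : (DQ.ρ.baseChangeAlong
      (ψ : DQ.R →+* TR Q hq hqM hsq hcong hp3 hcq hcq1 twP hD θQ) hψl).IsEquiv ρQ)
    (hρ : ∀ (ℓ : ℕ) (hℓ : ℓ.Prime) (hℓN : ¬ ℓ ∣ N'') (hℓS : ℓ ∉ (↑SQ : Set ℕ))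
        (Pl : ValuationSubring Qb), Pl.LiesOverPrime ℓ → ∀ σ : GQ, Pl.IsFrobeniusAt σ ℓ →
          LinearMap.charpoly (ρQ.ρ σ) =
            X ^ 2 - C (chiT P.O θQ (prodTw P.O (tw₁Q Q hq hqM hsq hcong hp3 hcq hcq1 twP hD)
                (twχQ Q hq hqM hsq hcong hp3 hcq hcq1 twP hD)) (heckeAlgebra.T hℓ hℓN hℓS)) * X
              + C ((ℓ : TR Q hq hqM hsq hcong hp3 hcq hcq1 twP hD θQ)))
    (hdet : ρQ.DetIsCyclotomic p)
    (hu : ∀ v, v ≠ Fin.last s → ρQ.IsUnipotentOnInertiaAt (ℓs v))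
    (hres : ρQ.residual.IsEquiv
      (P.rhobar.baseChangeAlong
        (ResidueField.map (algebraMap P.O (TR Q hq hqM hsq hcong hp3 hcq hcq1 twP hD θQ)))))
    -- (1pt) at the prime `Q.qv (Fin.rev i)` of the `i`-th Taylor–Wiles diamond  [G4H1]
    (h1 : ∀ (i : Fin g) (Pl : ValuationSubring Qb) (hPl : Pl.LiesOverPrime (Q.qv (Fin.rev i)))
      (σ : GQ) (hσ : σ ∈ Pl.inertiaSubgroupIn ℚ)
      (Bas : Module.Basis (Fin 2) (TR Q hq hqM hsq hcong hp3 hcq hcq1 twP hD θQ) ρQ.V)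
      (χ : Fin 2 → Pl.decompositionSubgroup ℚ →*
        (TR Q hq hqM hsq hcong hp3 hcq hcq1 twP hD θQ)ˣ),
      (∀ (j : Fin 2) (τ : Pl.decompositionSubgroup ℚ),
        ρQ.ρ (τ : GQ) (Bas j) =
          (χ j τ : TR Q hq hqM hsq hcong hp3 hcq hcq1 twP hD θQ) • Bas j) →
      ∀ θ : TR Q hq hqM hsq hcong hp3 hcq hcq1 twP hD θQ →ₐ[P.O]
          AlgebraicClosure (FractionRing P.O),
        (G4.Occ₁ (twR Q hq hqM hsq hcong hp3 hcq hcq1).L1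
            (a₁R Q hq hqM hsq hcong hp3 hcq hcq1 twP hD θQ) i θ ∨
          G4.Occ₁ (twR Q hq hqM hsq hcong hp3 hcq hcq1).Lχ
            (a₂R Q hq hqM hsq hcong hp3 hcq hcq1 twP hD θQ) i θ) →
          θ (χ 0 ⟨σ, GB.E2.TWDiag.inertia_le_decomposition Pl hσ⟩ :
            TR Q hq hqM hsq hcong hp3 hcq hcq1 twP hD θQ) = 1)
    -- G6 (B5 at `q`)  [G6.hnu_tw1F]
    (hnu : ∀ φ τ₀ : GQ, KummerTests (ℓs (Fin.last s)) p φ τ₀ →
      ∀ i : GB.Glue.Points.Idx P.O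
          (TchiK (a₂R Q hq hqM hsq hcong hp3 hcq hcq1 twP hD θQ)),
        ((matT ψ τ₀).map (phiK (a₂R Q hq hqM hsq hcong hp3 hcq hcq1 twP hD θQ) i) - 1) ^ 2 = 0 →
          (matT ψ τ₀).map (phiK (a₂R Q hq hqM hsq hcong hp3 hcq hcq1 twP hD θQ) i) = 1) :
    Nonempty (GroupsOn P ℓs base DQ (Q.tw1F hq hqM hsq hcong hp3 hcq hcq1)) := by
  subst hlast
  have hS' : ∀ ℓ : ℕ, ℓ.Prime → ℓ ∣ N'' → ℓ ∈ (↑SQ : Set ℕ) :=
    fun ℓ hℓ hd => Finset.mem_coe.mpr (hNS ℓ hℓ hd)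
  have hQN : Q.N ∣ N'' := by
    rw [hN'']
    exact Dvd.intro _ rfl
  have hSN : ∀ ℓ : ℕ, ℓ.Prime → ℓ ∣ Q.N → ℓ ∈ SQ := fun ℓ hℓ hd => hNS ℓ hℓ (hd.trans hQN)
  have hd := Q.d1F_pos hq hqM hsq hcong hp3
  haveI : IsReduced (TR Q hq hqM hsq hcong hp3 hcq hcq1 twP hD θQ) :=
    G2.isReduced_T Q.Sy Q.𝔪 (Q.primeData hq hqM hsq hcong) (Q.hyp hp3) 1 g
      (fun _ : Fin 1 => cq) (TWSet.hc_one (g := g) (eOf_eq (n + 1) eq) hcq) (fun _ => hcq1)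
      twP hD θQ hlocP hd hNS
  have hT := G2HT.hT_of_hι Q.Sy Q.𝔪 (Q.primeData hq hqM hsq hcong) (Q.hyp hp3) (1 + g) SQ
    dℓ hdℓ hnd twP hι
  have he := G7.TWSetG7.he_tw1F Q hq hqM hsq hcong hp3 hcq hcq1 hno SQ hSN hpS hqp hS'
    ψ hψl ρQ hequiv
    (chiT P.O θQ (prodTw P.O (tw₁Q Q hq hqM hsq hcong hp3 hcq hcq1 twP hD)
      (twχQ Q hq hqM hsq hcong hp3 hcq hcq1 twP hD)))
    (adjoin_range_chi P.O θQ _)
    (a₁R Q hq hqM hsq hcong hp3 hcq hcq1 twP hD θQ)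
    (G2Red.hred₁ Q.Sy Q.𝔪 (Q.primeData hq hqM hsq hcong) (Q.hyp hp3) 1 g
      (fun _ : Fin 1 => cq) (TWSet.hc_one (g := g) (eOf_eq (n + 1) eq) hcq) (fun _ => hcq1)
      twP hD θQ hlocP hd hNS)
    (tw₁Q Q hq hqM hsq hcong hp3 hcq hcq1 twP hD)
    (G2.a₁_chi Q.Sy Q.𝔪 (Q.primeData hq hqM hsq hcong) (Q.hyp hp3) 1 g
      (fun _ : Fin 1 => cq) (TWSet.hc_one (g := g) (eOf_eq (n + 1) eq) hcq) (fun _ => hcq1)
      twP hD θQ)
    twP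
    (G2.tw₁_fmk Q.Sy Q.𝔪 (Q.primeData hq hqM hsq hcong) (Q.hyp hp3) 1 g
      (fun _ : Fin 1 => cq) (TWSet.hc_one (g := g) (eOf_eq (n + 1) eq) hcq) (fun _ => hcq1)
      twP hD)
    hT hρ
  have hB5₁ := G4B5.hB5₁_tw1F Q hq hqM hsq hcong hp3 hcq hcq1 SQ hpS hN'' hS'
    (TR Q hq hqM hsq hcong hp3 hcq hcq1 twP hD θQ) ρQ
    (chiT P.O θQ (prodTw P.O (tw₁Q Q hq hqM hsq hcong hp3 hcq hcq1 twP hD)
      (twχQ Q hq hqM hsq hcong hp3 hcq hcq1 twP hD)))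
    (a₁R Q hq hqM hsq hcong hp3 hcq hcq1 twP hD θQ)
    (G2.a₁_D Q.Sy Q.𝔪 (Q.primeData hq hqM hsq hcong) (Q.hyp hp3) 1 g
      (fun _ : Fin 1 => cq) (TWSet.hc_one (g := g) (eOf_eq (n + 1) eq) hcq) (fun _ => hcq1)
      twP hD θQ)
    (tw₁Q Q hq hqM hsq hcong hp3 hcq hcq1 twP hD)
    (G2.a₁_chi Q.Sy Q.𝔪 (Q.primeData hq hqM hsq hcong) (Q.hyp hp3) 1 g
      (fun _ : Fin 1 => cq) (TWSet.hc_one (g := g) (eOf_eq (n + 1) eq) hcq) (fun _ => hcq1)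
      twP hD θQ)
    twP
    (G2.tw₁_fmk Q.Sy Q.𝔪 (Q.primeData hq hqM hsq hcong) (Q.hyp hp3) 1 g
      (fun _ : Fin 1 => cq) (TWSet.hc_one (g := g) (eOf_eq (n + 1) eq) hcq) (fun _ => hcq1)
      twP hD)
    hT hρ
  have hB5₂ := G4B5.hB5₂_tw1F Q hq hqM hsq hcong hp3 hcq hcq1 SQ hpS hN'' hS'
    (TR Q hq hqM hsq hcong hp3 hcq hcq1 twP hD θQ) ρQ
    (chiT P.O θQ (prodTw P.O (tw₁Q Q hq hqM hsq hcong hp3 hcq hcq1 twP hD)
      (twχQ Q hq hqM hsq hcong hp3 hcq hcq1 twP hD)))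
    (a₂R Q hq hqM hsq hcong hp3 hcq hcq1 twP hD θQ)
    (G2.a₂_D Q.Sy Q.𝔪 (Q.primeData hq hqM hsq hcong) (Q.hyp hp3) 1 g
      (fun _ : Fin 1 => cq) (TWSet.hc_one (g := g) (eOf_eq (n + 1) eq) hcq) (fun _ => hcq1)
      twP hD θQ)
    (twχQ Q hq hqM hsq hcong hp3 hcq hcq1 twP hD)
    (G2.a₂_chi Q.Sy Q.𝔪 (Q.primeData hq hqM hsq hcong) (Q.hyp hp3) 1 g
      (fun _ : Fin 1 => cq) (TWSet.hc_one (g := g) (eOf_eq (n + 1) eq) hcq) (fun _ => hcq1)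
      twP hD θQ)
    twP
    (G2.twχ_fmk Q.Sy Q.𝔪 (Q.primeData hq hqM hsq hcong) (Q.hyp hp3) 1 g
      (fun _ : Fin 1 => cq) (TWSet.hc_one (g := g) (eOf_eq (n + 1) eq) hcq) (fun _ => hcq1)
      twP hD)
    hT hρ
  exact LowerFill.groupsOn_of_parts Q hq hqM hsq hcong hp3 hcq hcq1 ℓs base DQ
    (TR Q hq hqM hsq hcong hp3 hcq hcq1 twP hD θQ)
    (a₁R Q hq hqM hsq hcong hp3 hcq hcq1 twP hD θQ)
    (a₂R Q hq hqM hsq hcong hp3 hcq hcq1 twP hD θQ)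
    (G2.a₁_D Q.Sy Q.𝔪 (Q.primeData hq hqM hsq hcong) (Q.hyp hp3) 1 g
      (fun _ : Fin 1 => cq) (TWSet.hc_one (g := g) (eOf_eq (n + 1) eq) hcq) (fun _ => hcq1)
      twP hD θQ)
    (G2.a₂_D Q.Sy Q.𝔪 (Q.primeData hq hqM hsq hcong) (Q.hyp hp3) 1 g
      (fun _ : Fin 1 => cq) (TWSet.hc_one (g := g) (eOf_eq (n + 1) eq) hcq) (fun _ => hcq1)
      twP hD θQ)
    (G2.a_U Q.Sy Q.𝔪 (Q.primeData hq hqM hsq hcong) (Q.hyp hp3) 1 g
      (fun _ : Fin 1 => cq) (TWSet.hc_one (g := g) (eOf_eq (n + 1) eq) hcq) (fun _ => hcq1)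
      twP hD θQ)
    ψ hψl ρQ hψ hequiv hdet hu hres h1 hB5₁ hB5₂ hnu he

/-- **BASE-GENERIC WIRING** (ask of helper32, board 7014): `GroupsOn` on `Q.tw1F …` over helper11's
`T_Q := G2.T … twP hD θQ`, from `twP` with its properties (`G2.exists_twP_hecke`), the facts on
`θQ` (`PkgLevel.exists_thetaQ` / `G2Sym.hsym_Q`) and the G3 record.  G4 (`G4TW1Rev`, `G4B5`,
`G4H1`), G6, G7 are wired inside. -/
theorem groupsOn_of_twP {s : ℕ} (ℓs : Fin (s + 1) → ℕ) [Fact (ℓs (Fin.last s)).Prime]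
    (hlast : ℓs (Fin.last s) = q)
    (base : Finset ℕ → ∀ ⦃B : Type⦄ [CommRing B] [IsLocalRing B] [Algebra P.O B],
      GaloisRepAdic B → Prop)
    (DQ : GaloisRep.DeformationRingData P.O P.rhobar
      (framedCond p base P.Smin P.Su (Finset.univ.image Q.qv)))
    (hno : ¬ W.IsResiduallyModularOfLevel p (M / q)) (hqp : q ≠ p) (hcq0 : cq ≠ 1)
    (hunrbar : P.rhobar.IsUnramifiedAt q)
    (hN'' : N'' = Q.N * ∏ i : Fin (1 + g), rOf Q.qv q i)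
    (hpS : p ∈ SQ) (hNS : ∀ ℓ : ℕ, ℓ.Prime → ℓ ∣ N'' → ℓ ∈ SQ)
    -- the facts on `θQ`
    (hsym : ∀ l : PrimesOff (↑SQ : Set ℕ), ∃ i : Q.Sy.ι₁, Q.Sy.ℓ i = (l.1 : ℕ) ∧
      θQ (formsGenS N'' (↑SQ : Set ℕ) l) = Q.lamTop (MvPolynomial.X (Sum.inl i)))
    (hfrobQ : ∀ (ℓ : ℕ) (hℓ : ℓ.Prime) (hℓN : ¬ ℓ ∣ N'') (hℓS : ℓ ∉ (↑SQ : Set ℕ))
      (Pl : ValuationSubring Qb), Pl.LiesOverPrime ℓ → ∀ σ : GQ, Pl.IsFrobeniusAt σ ℓ →
        LinearMap.charpoly (P.rhobar.ρ σ) =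
          X ^ 2 - C (θQ (heckeAlgebra.T hℓ hℓN hℓS)) * X + C ((ℓ : ℕ) : P.k))
    -- G2 : the half-diamonds and the `ι`-formula of `twP` on the generators
    (dℓ : PrimesOff (↑SQ : Set ℕ) → Gamma0 Q.N)
    (hdℓ : ∀ (l : PrimesOff (↑SQ : Set ℕ)) (u : (ZMod Q.N)ˣ),
      (u : ZMod Q.N) = ((l.1 : ℕ) : ZMod Q.N) →
        chiΓ (Theta (Δs p (eOf g (n + 1) eq)) (Q.primeData hq hqM hsq hcong).psi (1 + g))
            (dℓ l) ^ 2 *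
          Theta (Δs p (eOf g (n + 1) eq)) (Q.primeData hq hqM hsq hcong).psi (1 + g) u = 1)
    (hnd : ∀ l : PrimesOff (↑SQ : Set ℕ), ¬ (l.1 : ℕ) ∣ Q.N)
    (hι : ∀ (l : PrimesOff (↑SQ : Set ℕ))
        (x : (bigLevel Q.Sy Q.𝔪 (Q.primeData hq hqM hsq hcong) (Q.hyp hp3) (1 + g)).M),
      (bigReal Q.Sy Q.𝔪 (Q.primeData hq hqM hsq hcong) (Q.hyp hp3) (1 + g)).ι
          (twP (formsGenS N'' (↑SQ : Set ℕ) l) x) =
        diaH (Theta (Δs p (eOf g (n + 1) eq)) (Q.primeData hq hqM hsq hcong).psi (1 + g)) P.O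
          (dℓ l)
          (TH (Theta (Δs p (eOf g (n + 1) eq)) (Q.primeData hq hqM hsq hcong).psi (1 + g)) P.O
            (hnd l)
            ((bigReal Q.Sy Q.𝔪 (Q.primeData hq hqM hsq hcong) (Q.hyp hp3) (1 + g)).ι x)))
    (hlocP : LocHyp P.O θQ twP)
    -- the instances that make `T_Q` a complete local noetherian `O`-algebra
    [Fact (LocHyp P.O θQ (prodTw P.O (tw₁Q Q hq hqM hsq hcong hp3 hcq hcq1 twP hD)
      (twχQ Q hq hqM hsq hcong hp3 hcq hcq1 twP hD)))]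
    [Module.Finite P.O ((twR Q hq hqM hsq hcong hp3 hcq hcq1).L1.M ×
      (twR Q hq hqM hsq hcong hp3 hcq hcq1).Lχ.M)]
    [Module.Free P.O ((twR Q hq hqM hsq hcong hp3 hcq hcq1).L1.M ×
      (twR Q hq hqM hsq hcong hp3 hcq hcq1).Lχ.M)]
    [Nontrivial ((twR Q hq hqM hsq hcong hp3 hcq hcq1).L1.M ×
      (twR Q hq hqM hsq hcong hp3 hcq hcq1).Lχ.M)]
    -- G3 : the record of `G3Q.exists_psi_Q` / `ProviderNew.G3Q.exists_psi_Q_strict`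
    (ψ : DQ.R →ₐ[P.O] TR Q hq hqM hsq hcong hp3 hcq hcq1 twP hD θQ)
    (hψl : IsLocalHom (ψ : DQ.R →+* TR Q hq hqM hsq hcong hp3 hcq hcq1 twP hD θQ))
    (ρQ : GaloisRepAdic (TR Q hq hqM hsq hcong hp3 hcq hcq1 twP hD θQ))
    (hψ : Function.Surjective ψ)
    (hequiv : (DQ.ρ.baseChangeAlong
      (ψ : DQ.R →+* TR Q hq hqM hsq hcong hp3 hcq hcq1 twP hD θQ) hψl).IsEquiv ρQ)
    (hρ : ∀ (ℓ : ℕ) (hℓ : ℓ.Prime) (hℓN : ¬ ℓ ∣ N'') (hℓS : ℓ ∉ (↑SQ : Set ℕ))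
        (Pl : ValuationSubring Qb), Pl.LiesOverPrime ℓ → ∀ σ : GQ, Pl.IsFrobeniusAt σ ℓ →
          LinearMap.charpoly (ρQ.ρ σ) =
            X ^ 2 - C (chiT P.O θQ (prodTw P.O (tw₁Q Q hq hqM hsq hcong hp3 hcq hcq1 twP hD)
                (twχQ Q hq hqM hsq hcong hp3 hcq hcq1 twP hD)) (heckeAlgebra.T hℓ hℓN hℓS)) * X
              + C ((ℓ : TR Q hq hqM hsq hcong hp3 hcq hcq1 twP hD θQ)))
    (hdet : ρQ.DetIsCyclotomic p)
    (hu : ∀ v, v ≠ Fin.last s → ρQ.IsUnipotentOnInertiaAt (ℓs v))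
    (hres : ρQ.residual.IsEquiv
      (P.rhobar.baseChangeAlong
        (ResidueField.map (algebraMap P.O (TR Q hq hqM hsq hcong hp3 hcq hcq1 twP hD θQ))))) :
    Nonempty (GroupsOn P ℓs base DQ (Q.tw1F hq hqM hsq hcong hp3 hcq hcq1)) := by
  subst hlast
  have hS' : ∀ ℓ : ℕ, ℓ.Prime → ℓ ∣ N'' → ℓ ∈ (↑SQ : Set ℕ) :=
    fun ℓ hℓ hd => Finset.mem_coe.mpr (hNS ℓ hℓ hd)
  have hQN : Q.N ∣ N'' := by
    rw [hN'']
    exact Dvd.intro _ rfl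
  have hSN : ∀ ℓ : ℕ, ℓ.Prime → ℓ ∣ Q.N → ℓ ∈ SQ := fun ℓ hℓ hd => hNS ℓ hℓ (hd.trans hQN)
  have hd := Q.d1F_pos hq hqM hsq hcong hp3
  haveI : IsReduced (TR Q hq hqM hsq hcong hp3 hcq hcq1 twP hD θQ) :=
    G2.isReduced_T Q.Sy Q.𝔪 (Q.primeData hq hqM hsq hcong) (Q.hyp hp3) 1 g
      (fun _ : Fin 1 => cq) (TWSet.hc_one (g := g) (eOf_eq (n + 1) eq) hcq) (fun _ => hcq1)
      twP hD θQ hlocP hd hNS
  haveI : Algebra.IsIntegral P.O (TR Q hq hqM hsq hcong hp3 hcq hcq1 twP hD θQ) :=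
    Algebra.IsIntegral.of_finite P.O _
  have hT := G2HT.hT_of_hι Q.Sy Q.𝔪 (Q.primeData hq hqM hsq hcong) (Q.hyp hp3) (1 + g) SQ
    dℓ hdℓ hnd twP hι
  -- G6
  have hnu := G6.TWSetG6.hnu_tw1F Q hq hqM hsq hcong hp3 hcq hcq1 hcq0 SQ hpS hqp hN'' hS'
    ψ hψl ρQ hequiv hres hunrbar
    (chiT P.O θQ (prodTw P.O (tw₁Q Q hq hqM hsq hcong hp3 hcq hcq1 twP hD)
      (twχQ Q hq hqM hsq hcong hp3 hcq hcq1 twP hD)))
    (a₂R Q hq hqM hsq hcong hp3 hcq hcq1 twP hD θQ)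
    (twχQ Q hq hqM hsq hcong hp3 hcq hcq1 twP hD)
    (G2.a₂_chi Q.Sy Q.𝔪 (Q.primeData hq hqM hsq hcong) (Q.hyp hp3) 1 g
      (fun _ : Fin 1 => cq) (TWSet.hc_one (g := g) (eOf_eq (n + 1) eq) hcq) (fun _ => hcq1)
      twP hD θQ)
    twP
    (G2.twχ_fmk Q.Sy Q.𝔪 (Q.primeData hq hqM hsq hcong) (Q.hyp hp3) 1 g
      (fun _ : Fin 1 => cq) (TWSet.hc_one (g := g) (eOf_eq (n + 1) eq) hcq) (fun _ => hcq1)
      twP hD)
    hT hρ
  -- G4 (1pt)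
  have hker𝔪 : ∀ t : Q.Sy.𝕋 P.O, t ∈ Q.𝔪 ↔ Q.lamTop t = 0 := fun t =>
    ⟨fun ht => G2Sym.hev_Q Q t ht, fun ht => by
      rw [Q.h𝔪]
      exact RingHom.mem_ker.mpr ht⟩
  have hfrob : ∀ l : PrimesOff (↑SQ : Set ℕ), ∀ Pl : ValuationSubring Qb,
      Pl.LiesOverPrime (l.1 : ℕ) → ∀ σ : GQ, Pl.IsFrobeniusAt σ (l.1 : ℕ) →
        ∃ d₀ : P.k, LinearMap.charpoly (P.rhobar.ρ σ) =
          X ^ 2 - C (θQ (formsGenS N'' (↑SQ : Set ℕ) l)) * X + C d₀ := by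
    intro l Pl hPl σ hσ
    have hlN'' : ¬ (l.1 : ℕ) ∣ N'' := fun h => l.2 (hS' _ l.1.2 h)
    refine ⟨((l.1 : ℕ) : P.k), ?_⟩
    rw [formsGenS_of_not_dvd N'' (↑SQ : Set ℕ) l hlN'']
    exact hfrobQ (l.1 : ℕ) l.1.2 hlN'' l.2 Pl hPl σ hσ
  have h2 : ∀ c : AlgebraicClosure (FractionRing P.O),
      (2 : AlgebraicClosure (FractionRing P.O)) * c = 0 → c = 0 := by
    haveI : CharZero (FractionRing P.O) :=
      charZero_of_injective_algebraMap (IsFractionRing.injective P.O (FractionRing P.O))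
    intro c hc
    exact (mul_eq_zero.mp hc).resolve_left two_ne_zero
  have h1 : ∀ (i : Fin g) (Pl : ValuationSubring Qb)
      (hPl : Pl.LiesOverPrime (Q.qv (Fin.rev i)))
      (σ : GQ) (hσ : σ ∈ Pl.inertiaSubgroupIn ℚ)
      (Bas : Module.Basis (Fin 2) (TR Q hq hqM hsq hcong hp3 hcq hcq1 twP hD θQ) ρQ.V)
      (χ : Fin 2 → Pl.decompositionSubgroup ℚ →*
        (TR Q hq hqM hsq hcong hp3 hcq hcq1 twP hD θQ)ˣ),
      (∀ (j : Fin 2) (τ : Pl.decompositionSubgroup ℚ),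
        ρQ.ρ (τ : GQ) (Bas j) =
          (χ j τ : TR Q hq hqM hsq hcong hp3 hcq hcq1 twP hD θQ) • Bas j) →
      ∀ θ : TR Q hq hqM hsq hcong hp3 hcq hcq1 twP hD θQ →ₐ[P.O]
          AlgebraicClosure (FractionRing P.O),
        (G4.Occ₁ (twR Q hq hqM hsq hcong hp3 hcq hcq1).L1
            (a₁R Q hq hqM hsq hcong hp3 hcq hcq1 twP hD θQ) i θ ∨
          G4.Occ₁ (twR Q hq hqM hsq hcong hp3 hcq hcq1).Lχ
            (a₂R Q hq hqM hsq hcong hp3 hcq hcq1 twP hD θQ) i θ) →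
          θ (χ 0 ⟨σ, GB.E2.TWDiag.inertia_le_decomposition Pl hσ⟩ :
            TR Q hq hqM hsq hcong hp3 hcq hcq1 twP hD θQ) = 1 := by
    intro i Pl hPl σ hσ Bas χ hdiag θ hocc
    exact G4H1.h1_G2 Q.Sy Q.𝔪 (Q.primeData hq hqM hsq hcong) (Q.hyp hp3) 1 g
      (fun _ : Fin 1 => cq) (TWSet.hc_one (g := g) (eOf_eq (n + 1) eq) hcq) (fun _ => hcq1)
      twP hD θQ (G7.TWSetG7.squarefree_N Q hsq) (Nat.le_of_eq (Nat.add_comm 1 g)) i ρQ hpS hNS hSN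
      hρ dℓ hdℓ hnd hι Q.lamTop hker𝔪 hsym P.rhobar P.habs hfrob h2 (G4B5.rOf_rev_ne Q i)
      Pl (by rw [G4TW.rOf_rev Q i]; exact hPl) Bas χ hdiag σ hσ
      (GB.E2.TWDiag.inertia_le_decomposition Pl hσ)
      θ hocc 0
  exact groupsOn_of_twP_aux Q hq hqM hsq hcong hp3 hcq hcq1 twP hD θQ ℓs rfl base DQ hno hqp
    hN'' hpS hNS dℓ hdℓ hnd hι hlocP ψ hψl ρQ hψ hequiv hρ hdet hu hres h1 hnu

end TwP

/-! ### the flat branch -/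

/-- **the groups at ONE Taylor–Wiles set, flat branch**. -/
theorem groupsOn_flat {a : ℕ} {P : Pkg p W hcard₁ hker M a} {g n : ℕ} (Q : TWSet P g n)
    {q : ℕ} (hq : q.Prime) (hqM : q ∣ M) (hsq : Squarefree M) (hcong : p ^ a ∣ q - 1)
    (hp3 : Ok3W p W) (ha : 1 ≤ a) (hpM : ¬ p ∣ M) (hqp : q ≠ p)
    (hno : ¬ W.IsResiduallyModularOfLevel p (M / q))
    {s : ℕ} {ℓs : Fin (s + 1) → ℕ} [Fact (ℓs (Fin.last s)).Prime] (E : FramedEnum P q s ℓs)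
    (DQ : GaloisRep.DeformationRingData P.O P.rhobar
      (framedCond p (GaloisRep.flatCondition P.O p) P.Smin P.Su (Finset.univ.image Q.qv))) :
    Nonempty (GroupsOn P ℓs (GaloisRep.flatCondition P.O p) DQ
      (LowerQ.twQ Q hq hqM hsq hcong hp3)) := by
  -- the forms level
  obtain ⟨N'', hN''⟩ : ∃ N'' : ℕ, N'' = Q.N * ∏ i : Fin (1 + g), rOf Q.qv q i := ⟨_, rfl⟩
  haveI : NeZero N'' := G3Q.neZero_level Q hq hN''
  -- the residual eigensystem at the forms level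
  obtain ⟨SQ, θQ, -, hpS, hNS, hbadS, hθT, hfrobQ, -⟩ :=
    GB.Setup.PkgLevel.exists_thetaQ P (G3Q.dvd_level Q hN'')
  have hQN : Q.N ∣ N'' := by
    rw [hN'']
    exact Dvd.intro _ rfl
  have hnd : ∀ l : PrimesOff (↑SQ : Set ℕ), ¬ (l.1 : ℕ) ∣ Q.N := G2Sym.hnd_Q Q hQN SQ hNS
  -- G2 : half-diamonds, the twisted action on the big level
  obtain ⟨dℓ, hdℓ⟩ := G2.exists_dl_theta (Q.primeData hq hqM hsq hcong) (1 + g)
    (Nat.le_of_eq (Nat.add_comm 1 g)) P.hp2 (↑SQ : Set ℕ) hnd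
  have hsym : ∀ l : PrimesOff (↑SQ : Set ℕ), ∃ i : Q.Sy.ι₁, Q.Sy.ℓ i = (l.1 : ℕ) ∧
      θQ (formsGenS N'' (↑SQ : Set ℕ) l) = Q.lamTop (MvPolynomial.X (Sum.inl i)) :=
    G2Sym.hsym_Q Q hQN SQ hNS hpS hbadS θQ hθT
  have hev : ∀ t ∈ Q.𝔪, Q.lamTop t = 0 := G2Sym.hev_Q Q
  have key := G2.exists_twP_hecke Q.Sy Q.𝔪 (Q.primeData hq hqM hsq hcong) (Q.hyp hp3) 1 g
    (G7.TWSetG7.squarefree_N Q hsq) (Nat.le_of_eq (Nat.add_comm 1 g)) hN'' SQ hNS dℓ hdℓ hnd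
    Q.lamTop hev θQ hsym
  obtain ⟨twP, hι, hD, -, hlocP⟩ := key
  -- the instances on `M¹_Q × M^χ_Q`
  haveI := fact_locHyp Q hq hqM hsq hcong hp3 (LowerQ.hζpow P) (LowerQ.hζsub P) twP hD θQ hlocP
  haveI := GB.B3.FreeLevelInst.finite_prod
    (twR Q hq hqM hsq hcong hp3 (LowerQ.hζpow P) (LowerQ.hζsub P))
  haveI := GB.B3.FreeLevelInst.free_prod
    (twR Q hq hqM hsq hcong hp3 (LowerQ.hζpow P) (LowerQ.hζsub P))
  haveI := GB.B3.FreeLevelInst.nontrivial_prod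
    (twR Q hq hqM hsq hcong hp3 (LowerQ.hζpow P) (LowerQ.hζsub P))
    (fun i => TWSet.Nfun_pos1 i) (Q.d1F_pos hq hqM hsq hcong hp3)
  -- G3
  obtain ⟨ψ, hψl, ρQ, hψ, hequiv, hρ, hdet, hu, hres⟩ :=
    G3Q.exists_psi_Q Q hq hqM hsq hpM E hN'' hpS hNS hfrobQ
      (tw := prodTw P.O (tw₁Q Q hq hqM hsq hcong hp3 (LowerQ.hζpow P) (LowerQ.hζsub P) twP hD)
        (twχQ Q hq hqM hsq hcong hp3 (LowerQ.hζpow P) (LowerQ.hζsub P) twP hD)) DQ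
  have hqSu : q ∈ P.Su := E.last ▸ E.mem (Fin.last s)
  exact groupsOn_of_twP Q hq hqM hsq hcong hp3 (LowerQ.hζpow P) (LowerQ.hζsub P) twP hD θQ
    ℓs E.last (GaloisRep.flatCondition P.O p) DQ hno hqp (LowerQ.hζne P ha)
    (P.mem_Su_iff.mp hqSu).2.2.2 hN'' hpS hNS hsym hfrobQ dℓ hdℓ hnd hι hlocP
    ψ hψl ρQ hψ hequiv hρ hdet hu hres

/-- **THE FLAT GROUPS**: `LowerQ.FlatGroupsStmt`. -/
theorem flatGroups : LowerQ.FlatGroupsStmt := by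
  intro p _ W hcard₁ hker M q C a n' hfac hn' ha P s ℓ E Sig hSig g
  haveI : Fact (ℓ (Fin.last s)).Prime := ⟨E.prime _⟩
  intro n Q hTW3 DQ hΘ
  exact groupsOn_flat Q C.hq C.hqM C.hsf (LowerQ.hcong_of_fac hfac) (Ok3W.of_semistable C.hss) ha
    C.hpM C.hqp C.hno E DQ

end

end GB.B9.ProviderFlat.FlatGroups

end Fermat.Agent.GE8.P3B
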