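/-
GATE-B / B9 PROVIDER, flat branch, **STAGE B of the final wiring** (helper6): the two binders
`h1` (1pt) and `hnu` (G6) that helper54's `FlatGroups.groupsOn_of_twP_aux` still carries, in HIS
spelling (ring `G2.T … twP hD θQ`, actions `G2.a₁ / G2.a₂`, level datum `Plug.tw …` `= Q.tw1F …`),
from helper49's `G4H1.h1_G2` and helper35's `G6.TWSetG6.hnu_tw1F`.

* `h1_twR` : the binder `h1` of `groupsOn_of_twP_aux` / `LowerFill.groupsOn_of_parts` VERBATIM.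
  New binders w.r.t. the `aux` context: `hsym` (`= hsym` of `G2.exists_twP_hecke` at
  `ev := Q.lamTop`) and `hfrobQ` (clause 6 of `PkgLevel.exists_thetaQ`).
* `hnu_twR` : the binder `hnu` of `groupsOn_of_twP_aux` at `ℓs (Fin.last s) := q`.
  New binders: `hcq0 : cq ≠ 1`, `hunrbar : P.rhobar.IsUnramifiedAt q`.
-/
import Fermat.Agent.GE8.P3B.GB.B9.ProviderFlat.G2
import Fermat.Agent.GE8.P3B.GB.B9.ProviderFlat.G2HT
import Fermat.Agent.GE8.P3B.GB.B9.ProviderFlat.G4H1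
import Fermat.Agent.GE8.P3B.GB.B9.ProviderFlat.G4B5
import Fermat.Agent.GE8.P3B.GB.B9.ProviderFlat.G6
import Fermat.Agent.GE8.P3B.StepGen
import Fermat.Agent.GE8.P3B.Ok3W

/- TWIN (helper6 B4 generator; conventions of helper24 / helper86) of `Fermat.Agent.GB.B9.ProviderFlat.FlatFill` with `p ≠ 3` relaxed to `Ok3A Sy 𝔪 p` / `Ok3W p W` (RISK-5 fix (B), step B4); everything below lives in the wrapper namespace `Fermat.Agent.GE8.P3B`. -/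
set_option linter.dupNamespace false
open Fermat Fermat.Agent Fermat.Agent.GB Fermat.Agent.GB.B3 Fermat.Agent.GB.B3.ChiLevelMulti Fermat.Agent.GB.B3.GamH Fermat.Agent.GB.B3.HeckeActH Fermat.Agent.GB.B3.RealLevel Fermat.Agent.GB.B3.TWChars Fermat.Agent.GB.B3.TWLevel Fermat.Agent.GB.B4 Fermat.Agent.GB.B4.Datum Fermat.Agent.GB.B4.Datum.ImageRing Fermat.Agent.GB.B4.Datum.TQFields Fermat.Agent.GB.B9 Fermat.Agent.GB.B9.ProviderFlat Fermat.Agent.GB.B9.ProviderFlat.H1 Fermat.Agent.GB.B9.ThetaT Fermat.Agent.GB.Def Fermat.Agent.GB.Def.FramedNodes Fermat.Agent.GB.Def.LocGenInst Fermat.Agent.GB.Setup Fermat.Agent.GB.Setup.SetupPkg Fermat.Agent.GJ Fermat.Agent.GJ.J2 Fermat.Agent.GJ.J2.Lat Fermat.Agent.GM Fermat.Agent.GM.B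

namespace Fermat.Agent.GE8.P3B

set_option autoImplicit false
set_option linter.unusedSectionVars false
set_option linter.unusedVariables false
set_option linter.style.haveILetI false

open WeierstrassCurve WeierstrassCurve.Affine.Point IsLocalRing
open scoped WeierstrassCurve.Affine
open scoped MatrixGroups
open CongruenceSubgroup ModularCurve.Period CuspForm Polynomial

namespace GB.B9.ProviderFlat.FlatFill

open GM.B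
open GB.B3.HeckeActH GB.B3.RealLevel GB.B3.Tower
  GB.B3.TWChars GB.B3.FinalTW GB.B3.Plug
  GB.B3.TWLevel GB.B3.GamH GB.B3.ChiLevelMulti
  GB.B3.Final
open GJ.J2.Lat
open GB.B4.Datum.ImageRing GB.B4.Datum.TQFields
open GB.Setup.SetupPkg
open GB.Def.FramedNodes GB.Def.LocGenInst
open GB.B9.ThetaT
open GB.B9.ProviderFlat.G1
open GB.B9.ProviderFlat.H1

/-- local instance (Prop-valued class) -/
local instance factPrimeOffFF {S : Set ℕ} (l : PrimesOff S) : Fact (l.1 : ℕ).Prime := ⟨l.1.2⟩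

/-- `ℚ̄`. -/
local notation "Qb" => AlgebraicClosure ℚ
/-- `G_ℚ`. -/
local notation "GQ" => (AlgebraicClosure ℚ ≃ₐ[ℚ] AlgebraicClosure ℚ)
/-- the character `Γ₀(N) → Δ` of a character of `(ℤ/N)ˣ`. -/
local notation "chiΓ" => GB.B3.EisGamma0.chi
/-- the structure map `A → T_Q`. -/
local notation "chiT" => GB.B4.Datum.ImageRing.chi
/-- `T / ker a₂`. -/
local notation "TchiK" => GB.Local.Multi.Kill2Field.Tchi
/-- the points of `T / ker a₂`. -/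
local notation "phiK" => GB.Local.Multi.Kill2Q.phi

noncomputable section

variable {p : ℕ} [hpF : Fact p.Prime] {W : WeierstrassCurve ℤ}
  {hcard₁ : Nat.card (Submodule.torsionBy ℤ
    ((W.map (Int.castRingHom ℚ))⁄(AlgebraicClosure ℚ)).Point p) = p ^ 2}
  {hker : GaloisFactorsThroughFiniteLevel
    (galoisRepModuleEnd (K := AlgebraicClosure ℚ) ℚ (W.map (Int.castRingHom ℚ)) p)}
  {M A : ℕ} {P : Pkg p W hcard₁ hker M A} {g n : ℕ} (Q : TWSet P g n)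
  {q eq : ℕ} (hq : q.Prime) (hqM : q ∣ M) (hsq : Squarefree M) (hcong : p ^ eq ∣ q - 1)
  (hp3 : Ok3W p W) {cq : P.O} (hcq : cq ^ p ^ eq = 1)
  (hcq1 : (1 : P.O) - cq ∈ Ideal.span {P.ϖ})

/-- the level datum of record in `Plug.tw` spelling (`= Q.tw1F …`, by `rfl`; = helper54's
`FlatGroups.twR`). -/
abbrev twR :=
  GB.B3.Plug.tw Q.Sy Q.𝔪 (Q.primeData hq hqM hsq hcong) (Q.hyp hp3) 1 g
    (fun _ : Fin 1 => cq) (TWSet.hc_one (g := g) (eOf_eq (n + 1) eq) hcq) (fun _ => hcq1)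

variable {N'' : ℕ} [NeZero N''] {SQ : Finset ℕ}
  (twP : ↥(heckeAlgebra N'' 2 (↑SQ : Set ℕ)) →+*
    Module.End P.O (bigLevel Q.Sy Q.𝔪 (Q.primeData hq hqM hsq hcong) (Q.hyp hp3) (1 + g)).M)
  (hD : ∀ t i,
    twP t * (bigLevel Q.Sy Q.𝔪 (Q.primeData hq hqM hsq hcong) (Q.hyp hp3) (1 + g)).D i =
      (bigLevel Q.Sy Q.𝔪 (Q.primeData hq hqM hsq hcong) (Q.hyp hp3) (1 + g)).D i * twP t)
  (θQ : ↥(heckeAlgebra N'' 2 (↑SQ : Set ℕ)) →+* P.k)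

/-- helper11's `G2.tw₁` at `Q` (= helper54's `FlatGroups.tw₁Q`) -/
abbrev tw₁Q :=
  G2.tw₁ Q.Sy Q.𝔪 (Q.primeData hq hqM hsq hcong) (Q.hyp hp3) 1 g
    (fun _ : Fin 1 => cq) (TWSet.hc_one (g := g) (eOf_eq (n + 1) eq) hcq) (fun _ => hcq1) twP hD

/-- helper11's `G2.twχ` at `Q` (= helper54's `FlatGroups.twχQ`) -/
abbrev twχQ :=
  G2.twχ Q.Sy Q.𝔪 (Q.primeData hq hqM hsq hcong) (Q.hyp hp3) 1 g
    (fun _ : Fin 1 => cq) (TWSet.hc_one (g := g) (eOf_eq (n + 1) eq) hcq) (fun _ => hcq1) twP hD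

/-- helper11's `G2.T` at `Q` (= helper54's `FlatGroups.TR`) -/
abbrev TR : Type :=
  G2.T Q.Sy Q.𝔪 (Q.primeData hq hqM hsq hcong) (Q.hyp hp3) 1 g
    (fun _ : Fin 1 => cq) (TWSet.hc_one (g := g) (eOf_eq (n + 1) eq) hcq) (fun _ => hcq1) twP hD θQ

/-- helper11's `G2.a₁` at `Q` (= helper54's `FlatGroups.a₁R`) -/
abbrev a₁R :=
  G2.a₁ Q.Sy Q.𝔪 (Q.primeData hq hqM hsq hcong) (Q.hyp hp3) 1 g
    (fun _ : Fin 1 => cq) (TWSet.hc_one (g := g) (eOf_eq (n + 1) eq) hcq) (fun _ => hcq1) twP hD θQ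

/-- helper11's `G2.a₂` at `Q` (= helper54's `FlatGroups.a₂R`) -/
abbrev a₂R :=
  G2.a₂ Q.Sy Q.𝔪 (Q.primeData hq hqM hsq hcong) (Q.hyp hp3) 1 g
    (fun _ : Fin 1 => cq) (TWSet.hc_one (g := g) (eOf_eq (n + 1) eq) hcq) (fun _ => hcq1) twP hD θQ

/-- `2` is a nonzerodivisor of `AlgebraicClosure (Frac O)` -/
theorem two_mul_eq_zero_algClosure (c : AlgebraicClosure (FractionRing P.O))
    (hc : (2 : AlgebraicClosure (FractionRing P.O)) * c = 0) : c = 0 := by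
  rcases mul_eq_zero.mp hc with h2 | h
  · exact absurd h2 two_ne_zero
  · exact h

/-- **the binder `h1` of `FlatGroups.groupsOn_of_twP_aux` / `LowerFill.groupsOn_of_parts`,
VERBATIM**, from helper49's `G4H1.h1_G2`. -/
theorem h1_twR
    (hpS : p ∈ SQ) (hNS : ∀ ℓ : ℕ, ℓ.Prime → ℓ ∣ N'' → ℓ ∈ SQ)
    (hSN : ∀ ℓ : ℕ, ℓ.Prime → ℓ ∣ Q.N → ℓ ∈ SQ)
    (dℓ : PrimesOff (↑SQ : Set ℕ) → Gamma0 Q.N)
    (hdℓ : ∀ (l : PrimesOff (↑SQ : Set ℕ)) (u : (ZMod Q.N)ˣ),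
      (u : ZMod Q.N) = ((l.1 : ℕ) : ZMod Q.N) →
        chiΓ (Theta (Δs p (eOf g (n + 1) eq)) (Q.primeData hq hqM hsq hcong).psi (1 + g))
            (dℓ l) ^ 2 *
          Theta (Δs p (eOf g (n + 1) eq)) (Q.primeData hq hqM hsq hcong).psi (1 + g) u = 1)
    (hnd : ∀ l : PrimesOff (↑SQ : Set ℕ), ¬ (l.1 : ℕ) ∣ Q.N)
    (hι : ∀ (l : PrimesOff (↑SQ : Set ℕ))
        (x : (bigLevel Q.Sy Q.𝔪 (Q.primeData hq hqM hsq hcong) (Q.hyp hp3) (1 + g)).M),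
      (bigReal Q.Sy Q.𝔪 (Q.primeData hq hqM hsq hcong) (Q.hyp hp3) (1 + g)).ι
          (twP (formsGenS N'' (↑SQ : Set ℕ) l) x) =
        diaH (Theta (Δs p (eOf g (n + 1) eq)) (Q.primeData hq hqM hsq hcong).psi (1 + g)) P.O
          (dℓ l)
          (TH (Theta (Δs p (eOf g (n + 1) eq)) (Q.primeData hq hqM hsq hcong).psi (1 + g)) P.O
            (hnd l)
            ((bigReal Q.Sy Q.𝔪 (Q.primeData hq hqM hsq hcong) (Q.hyp hp3) (1 + g)).ι x)))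
    (hsym : ∀ l : PrimesOff (↑SQ : Set ℕ), ∃ i : Q.Sy.ι₁, Q.Sy.ℓ i = (l.1 : ℕ) ∧
      θQ (formsGenS N'' (↑SQ : Set ℕ) l) = Q.lamTop (MvPolynomial.X (Sum.inl i)))
    (hfrobQ : ∀ (ℓ : ℕ) (hℓ : ℓ.Prime) (hℓN : ¬ ℓ ∣ N'') (hℓS : ℓ ∉ (↑SQ : Set ℕ))
      (Pl : ValuationSubring Qb), Pl.LiesOverPrime ℓ → ∀ σ : GQ, Pl.IsFrobeniusAt σ ℓ →
        LinearMap.charpoly (P.rhobar.ρ σ) =
          X ^ 2 - C (θQ (heckeAlgebra.T hℓ hℓN hℓS)) * X + C ((ℓ : ℕ) : P.k))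
    [Fact (LocHyp P.O θQ (prodTw P.O (tw₁Q Q hq hqM hsq hcong hp3 hcq hcq1 twP hD)
      (twχQ Q hq hqM hsq hcong hp3 hcq hcq1 twP hD)))]
    [Module.Finite P.O ((twR Q hq hqM hsq hcong hp3 hcq hcq1).L1.M ×
      (twR Q hq hqM hsq hcong hp3 hcq hcq1).Lχ.M)]
    [Module.Free P.O ((twR Q hq hqM hsq hcong hp3 hcq hcq1).L1.M ×
      (twR Q hq hqM hsq hcong hp3 hcq hcq1).Lχ.M)]
    [Nontrivial ((twR Q hq hqM hsq hcong hp3 hcq hcq1).L1.M ×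
      (twR Q hq hqM hsq hcong hp3 hcq hcq1).Lχ.M)]
    (ρQ : GaloisRepAdic (TR Q hq hqM hsq hcong hp3 hcq hcq1 twP hD θQ))
    (hρ : ∀ (ℓ : ℕ) (hℓ : ℓ.Prime) (hℓN : ¬ ℓ ∣ N'') (hℓS : ℓ ∉ (↑SQ : Set ℕ))
        (Pl : ValuationSubring Qb), Pl.LiesOverPrime ℓ → ∀ σ : GQ, Pl.IsFrobeniusAt σ ℓ →
          LinearMap.charpoly (ρQ.ρ σ) =
            X ^ 2 - C (chiT P.O θQ (prodTw P.O (tw₁Q Q hq hqM hsq hcong hp3 hcq hcq1 twP hD)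
                (twχQ Q hq hqM hsq hcong hp3 hcq hcq1 twP hD)) (heckeAlgebra.T hℓ hℓN hℓS)) * X
              + C ((ℓ : TR Q hq hqM hsq hcong hp3 hcq hcq1 twP hD θQ))) :
    ∀ (i : Fin g) (Pl : ValuationSubring Qb) (hPl : Pl.LiesOverPrime (Q.qv (Fin.rev i)))
      (σ : GQ) (hσ : σ ∈ Pl.inertiaSubgroupIn ℚ)
      (Bas : Module.Basis (Fin 2) (TR Q hq hqM hsq hcong hp3 hcq hcq1 twP hD θQ) ρQ.V)
      (χ : Fin 2 → Pl.decompositionSubgroup ℚ →*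
        (TR Q hq hqM hsq hcong hp3 hcq hcq1 twP hD θQ)ˣ),
      (∀ (j : Fin 2) (τ : Pl.decompositionSubgroup ℚ),
        ρQ.ρ (τ : GQ) (Bas j) =
          (χ j τ : TR Q hq hqM hsq hcong hp3 hcq hcq1 twP hD θQ) • Bas j) →
      ∀ θ : TR Q hq hqM hsq hcong hp3 hcq hcq1 twP hD θQ →ₐ[P.O]
          AlgebraicClosure (FractionRing P.O),
        (G4.Occ₁ (twR Q hq hqM hsq hcong hp3 hcq hcq1).L1
            (a₁R Q hq hqM hsq hcong hp3 hcq hcq1 twP hD θQ) i θ ∨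
          G4.Occ₁ (twR Q hq hqM hsq hcong hp3 hcq hcq1).Lχ
            (a₂R Q hq hqM hsq hcong hp3 hcq hcq1 twP hD θQ) i θ) →
          θ (χ 0 ⟨σ, GB.E2.TWDiag.inertia_le_decomposition Pl hσ⟩ :
            TR Q hq hqM hsq hcong hp3 hcq hcq1 twP hD θQ) = 1 := by
  intro i Pl hPl σ hσ Bas χ hχ θ hocc
  haveI : Algebra.IsIntegral P.O (TR Q hq hqM hsq hcong hp3 hcq hcq1 twP hD θQ) :=
    Algebra.IsIntegral.of_finite P.O _
  have hker𝔪 : ∀ t : Q.Sy.𝕋 P.O, t ∈ Q.𝔪 ↔ Q.lamTop t = 0 := fun t => by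
    rw [Q.h𝔪]
    exact RingHom.mem_ker
  have hfrob : ∀ l : PrimesOff (↑SQ : Set ℕ),
      ∀ P' : ValuationSubring Qb, P'.LiesOverPrime (l.1 : ℕ) → ∀ σ' : GQ,
        P'.IsFrobeniusAt σ' (l.1 : ℕ) →
        ∃ d₀ : P.k, LinearMap.charpoly (P.rhobar.ρ σ')
          = X ^ 2 - C (θQ (formsGenS N'' (↑SQ : Set ℕ) l)) * X + C d₀ := by
    intro l P' hP' σ' hσ'
    have hlN'' : ¬ (l.1 : ℕ) ∣ N'' := fun h => l.2 (Finset.mem_coe.mpr (hNS _ l.1.2 h))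
    refine ⟨(((l.1 : ℕ) : ℕ) : P.k), ?_⟩
    rw [formsGenS_of_not_dvd N'' (↑SQ : Set ℕ) l hlN'']
    exact hfrobQ (l.1 : ℕ) l.1.2 hlN'' l.2 P' hP' σ' hσ'
  have hP : Pl.LiesOverPrime (rOf Q.qv q (g - 1 - (i : ℕ))) := by
    rw [GB.B9.ProviderFlat.G4TW.rOf_rev Q i]
    exact hPl
  exact G4H1.h1_G2 Q.Sy Q.𝔪 (Q.primeData hq hqM hsq hcong) (Q.hyp hp3) 1 g
    (fun _ : Fin 1 => cq) (TWSet.hc_one (g := g) (eOf_eq (n + 1) eq) hcq) (fun _ => hcq1)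
    twP hD θQ (G7.TWSetG7.squarefree_N Q hsq) (Nat.le_of_eq (Nat.add_comm 1 g)) i ρQ hpS hNS hSN
    hρ dℓ hdℓ hnd hι Q.lamTop hker𝔪 hsym P.rhobar P.habs hfrob
    (two_mul_eq_zero_algClosure (P := P))
    (G4B5.rOf_rev_ne Q i) Pl hP Bas χ hχ σ hσ
    (GB.E2.TWDiag.inertia_le_decomposition Pl hσ) θ hocc 0

/-- **the binder `hnu` of `FlatGroups.groupsOn_of_twP_aux`** (at `ℓs (Fin.last s) := q`), from
helper35's `G6.TWSetG6.hnu_tw1F`. -/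
theorem hnu_twR (hcq0 : cq ≠ 1) (hqp : q ≠ p)
    (hN'' : N'' = Q.N * ∏ i : Fin (1 + g), rOf Q.qv q i)
    (hpS : p ∈ SQ) (hNS : ∀ ℓ : ℕ, ℓ.Prime → ℓ ∣ N'' → ℓ ∈ SQ)
    (hT : ∀ (ℓ : ℕ) (hℓ : ℓ.Prime) (hℓN' : ¬ ℓ ∣ N'') (hℓS : ℓ ∉ (↑SQ : Set ℕ))
        (hℓN : ¬ ℓ ∣ Q.N),
      haveI : Fact ℓ.Prime := ⟨hℓ⟩
      ∃ d : Gamma0 Q.N,
        (∀ u : (ZMod Q.N)ˣ, (u : ZMod Q.N) = ((ℓ : ℕ) : ZMod Q.N) →
          chiΓ (Theta (Δs p (eOf g (n + 1) eq)) (Q.primeData hq hqM hsq hcong).psi (1 + g)) d ^ 2 *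
            Theta (Δs p (eOf g (n + 1) eq)) (Q.primeData hq hqM hsq hcong).psi (1 + g) u = 1) ∧
        ∀ x : (bigLevel Q.Sy Q.𝔪 (Q.primeData hq hqM hsq hcong) (Q.hyp hp3) (1 + g)).M,
          (bigReal Q.Sy Q.𝔪 (Q.primeData hq hqM hsq hcong) (Q.hyp hp3) (1 + g)).ι
              (twP (heckeAlgebra.T hℓ hℓN' hℓS) x)
            = diaH (Theta (Δs p (eOf g (n + 1) eq)) (Q.primeData hq hqM hsq hcong).psi (1 + g))
                P.O d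
                (TH (Theta (Δs p (eOf g (n + 1) eq)) (Q.primeData hq hqM hsq hcong).psi (1 + g))
                  P.O hℓN
                  ((bigReal Q.Sy Q.𝔪 (Q.primeData hq hqM hsq hcong) (Q.hyp hp3) (1 + g)).ι x)))
    [Fact (LocHyp P.O θQ (prodTw P.O (tw₁Q Q hq hqM hsq hcong hp3 hcq hcq1 twP hD)
      (twχQ Q hq hqM hsq hcong hp3 hcq hcq1 twP hD)))]
    [Module.Finite P.O ((twR Q hq hqM hsq hcong hp3 hcq hcq1).L1.M ×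
      (twR Q hq hqM hsq hcong hp3 hcq hcq1).Lχ.M)]
    [Module.Free P.O ((twR Q hq hqM hsq hcong hp3 hcq hcq1).L1.M ×
      (twR Q hq hqM hsq hcong hp3 hcq hcq1).Lχ.M)]
    [Nontrivial ((twR Q hq hqM hsq hcong hp3 hcq hcq1).L1.M ×
      (twR Q hq hqM hsq hcong hp3 hcq hcq1).Lχ.M)]
    [IsReduced (TR Q hq hqM hsq hcong hp3 hcq hcq1 twP hD θQ)]
    {𝒟 : ∀ ⦃B : Type⦄ [CommRing B] [IsLocalRing B] [Algebra P.O B], GaloisRepAdic B → Prop}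
    {DQ : GaloisRep.DeformationRingData P.O P.rhobar 𝒟}
    (ψ : DQ.R →ₐ[P.O] TR Q hq hqM hsq hcong hp3 hcq hcq1 twP hD θQ)
    (hψl : IsLocalHom (ψ : DQ.R →+* TR Q hq hqM hsq hcong hp3 hcq hcq1 twP hD θQ))
    (ρQ : GaloisRepAdic (TR Q hq hqM hsq hcong hp3 hcq hcq1 twP hD θQ))
    (hequiv : (DQ.ρ.baseChangeAlong
      (ψ : DQ.R →+* TR Q hq hqM hsq hcong hp3 hcq hcq1 twP hD θQ) hψl).IsEquiv ρQ)
    (hρ : ∀ (ℓ : ℕ) (hℓ : ℓ.Prime) (hℓN : ¬ ℓ ∣ N'') (hℓS : ℓ ∉ (↑SQ : Set ℕ))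
        (Pl : ValuationSubring Qb), Pl.LiesOverPrime ℓ → ∀ σ : GQ, Pl.IsFrobeniusAt σ ℓ →
          LinearMap.charpoly (ρQ.ρ σ) =
            X ^ 2 - C (chiT P.O θQ (prodTw P.O (tw₁Q Q hq hqM hsq hcong hp3 hcq hcq1 twP hD)
                (twχQ Q hq hqM hsq hcong hp3 hcq hcq1 twP hD)) (heckeAlgebra.T hℓ hℓN hℓS)) * X
              + C ((ℓ : TR Q hq hqM hsq hcong hp3 hcq hcq1 twP hD θQ)))
    (hres : ρQ.residual.IsEquiv
      (P.rhobar.baseChangeAlong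
        (ResidueField.map (algebraMap P.O (TR Q hq hqM hsq hcong hp3 hcq hcq1 twP hD θQ)))))
    (hunrbar : P.rhobar.IsUnramifiedAt q) :
    haveI : Fact q.Prime := ⟨hq⟩
    ∀ φ τ₀ : GQ, KummerTests q p φ τ₀ →
      ∀ i : GB.Glue.Points.Idx P.O
          (TchiK (a₂R Q hq hqM hsq hcong hp3 hcq hcq1 twP hD θQ)),
        ((matT ψ τ₀).map (phiK (a₂R Q hq hqM hsq hcong hp3 hcq hcq1 twP hD θQ) i) - 1) ^ 2 = 0 →
          (matT ψ τ₀).map (phiK (a₂R Q hq hqM hsq hcong hp3 hcq hcq1 twP hD θQ) i) = 1 :=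
  G6.TWSetG6.hnu_tw1F Q hq hqM hsq hcong hp3 hcq hcq1 hcq0 SQ hpS hqp hN''
    (fun ℓ hℓ hd => Finset.mem_coe.mpr (hNS ℓ hℓ hd))
    ψ hψl ρQ hequiv hres hunrbar
    (chiT P.O θQ (prodTw P.O (tw₁Q Q hq hqM hsq hcong hp3 hcq hcq1 twP hD)
      (twχQ Q hq hqM hsq hcong hp3 hcq hcq1 twP hD)))
    (a₂R Q hq hqM hsq hcong hp3 hcq hcq1 twP hD θQ)
    (twχQ Q hq hqM hsq hcong hp3 hcq hcq1 twP hD)
    (G2.a₂_chi Q.Sy Q.𝔪 (Q.primeData hq hqM hsq hcong) (Q.hyp hp3) 1 g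
      (fun _ : Fin 1 => cq) (TWSet.hc_one (g := g) (eOf_eq (n + 1) eq) hcq) (fun _ => hcq1)
      twP hD θQ)
    twP
    (G2.twχ_fmk Q.Sy Q.𝔪 (Q.primeData hq hqM hsq hcong) (Q.hyp hp3) 1 g
      (fun _ : Fin 1 => cq) (TWSet.hc_one (g := g) (eOf_eq (n + 1) eq) hcq) (fun _ => hcq1)
      twP hD)
    hT hρ

end

end GB.B9.ProviderFlat.FlatFill

end Fermat.Agent.GE8.P3B
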