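/-
GATE-B / B9 PROVIDER, group G4 = (P5) (helper6), file 7: **G4 on `Q.tw1F …`** = THE `TWLevelData`
of record (RULING R9, helper51 `G1One`: ONE B3 framed step `q`, `g` Taylor–Wiles primes).

`exists_x_tw1F` = the binders `x hx unit₁ unit₂` of `G1.TWSet.exists_level1` VERBATIM; twin of
`G4TW.exists_x_twF` (`Q.twF … 0 …` and `Q.tw1F …` are not definitionally equal: the character
family occurs in the TYPE of the level data).  Proof: `G4.exists_x_of_residual` is `tw`-generic.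
-/
import Fermat.Agent.GE8.P3B.GB.B9.ProviderFlat.G4TW
import Fermat.Agent.GE8.P3B.GB.B9.ProviderFlat.G1One
import Fermat.Agent.GE8.P3B.StepGen
import Fermat.Agent.GE8.P3B.Ok3W

/- TWIN (helper6 B4 generator; conventions of helper24 / helper86) of `Fermat.Agent.GB.B9.ProviderFlat.G4TW1` with `p ≠ 3` relaxed to `Ok3A Sy 𝔪 p` / `Ok3W p W` (RISK-5 fix (B), step B4); everything below lives in the wrapper namespace `Fermat.Agent.GE8.P3B`. -/
set_option linter.dupNamespace false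
open Fermat Fermat.Agent Fermat.Agent.Common_helper32 Fermat.Agent.GB Fermat.Agent.GB.B3 Fermat.Agent.GB.B3.TWChars Fermat.Agent.GB.B3.TWLevel Fermat.Agent.GB.B9 Fermat.Agent.GB.B9.ProviderFlat Fermat.Agent.GB.B9.ProviderFlat.G4 Fermat.Agent.GB.B9.ProviderFlat.H1 Fermat.Agent.GB.E2 Fermat.Agent.GB.E2.TWDiag Fermat.Agent.GB.Glue Fermat.Agent.GB.Glue.Points Fermat.Agent.GB.Setup Fermat.Agent.GB.Setup.SetupPkg

namespace Fermat.Agent.GE8.P3B

set_option autoImplicit false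
set_option linter.unusedSectionVars false
set_option linter.unusedVariables false
set_option linter.style.haveILetI false

open IsLocalRing
open scoped MatrixGroups
open CongruenceSubgroup

namespace GB.B9.ProviderFlat.G4TW

open Polynomial GB.Setup.SetupPkg GB.B3.TWLevel
  GB.B3.TWChars GB.B3.Final GB.B3.FinalTW
  GB.B3.Tower GB.B9.ProviderFlat.H1
  GB.B9.ProviderFlat.G1 GB.B9.ProviderFlat.G4
  Common_helper32 GB.E2.TWDiag GB.Glue.Points

variable {p : ℕ} [hpF : Fact p.Prime] {W : WeierstrassCurve ℤ}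
  {hcard₁ : Nat.card (Submodule.torsionBy ℤ
    ((W.map (Int.castRingHom ℚ)).toAffine.baseChange (AlgebraicClosure ℚ)).Point p) = p ^ 2}
  {hker : GaloisFactorsThroughFiniteLevel
    (WeierstrassCurve.Affine.Point.galoisRepModuleEnd (K := AlgebraicClosure ℚ) ℚ
      (W.map (Int.castRingHom ℚ)) p)}
  {M A : ℕ} {P : Pkg p W hcard₁ hker M A} {g n : ℕ} (Q : TWSet P g n)

variable {q eq : ℕ} (hq : q.Prime) (hqM : q ∣ M) (hsq : Squarefree M) (hcong : p ^ eq ∣ q - 1)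
  (hp3 : Ok3W p W) {cq : P.O} (hcq : cq ^ p ^ eq = 1)
  (hcq1 : (1 : P.O) - cq ∈ Ideal.span {P.ϖ})

/-- the orders of the Taylor–Wiles diamonds of `Q.tw1F` -/
theorem nfun_eq1 (i : Fin g) :
    Nfun p (eOf g (n + 1) eq) (1 + g) (Fin.natAdd 1 i) = p ^ (n + 1) :=
  congrFun (TWSet.Nfun_eq1 (g := g) (n := n) (e := eOf g (n + 1) eq)
    (fun i hi => eOf_lt (n + 1) eq hi)) i

instance neZero_nfun1 (i : Fin g) :
    NeZero (Nfun p (eOf g (n + 1) eq) (1 + g) (Fin.natAdd 1 i)) :=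
  ⟨(TWSet.Nfun_pos1 (p := p) (e := eOf g (n + 1) eq) i).ne'⟩

theorem dvd_nfun1 (i : Fin g) :
    p ∣ Nfun p (eOf g (n + 1) eq) (1 + g) (Fin.natAdd 1 i) := by
  rw [nfun_eq1]
  exact dvd_pow_self p (Nat.succ_ne_zero n)

/-- **G4 on `Q.tw1F …`**: the binders `x hx unit₁ unit₂` of `G1.TWSet.exists_level1`. -/
theorem exists_x_tw1F
    -- G2 (B4)
    (T : Type) [CommRing T] [IsLocalRing T] [Algebra P.O T] [IsLocalHom (algebraMap P.O T)]
    [Module.Finite P.O T] [IsReduced T] [IsNoetherianRing T] [IsAdicComplete (maximalIdeal T) T]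
    (a₁ : T →ₐ[P.O] Module.End P.O (Q.tw1F hq hqM hsq hcong hp3 hcq hcq1).L1.M)
    (a₂ : T →ₐ[P.O] Module.End P.O (Q.tw1F hq hqM hsq hcong hp3 hcq hcq1).Lχ.M)
    (a₁_D : ∀ t i, a₁ t * (Q.tw1F hq hqM hsq hcong hp3 hcq hcq1).L1.D i =
      (Q.tw1F hq hqM hsq hcong hp3 hcq hcq1).L1.D i * a₁ t)
    (a₂_D : ∀ t i, a₂ t * (Q.tw1F hq hqM hsq hcong hp3 hcq hcq1).Lχ.D i =
      (Q.tw1F hq hqM hsq hcong hp3 hcq hcq1).Lχ.D i * a₂ t)
    -- G3 : the Galois representation over `T`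
    (ρQ : GaloisRepAdic T) (hdet : ρQ.DetIsCyclotomic p)
    (hres : ρQ.residual.IsEquiv
      (P.rhobar.baseChangeAlong (ResidueField.map (algebraMap P.O T))))
    -- (1pt)
    (h1 : ∀ (i : Fin g) (Pl : ValuationSubring Qb) (hPl : Pl.LiesOverPrime (Q.qv i)) (σ : GQ)
      (hσ : σ ∈ Pl.inertiaSubgroupIn ℚ) (Bas : Module.Basis (Fin 2) T ρQ.V)
      (χ : Fin 2 → Pl.decompositionSubgroup ℚ →* Tˣ),
      (∀ (j : Fin 2) (τ : Pl.decompositionSubgroup ℚ),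
        ρQ.ρ (τ : GQ) (Bas j) = (χ j τ : T) • Bas j) →
      ∀ θ : T →ₐ[P.O] AlgebraicClosure (FractionRing P.O),
        (Occ₁ (Q.tw1F hq hqM hsq hcong hp3 hcq hcq1).L1 a₁ i θ ∨
          Occ₁ (Q.tw1F hq hqM hsq hcong hp3 hcq hcq1).Lχ a₂ i θ) →
          θ (χ 0 ⟨σ, inertia_le_decomposition Pl hσ⟩ : T) = 1)
    -- (B5) at the DVR points
    (hB5₁ : ∀ (i : Fin g) (x : Idx P.O T)
      (hloc : IsLocalHom ((ψ x : T →ₐ[P.O] Rq x) : T →+* Rq x)),
      (∀ t : T, (∀ m, a₁ t m ∈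
        (Q.tw1F hq hqM hsq hcong hp3 hcq hcq1).L1.unitSub p dvd_nfun1 i) → ψ x t = 0) →
      ¬ (ρQ.baseChangeAlong ((ψ x : T →ₐ[P.O] Rq x) : T →+* Rq x) hloc).IsUnipotentOnInertiaAt
        (Q.qv i))
    (hB5₂ : ∀ (i : Fin g) (x : Idx P.O T)
      (hloc : IsLocalHom ((ψ x : T →ₐ[P.O] Rq x) : T →+* Rq x)),
      (∀ t : T, (∀ m, a₂ t m ∈
        (Q.tw1F hq hqM hsq hcong hp3 hcq hcq1).Lχ.unitSub p dvd_nfun1 i) → ψ x t = 0) →
      ¬ (ρQ.baseChangeAlong ((ψ x : T →ₐ[P.O] Rq x) : T →+* Rq x) hloc).IsUnipotentOnInertiaAt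
        (Q.qv i)) :
    ∃ x : Fin g → T, (∀ i, x i - 1 ∈ maximalIdeal T) ∧
      (∀ i m, ∃ m', (Q.tw1F hq hqM hsq hcong hp3 hcq hcq1).L1.D i m - m = a₁ (x i) m' - m') ∧
      (∀ i m, ∃ m', (Q.tw1F hq hqM hsq hcong hp3 hcq hcq1).Lχ.D i m - m =
        a₂ (x i) m' - m') := by
  haveI : Module.IsTorsionFree P.O (AlgebraicClosure (FractionRing P.O)) :=
    GB.B9.ProviderFlat.G4Pkg.isTorsionFree_algebraicClosure P.O
  exact exists_x_of_residual (Q.tw1F hq hqM hsq hcong hp3 hcq hcq1) P.hp2 P.hpO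
    (fun i => ⟨n + 1, nfun_eq1 i⟩) dvd_nfun1 T a₁ a₂ a₁_D a₂_D
    (AlgebraicClosure (FractionRing P.O)) ρQ hdet P.rhobar hres Q.qv Q.prime
    (dvd_qv_sub_one Q) (unramified_qv Q) (charpoly_frob_qv Q) h1 hB5₁ hB5₂

end GB.B9.ProviderFlat.G4TW

end Fermat.Agent.GE8.P3B
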