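/-
GATE-B / B9 PROVIDER (flat branch), group G7, the SEAM to G2 (helper52): the two binders of
`G7One.TWSetG7.he_tw1F` / `Kill1Var.he_plug_var` / `Kill1TQ.he_plug` that G2 does not export
verbatim, from the shapes G2 DOES export.

* `hT_of_tw` : the binder `hT` (`twP (T_ℓ) = ⟨d⟩ T_ℓ` on the big level with a half-diamond `d`)
  from helper44's `TwInst.exists_tw_primeData` (`dℓ hdℓ` + the `T_ℓ`-formula of `tw` on the
  parabolic homomorphisms) and helper74's `TwRestrictPlug.exists_twP` (`ι (twP t m) = tw t ⟨ι m, _⟩`);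
* `hred_of_free` : the binder `hred` (`a₁ t ^ 2 = 0 → a₁ t = 0`) for a reduced finite `O`-algebra
  `T` acting on a module with an `O`-basis (`FreeLevel.basis` of `M¹_Q`).
-/
import Mathlib
import Fermat.Agent.GE8.P3B.GB.B7.Kill1Var
import Fermat.Agent.GB.B7.Kill1Plug
import Fermat.Agent.GE8.P3B.GB.B4.Twist.TwInst
import Fermat.Agent.GE8.P3B.StepGen
import Fermat.Agent.GE8.P3B.Ok3W

/- TWIN (helper6 B4 generator; conventions of helper24 / helper86) of `Fermat.Agent.GB.B9.ProviderFlat.G7Fill` with `p ≠ 3` relaxed to `Ok3A Sy 𝔪 p` / `Ok3W p W` (RISK-5 fix (B), step B4); everything below lives in the wrapper namespace `Fermat.Agent.GE8.P3B`. -/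
set_option linter.dupNamespace false
open Fermat Fermat.Agent Fermat.Agent.GB Fermat.Agent.GB.B3 Fermat.Agent.GB.B3.EisGamma0 Fermat.Agent.GB.B3.GamH Fermat.Agent.GB.B3.HeckeAct Fermat.Agent.GB.B3.HeckeActH Fermat.Agent.GB.B3.RealLevel Fermat.Agent.GB.B3.TWChars Fermat.Agent.GB.B3.TWLevel Fermat.Agent.GB.B9 Fermat.Agent.GJ Fermat.Agent.GJ.J2 Fermat.Agent.GJ.J2.Lat Fermat.Agent.GM Fermat.Agent.GM.B Fermat.Agent.GM.EisClass Fermat.Agent.S16_helper49

namespace Fermat.Agent.GE8.P3B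

set_option autoImplicit false
set_option linter.unusedSectionVars false
set_option linter.unusedVariables false
set_option linter.style.haveILetI false

noncomputable section

open scoped MatrixGroups
open CongruenceSubgroup Polynomial IsLocalRing CuspForm
open GM.B
open GB.B3 GB.B3.EisGamma0 GB.B3.GamH
open GB.B3.RealLevel GB.B3.HeckeActH GB.B3.HeckeAct
open GB.B3.TWChars GB.B3.Tower GB.B3.FinalTW
open GJ.J2.Lat

namespace GB.B9.ProviderFlat.G7Fill

open GB.B3.Plug GB.B3.TWLevel S16_helper49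
  ModularCurve.Period GM.EisClass

/-! ### `hT` -/

section HT

variable {N p K : ℕ} [NeZero N] [hpF : Fact p.Prime] {r e N'' : ℕ → ℕ}
variable (Sy : Symbols N)
variable {O : Type} [CommRing O] [IsDomain O] [IsDiscreteValuationRing O]
  [IsAdicComplete (maximalIdeal O) O] [CharZero O] [Finite (ResidueField O)]
variable (𝔪 : Ideal (Sy.𝕋 O)) [𝔪.IsMaximal]
variable (H : PrimeData N p K r e N'') {ϖ : O} {s0 : Sy.ι₁} (h : Plug.Hyp Sy 𝔪 p ϖ s0)
variable (j : ℕ) {N' : ℕ} [NeZero N'] (S : Set ℕ)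

/-- **the binder `hT` of `he_plug` / `he_plug_var` / `he_tw1F`** from the outputs of
`TwInst.exists_tw_primeData` (`dℓ`, `hdℓ`, `htwT`) and `TwRestrictPlug.exists_twP` (`twP`, `hιP`). -/
theorem hT_of_tw
    (dℓ : PrimesOff S → Gamma0 N)
    (hdℓ : ∀ (l : PrimesOff S) (u : (ZMod N)ˣ), (u : ZMod N) = ((l.1 : ℕ) : ZMod N) →
      chi (Theta (Δs p e) H.psi j) (dℓ l) ^ 2 * Theta (Δs p e) H.psi j u = 1)
    (tw : ↥(heckeAlgebra N' 2 S) →+*
      Module.End O ↥(parabolicHoms O (GammaH (Theta (Δs p e) H.psi j)) O))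
    (hN'S : ∀ l : PrimesOff S, ¬ (l.1 : ℕ) ∣ N') (hNS : ∀ l : PrimesOff S, ¬ (l.1 : ℕ) ∣ N)
    (htwT : ∀ (l : PrimesOff S)
        (v : ↥(parabolicHoms O (GammaH (Theta (Δs p e) H.psi j)) O)),
      haveI : Fact (l.1 : ℕ).Prime := ⟨l.1.2⟩
      ((tw (heckeAlgebra.T l.1.2 (hN'S l) l.2) v :
          ↥(parabolicHoms O (GammaH (Theta (Δs p e) H.psi j)) O)) :
          Additive (GammaH (Theta (Δs p e) H.psi j)) →+ O)
        = diaH (Theta (Δs p e) H.psi j) O (dℓ l)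
            (TH (Theta (Δs p e) H.psi j) O (hNS l)
              (v : Additive (GammaH (Theta (Δs p e) H.psi j)) →+ O)))
    (hpar : ∀ m : (bigLevel Sy 𝔪 H h j).M, (bigReal Sy 𝔪 H h j).ι m
      ∈ parabolicHoms O (GammaH (Theta (Δs p e) H.psi j)) O)
    (twP : ↥(heckeAlgebra N' 2 S) →+* Module.End O (bigLevel Sy 𝔪 H h j).M)
    (hιP : ∀ (t : ↥(heckeAlgebra N' 2 S)) (m : (bigLevel Sy 𝔪 H h j).M),
      (bigReal Sy 𝔪 H h j).ι (twP t m) =
        ((tw t ⟨(bigReal Sy 𝔪 H h j).ι m, hpar m⟩ :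
          ↥(parabolicHoms O (GammaH (Theta (Δs p e) H.psi j)) O)) :
          Additive (GammaH (Theta (Δs p e) H.psi j)) →+ O)) :
    ∀ (ℓ : ℕ) (hℓ : ℓ.Prime) (hℓN' : ¬ ℓ ∣ N') (hℓS : ℓ ∉ S) (hℓN : ¬ ℓ ∣ N),
      haveI : Fact ℓ.Prime := ⟨hℓ⟩
      ∃ d : Gamma0 N,
        (∀ u : (ZMod N)ˣ, (u : ZMod N) = ((ℓ : ℕ) : ZMod N) →
          chi (Theta (Δs p e) H.psi j) d ^ 2 * Theta (Δs p e) H.psi j u = 1) ∧
        ∀ x : (bigLevel Sy 𝔪 H h j).M,
          (bigReal Sy 𝔪 H h j).ι (twP (heckeAlgebra.T hℓ hℓN' hℓS) x)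
            = diaH (Theta (Δs p e) H.psi j) O d
                (TH (Theta (Δs p e) H.psi j) O hℓN ((bigReal Sy 𝔪 H h j).ι x)) := by
  intro ℓ hℓ hℓN' hℓS hℓN
  refine ⟨dℓ ⟨⟨ℓ, hℓ⟩, hℓS⟩, fun u hu => hdℓ ⟨⟨ℓ, hℓ⟩, hℓS⟩ u hu, fun x => ?_⟩
  rw [hιP]
  exact htwT ⟨⟨ℓ, hℓ⟩, hℓS⟩ ⟨(bigReal Sy 𝔪 H h j).ι x, hpar x⟩

end HT

/-! ### `hred` -/

section HRed

variable {O : Type} [CommRing O] [IsDomain O] {T : Type} [CommRing T] [Algebra O T]
  [IsReduced T] [Module.Finite O T]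
  {M : Type} [AddCommGroup M] [Module O M]

/-- **the binder `hred`**: a reduced finite `O`-algebra acting on a module with an `O`-basis acts
through a reduced ring. -/
theorem hred_of_basis {ι : Type} (b : Module.Basis ι O M) (a₁ : T →ₐ[O] Module.End O M) (t : T)
    (h : a₁ t * a₁ t = 0) : a₁ t = 0 := by
  haveI : Module.Free O M := Module.Free.of_basis b
  haveI : Module.IsTorsionFree O M := inferInstance
  exact GB.B7.Kill1Plug.hred_of_isReduced a₁ t h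

end HRed

end GB.B9.ProviderFlat.G7Fill
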