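/-
GATE-B / B9 PROVIDER (flat branch), group **G7 = `he`** AT helper11's G2 objects
(`ProviderFlat/G2`: `twP`, `G2.tw₁`, `G2.T`, `G2.a₁`) on THE `TWLevelData` of record
`Q.tw1F hq hqM hsq hcong hp3 hcq hcq1` (helper52).

`he_G2` = `G7One.TWSetG7.he_tw1F` with every G2 binder discharged by the G2 objects:

* `χ := ImageRing.chi`, `hχ := ImageRing.adjoin_range_chi`, `a₁ := G2.a₁`, `ha := G2.a₁_chi`,
  `tw₁ := G2.tw₁`, `hfmk := G2.tw₁_fmk` (`rfl`), `hred` from `[IsReduced T]` + the `O`-basis of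
  `M¹_Q` (`G7Fill.hred_of_basis`),
* `hT` from the `ι`-formula of `G2.exists_twP_hecke` on the generators
  (`formsGenS_of_not_dvd`) and the half-diamonds `dℓ hdℓ` of `G2.exists_dl_theta`.

Binders LEFT: the context facts (`hno : ¬ W.IsResiduallyModularOfLevel p (M / q)`, `q ≠ p`), the
outputs `twP hι hD` of `G2.exists_twP_hecke` (+ `dℓ hdℓ hnd`, `θA`), the instances
`[IsLocalRing T] [IsReduced T]` (`G2.isLocalRing_T`, `G2.isReduced_T`) and the G3 record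
`ψ hψ ρ_Q hequiv hρ` (helper28 `G3Q.exists_psi_Q` VERBATIM).  Conclusion = the field `he` of
`LowerFill.groupsOn_of_parts` at `a₁ := G2.a₁ …` (up to `ℓs (Fin.last s) = q`).
-/
import Mathlib
import Fermat.Agent.GE8.P3B.GB.B9.ProviderFlat.G7One
import Fermat.Agent.GE8.P3B.GB.B9.ProviderFlat.G7Fill
import Fermat.Agent.GE8.P3B.GB.B9.ProviderFlat.G2
import Fermat.Agent.GE8.P3B.StepGen
import Fermat.Agent.GE8.P3B.Ok3W

/- TWIN (helper6 B4 generator; conventions of helper24 / helper86) of `Fermat.Agent.GB.B9.ProviderFlat.G7G2` with `p ≠ 3` relaxed to `Ok3A Sy 𝔪 p` / `Ok3W p W` (RISK-5 fix (B), step B4); everything below lives in the wrapper namespace `Fermat.Agent.GE8.P3B`. -/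
set_option linter.dupNamespace false
open Fermat Fermat.Agent Fermat.Agent.GB Fermat.Agent.GB.B3 Fermat.Agent.GB.B3.ChiLevelMulti Fermat.Agent.GB.B3.EisGamma0 Fermat.Agent.GB.B3.GamH Fermat.Agent.GB.B3.HeckeAct Fermat.Agent.GB.B3.HeckeActH Fermat.Agent.GB.B3.RealLevel Fermat.Agent.GB.B3.TWChars Fermat.Agent.GB.B3.TWLevel Fermat.Agent.GB.B4 Fermat.Agent.GB.B4.Datum Fermat.Agent.GB.B4.Datum.ImageRing Fermat.Agent.GB.B7 Fermat.Agent.GB.B8 Fermat.Agent.GB.B8.LevelGen Fermat.Agent.GB.B8.LevelIter Fermat.Agent.GB.B9 Fermat.Agent.GB.B9.ProviderFlat Fermat.Agent.GB.B9.ProviderFlat.H1 Fermat.Agent.GB.B9.ThetaT Fermat.Agent.GB.Def Fermat.Agent.GB.Def.LocGenInst Fermat.Agent.GB.Setup Fermat.Agent.GB.Setup.SetupPkg Fermat.Agent.GJ Fermat.Agent.GJ.J2 Fermat.Agent.GJ.J2.Lat Fermat.Agent.GM Fermat.Agent.GM.B Fermat.Agent.GM.EisClass Fermat.Agent.S16_helper49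

namespace Fermat.Agent.GE8.P3B

set_option autoImplicit false
set_option linter.unusedSectionVars false
set_option linter.unusedVariables false
set_option linter.style.haveILetI false

noncomputable section

open scoped MatrixGroups
open CongruenceSubgroup Polynomial IsLocalRing CuspForm
open GM.B
open GB.B3 GB.B3.EisGamma0 GB.B3.GamH
open GB.B3.RealLevel GB.B3.HeckeActH GB.B3.HeckeAct
open GB.B3.TWChars GB.B3.Tower GB.B3.FinalTW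
open GJ.J2.Lat

namespace GB.B9.ProviderFlat.G7

/-- `G_ℚ`. -/
local notation "GQ" => AlgebraicClosure ℚ ≃ₐ[ℚ] AlgebraicClosure ℚ
/-- `ℚ̄`. -/
local notation "Qb" => AlgebraicClosure ℚ

open GB.B3.L1Iso GB.B3.Plug GB.B3.ChiLevelMulti
  GB.B3.Final GB.B3.TWLevel
  GB.B3.LocTransport S16_helper49 ModularCurve.Period
  GM.EisClass GB.B9.ThetaT
  GB.Setup.SetupPkg GB.B9.ProviderFlat.G1
  GB.B9.ProviderFlat.H1 GB.B7.Kill1Var
  GB.B8.LevelIter GB.B3.StepInst GB.B8.LevelGen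
  GB.Def.LocGenInst GB.B4.Datum.ImageRing

variable {p : ℕ} [hpF : Fact p.Prime] {W : WeierstrassCurve ℤ}
  {hcard₁ : Nat.card (Submodule.torsionBy ℤ
    ((W.map (Int.castRingHom ℚ)).toAffine.baseChange (AlgebraicClosure ℚ)).Point p) = p ^ 2}
  {hker : GaloisFactorsThroughFiniteLevel
    (WeierstrassCurve.Affine.Point.galoisRepModuleEnd (K := AlgebraicClosure ℚ) ℚ
      (W.map (Int.castRingHom ℚ)) p)}
  {M A : ℕ} {P : Pkg p W hcard₁ hker M A} {g n : ℕ} (Q : TWSet P g n)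

namespace TWSetG7

variable {q eq : ℕ} (hq : q.Prime) (hqM : q ∣ M) (hsq : Squarefree M) (hcong : p ^ eq ∣ q - 1)
  (hp3 : Ok3W p W) {cq : P.O} (hcq : cq ^ p ^ eq = 1) (hcq1 : (1 : P.O) - cq ∈ Ideal.span {P.ϖ})

/-- the forms level is a multiple of the level of record -/
theorem N_dvd_level {N'' : ℕ} (hN'' : N'' = Q.N * ∏ i : Fin (1 + g), rOf Q.qv q i) :
    Q.N ∣ N'' := Dvd.intro _ hN''.symm

variable {N'' : ℕ} [NeZero N''] (S : Finset ℕ)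
  (twP : ↥(heckeAlgebra N'' 2 (↑S : Set ℕ)) →+*
    Module.End P.O (bigLevel Q.Sy Q.𝔪 (Q.primeData hq hqM hsq hcong) (Q.hyp hp3) (1 + g)).M)
  (hD : ∀ t i, twP t * (bigLevel Q.Sy Q.𝔪 (Q.primeData hq hqM hsq hcong) (Q.hyp hp3) (1 + g)).D i =
    (bigLevel Q.Sy Q.𝔪 (Q.primeData hq hqM hsq hcong) (Q.hyp hp3) (1 + g)).D i * twP t)
  (θA : ↥(heckeAlgebra N'' 2 (↑S : Set ℕ)) →+* ResidueField P.O)

/-- **the ring `T_Q` of record**: helper11's `G2.T` at `Q.tw1F …` -/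
abbrev TG2 : Type :=
  G2.T Q.Sy Q.𝔪 (Q.primeData hq hqM hsq hcong) (Q.hyp hp3) 1 g (fun _ : Fin 1 => cq)
    (TWSet.hc_one (g := g) (eOf_eq (n + 1) eq) hcq) (fun _ => hcq1) twP hD θA

/-- **`a₁` of record**: helper11's `G2.a₁` at `Q.tw1F …` -/
abbrev a₁G2 : TG2 Q hq hqM hsq hcong hp3 hcq hcq1 S twP hD θA →ₐ[P.O]
    Module.End P.O (Q.tw1F hq hqM hsq hcong hp3 hcq hcq1).L1.M :=
  G2.a₁ Q.Sy Q.𝔪 (Q.primeData hq hqM hsq hcong) (Q.hyp hp3) 1 g (fun _ : Fin 1 => cq)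
    (TWSet.hc_one (g := g) (eOf_eq (n + 1) eq) hcq) (fun _ => hcq1) twP hD θA

variable {ρbar : ResidualGaloisRep (ResidueField P.O)}
  {𝒟 : ∀ ⦃A : Type⦄ [CommRing A] [IsLocalRing A] [Algebra P.O A], GaloisRepAdic A → Prop}
  {DQ : GaloisRep.DeformationRingData P.O ρbar 𝒟}

/-- **G7 at the G2 objects of record**: the field `he` of `LowerFill.groupsOn_of_parts` for
`T := G2.T …`, `a₁ := G2.a₁ …` on `Q.tw1F …`, for every Kummer test pair at `q`. -/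
theorem he_G2 (hno : ¬ W.IsResiduallyModularOfLevel p (M / q)) (hqp : q ≠ p)
    (hN'' : N'' = Q.N * ∏ i : Fin (1 + g), rOf Q.qv q i)
    (hS : ∀ q' : ℕ, q'.Prime → q' ∣ N'' → q' ∈ S) (hpS : p ∈ S)
    (dℓ : PrimesOff (↑S : Set ℕ) → Gamma0 Q.N)
    (hdℓ : ∀ (l : PrimesOff (↑S : Set ℕ)) (u : (ZMod Q.N)ˣ),
      (u : ZMod Q.N) = ((l.1 : ℕ) : ZMod Q.N) →
        chi (Theta (Δs p (eOf g (n + 1) eq)) (Q.primeData hq hqM hsq hcong).psi (1 + g)) (dℓ l) ^ 2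
          * Theta (Δs p (eOf g (n + 1) eq)) (Q.primeData hq hqM hsq hcong).psi (1 + g) u = 1)
    (hnd : ∀ l : PrimesOff (↑S : Set ℕ), ¬ (l.1 : ℕ) ∣ Q.N)
    (hι : ∀ (l : PrimesOff (↑S : Set ℕ))
        (x : (bigLevel Q.Sy Q.𝔪 (Q.primeData hq hqM hsq hcong) (Q.hyp hp3) (1 + g)).M),
      haveI : Fact (l.1 : ℕ).Prime := ⟨l.1.2⟩
      (bigReal Q.Sy Q.𝔪 (Q.primeData hq hqM hsq hcong) (Q.hyp hp3) (1 + g)).ι
          (twP (formsGenS N'' (↑S : Set ℕ) l) x) =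
        diaH (Theta (Δs p (eOf g (n + 1) eq)) (Q.primeData hq hqM hsq hcong).psi (1 + g)) P.O
          (dℓ l)
          (TH (Theta (Δs p (eOf g (n + 1) eq)) (Q.primeData hq hqM hsq hcong).psi (1 + g)) P.O
            (hnd l)
            ((bigReal Q.Sy Q.𝔪 (Q.primeData hq hqM hsq hcong) (Q.hyp hp3) (1 + g)).ι x)))
    [IsLocalRing (TG2 Q hq hqM hsq hcong hp3 hcq hcq1 S twP hD θA)]
    [IsReduced (TG2 Q hq hqM hsq hcong hp3 hcq hcq1 S twP hD θA)]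
    (ψ : DQ.R →ₐ[P.O] TG2 Q hq hqM hsq hcong hp3 hcq hcq1 S twP hD θA)
    (hψ : IsLocalHom (ψ : DQ.R →+* TG2 Q hq hqM hsq hcong hp3 hcq hcq1 S twP hD θA))
    (ρQ : GaloisRepAdic (TG2 Q hq hqM hsq hcong hp3 hcq hcq1 S twP hD θA))
    (hequiv : (DQ.ρ.baseChangeAlong
      (ψ : DQ.R →+* TG2 Q hq hqM hsq hcong hp3 hcq hcq1 S twP hD θA) hψ).IsEquiv ρQ)
    (hρ : ∀ (ℓ : ℕ) (hℓ : ℓ.Prime) (hℓN' : ¬ ℓ ∣ N'') (hℓS : ℓ ∉ (↑S : Set ℕ)),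
      ∀ A : ValuationSubring Qb, A.LiesOverPrime ℓ → ∀ σ : GQ, A.IsFrobeniusAt σ ℓ →
        LinearMap.charpoly (ρQ.ρ σ)
          = X ^ 2 - C (chi P.O θA _ (heckeAlgebra.T hℓ hℓN' hℓS)) * X
            + C ((ℓ : TG2 Q hq hqM hsq hcong hp3 hcq hcq1 S twP hD θA))) :
    haveI : Fact q.Prime := ⟨hq⟩
    ∀ φ τ₀ : GQ, KummerTests q p φ τ₀ →
      a₁G2 Q hq hqM hsq hcong hp3 hcq hcq1 S twP hD θA
        ((matT ψ φ).trace ^ 2 -
          (1 + (q : TG2 Q hq hqM hsq hcong hp3 hcq hcq1 S twP hD θA)) ^ 2) = 0 := by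
  haveI : Module.Finite P.O (TG2 Q hq hqM hsq hcong hp3 hcq hcq1 S twP hD θA) :=
    G2.finite_T Q.Sy Q.𝔪 (Q.primeData hq hqM hsq hcong) (Q.hyp hp3) 1 g (fun _ : Fin 1 => cq)
      (TWSet.hc_one (g := g) (eOf_eq (n + 1) eq) hcq) (fun _ => hcq1) twP hD θA
  have hSN : ∀ ℓ : ℕ, ℓ.Prime → ℓ ∣ Q.N → ℓ ∈ S := fun ℓ hℓ hℓN =>
    hS ℓ hℓ (hℓN.trans (N_dvd_level Q hN''))
  have hSN' : ∀ ℓ : ℕ, ℓ.Prime → ℓ ∣ N'' → ℓ ∈ (↑S : Set ℕ) := fun ℓ hℓ hℓN =>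
    Finset.mem_coe.mpr (hS ℓ hℓ hℓN)
  -- `hT` from the `ι`-formula on the generators
  have hT : ∀ (ℓ : ℕ) (hℓ : ℓ.Prime) (hℓN' : ¬ ℓ ∣ N'') (hℓS : ℓ ∉ (↑S : Set ℕ))
      (hℓN : ¬ ℓ ∣ Q.N),
      haveI : Fact ℓ.Prime := ⟨hℓ⟩
      ∃ d : Gamma0 Q.N,
        (∀ u : (ZMod Q.N)ˣ, (u : ZMod Q.N) = ((ℓ : ℕ) : ZMod Q.N) →
          chi (Theta (Δs p (eOf g (n + 1) eq)) (Q.primeData hq hqM hsq hcong).psi (1 + g)) d ^ 2 *
            Theta (Δs p (eOf g (n + 1) eq)) (Q.primeData hq hqM hsq hcong).psi (1 + g) u = 1) ∧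
        ∀ x : (bigLevel Q.Sy Q.𝔪 (Q.primeData hq hqM hsq hcong) (Q.hyp hp3) (1 + g)).M,
          (bigReal Q.Sy Q.𝔪 (Q.primeData hq hqM hsq hcong) (Q.hyp hp3) (1 + g)).ι
              (twP (heckeAlgebra.T hℓ hℓN' hℓS) x)
            = diaH (Theta (Δs p (eOf g (n + 1) eq)) (Q.primeData hq hqM hsq hcong).psi (1 + g))
                P.O d
                (TH (Theta (Δs p (eOf g (n + 1) eq)) (Q.primeData hq hqM hsq hcong).psi (1 + g))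
                  P.O hℓN
                  ((bigReal Q.Sy Q.𝔪 (Q.primeData hq hqM hsq hcong) (Q.hyp hp3) (1 + g)).ι x)) := by
    intro ℓ hℓ hℓN' hℓS hℓN
    refine ⟨dℓ ⟨⟨ℓ, hℓ⟩, hℓS⟩, fun u hu => hdℓ ⟨⟨ℓ, hℓ⟩, hℓS⟩ u hu, fun x => ?_⟩
    have h1 := hι ⟨⟨ℓ, hℓ⟩, hℓS⟩ x
    rw [formsGenS_of_not_dvd N'' (↑S : Set ℕ) ⟨⟨ℓ, hℓ⟩, hℓS⟩ hℓN'] at h1
    exact h1
  exact he_tw1F Q hq hqM hsq hcong hp3 hcq hcq1 hno S hSN hpS hqp hSN' ψ hψ ρQ hequiv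
    (chi P.O θA _) (adjoin_range_chi P.O θA _)
    (a₁G2 Q hq hqM hsq hcong hp3 hcq hcq1 S twP hD θA)
    (fun t ht => GB.B9.ProviderFlat.G7Fill.hred_of_basis
      (Q.tw1F hq hqM hsq hcong hp3 hcq hcq1).L1.basis _ t ht)
    (G2.tw₁ Q.Sy Q.𝔪 (Q.primeData hq hqM hsq hcong) (Q.hyp hp3) 1 g (fun _ : Fin 1 => cq)
      (TWSet.hc_one (g := g) (eOf_eq (n + 1) eq) hcq) (fun _ => hcq1) twP hD)
    (fun t => G2.a₁_chi Q.Sy Q.𝔪 (Q.primeData hq hqM hsq hcong) (Q.hyp hp3) 1 g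
      (fun _ : Fin 1 => cq) (TWSet.hc_one (g := g) (eOf_eq (n + 1) eq) hcq) (fun _ => hcq1)
      twP hD θA t)
    twP (fun t x => rfl) hT hρ

end TWSetG7

end GB.B9.ProviderFlat.G7

end

end Fermat.Agent.GE8.P3B
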